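import Fermat.Agent.TwoAdic.Selmer.Defs
import Fermat.Agent.CFT.GW.Killing

/-!
# Finiteness of the classes killed by the `U` primes

Quadratic characters of a number field unramified outside a finite set of primes are Kummer
characters of `T`-units, so the cocycles of `IsSV` form a finite space; a complement of the
coboundaries gives a finite family of representatives.
-/

set_option autoImplicit false
set_option synthInstance.maxHeartbeats 200000
set_option linter.style.haveILetI false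

noncomputable section

namespace Fermat.Agent.TwoAdic.Selmer

open ExtCitation Fermat.Agent.Arith Fermat.Agent.CFT.Local Fermat.Agent.CFT.Idele
open Fermat.Agent.CFT.GW Fermat.Agent.Deform Fermat.Agent.CFT.Tangent Fermat.Agent.CFT
open Fermat.Agent.Arith.Density Fermat.Agent.Arith.Chebotarev
open scoped Pointwise NumberField

local instance factPrimeSelFin (q : Nat.Primes) : Fact (q : ℕ).Prime := ⟨q.2⟩

section Kummer

variable {p : ℕ} [hp : Fact p.Prime] {K : IntermediateField ℚ QBar} [FiniteDimensional ℚ K]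

/-- The `S`-units modulo `p`-th powers form a finite group. -/
theorem finite_modP_sUnits (S : Finset Nat.Primes) : Finite (ModP p (sUnits S K)) := by
  classical
  haveI : NumberField K := ⟨⟩
  haveI : ∀ q, Fintype (PlaceOver q K) := fun q => Fintype.ofFinite _
  obtain ⟨V, hV⟩ := exists_ordHom S K
  let f : Additive (sUnits S K) →ₗ[ℤ] (SPlace S K → ℤ) :=
    (AddMonoidHom.mk' (fun x i => Multiplicative.toAdd (V x.toMul i)) fun x y => funext fun i => by
      rw [toMul_add, map_mul]; rfl).toIntLinearMap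
  have hle : sUnits ∅ K ≤ sUnits S K := fun x hx =>
    mem_sUnits.mpr ⟨(mem_sUnits.mp hx).1, fun q _ g => (mem_sUnits.mp hx).2 q (by simp) g⟩
  let g : Additive (𝓞 K)ˣ →ₗ[ℤ] Additive (sUnits S K) :=
    (MonoidHom.toAdditive ((intUnits K).codRestrict (sUnits S K)
      fun u => hle (intUnits_mem u))).toIntLinearMap
  have hker : LinearMap.ker f ≤ LinearMap.range g := by
    intro x hx
    have hx' : ∀ i, V x.toMul i = 1 := fun i =>
      Multiplicative.toAdd.injective (congrFun (LinearMap.mem_ker.mp hx) i)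
    obtain ⟨u, hu⟩ := exists_intUnits_eq (x := ((x.toMul : sUnits S K) : QBarˣ))
      (mem_sUnits.mpr ⟨(mem_sUnits.mp x.toMul.2).1, fun q _ σ => by
        by_cases hq : q ∈ S
        · have h := norm_value_eq (prin_mem_idl_iff.mpr (mem_sUnits.mp x.toMul.2).1) q σ
          refine Eq.trans h ?_
          exact (hV x.toMul ⟨⟨q, hq⟩, _⟩).mp (hx' _)
        · exact (mem_sUnits.mp x.toMul.2).2 q hq σ⟩)
    exact ⟨Additive.ofMul u, Additive.toMul.injective (Subtype.ext hu)⟩
  haveI : Module.Finite ℤ (Additive (sUnits S K)) :=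
    ⟨Submodule.fg_of_fg_map_of_fg_inf_ker f (IsNoetherian.noetherian _) (by
      rw [top_inf_eq]
      haveI : IsNoetherian ℤ (LinearMap.range g) :=
        isNoetherian_of_fg_of_noetherian _ (Module.Finite.iff_fg.mp inferInstance)
      exact Module.Finite.iff_fg.mp (Module.Finite.of_injective (Submodule.inclusion hker)
        (Submodule.inclusion_injective hker)))⟩
  haveI : AddGroup.FG (Additive (sUnits S K)) := Module.Finite.iff_addGroup_fg.mp inferInstance
  haveI : Group.FG (sUnits S K) := GroupFG.iff_add_fg.mpr inferInstance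
  haveI : Group.FG (sUnits S K ⧸ (powMonoidHom p : sUnits S K →* sUnits S K).range) :=
    Group.fg_of_surjective (f := QuotientGroup.mk' _) (QuotientGroup.mk'_surjective _)
  haveI : Finite (sUnits S K ⧸ (powMonoidHom p : sUnits S K →* sUnits S K).range) :=
    CommGroup.finite_of_fg_isMulTorsion _ fun x => by
      obtain ⟨x, rfl⟩ := QuotientGroup.mk_surjective x
      refine isOfFinOrder_iff_pow_eq_one.2 ⟨p, hp.out.pos, ?_⟩
      rw [← QuotientGroup.mk_pow, QuotientGroup.eq_one_iff]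
      exact ⟨x, rfl⟩
  exact Additive.ofMul.symm.finite_iff.mpr inferInstance

/-- Characters of order `p` unramified outside a finite set form a finite set, for every `p`. -/
theorem finite_kumChars_all [Normal ℚ K] {ζ : QBar}
    (hζ : IsPrimitiveRoot ζ p) (hζK : ζ ∈ K) {T : Finset Nat.Primes}
    (hK : K.IsUnramifiedOutside T) : (kumChars p K T).Finite := by
  classical
  obtain ⟨S, hTS, hgen⟩ := exists_finset_idl_classes (L := K) le_rfl T
  replace hgen : ∀ f ∈ idl K, ∃ c ∈ unitsOf K, f * prin c ∈ Idele.unitsOutside S K := fun f hf => by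
    obtain ⟨c, hc, hcT⟩ := hgen f hf
    exact ⟨c, hc, mul_mem hf (prin_mem_idl_iff.mpr hc), hcT⟩
  haveI := finite_modP_sUnits (p := p) (K := K) S
  let κ : ModP p (sUnits S K) → K.fixingSubgroup → ZMod p := fun v s =>
    kumFun hζ hζK (sUnits_le S K) s v
  refine (Set.finite_range κ).subset fun f hf => ?_
  obtain ⟨hf, ⟨L₀, hL₀, hlev⟩, hur⟩ := hf
  let M : IntermediateField ℚ QBar := K ⊔ L₀
  haveI : FiniteDimensional ℚ M := IntermediateField.finiteDimensional_sup _ _
  let L : IntermediateField ℚ QBar := IntermediateField.normalClosure ℚ M QBar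
  haveI : Normal ℚ L := PT.normal_normalClosure M
  haveI : FiniteDimensional ℚ L := normalClosure.is_finiteDimensional ℚ M QBar
  have hL₀L : L₀ ≤ L := (le_sup_right : L₀ ≤ M).trans M.le_normalClosure
  obtain ⟨β, hβ⟩ := exists_kummer_root hζ hζK f hf L fun s hs =>
    hlev s (IntermediateField.fixingSubgroup_antitone hL₀L hs)
  have haK : β ^ p ∈ unitsOf K := by
    show ((β ^ p : QBarˣ) : QBar) ∈ K
    rw [← InfiniteGalois.fixedField_fixingSubgroup K, IntermediateField.mem_fixedField_iff]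
    intro s hs
    rw [Units.val_pow_eq_pow_val, map_pow, hβ ⟨s, hs⟩, mul_pow, pow_right_comm,
      hζ.pow_eq_one, one_pow, one_mul]
  haveI : FiniteDimensional ℚ (IntermediateField.adjoin ℚ ({(β : QBar)} : Set QBar)) :=
    IntermediateField.adjoin.finiteDimensional (Algebra.IsIntegral.isIntegral _)
  have hK' := hK.mono hTS
  have hF : (K ⊔ IntermediateField.adjoin ℚ {(β : QBar)}).IsUnramifiedOutside S :=
    ⟨IntermediateField.finiteDimensional_sup _ _, fun q hq =>
      PT.InertiaFixes.sup (PT.inertiaFixes_of_ur hK' hq) (PT.inertiaFixes_adjoin (by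
        rintro y rfl A hA g hg
        have hgK : g ∈ K.fixingSubgroup := PT.inertiaFixes_of_ur hK' hq A hA hg
        rw [hβ ⟨g, hgK⟩, hur q (fun h => hq (hTS h)) A hA ⟨g, hgK⟩ hg, ZMod.val_zero, pow_zero,
          one_mul]))⟩
  obtain ⟨L₂, _, _, hL₂, hle⟩ := PT.exists_normal_ur_ge hF
  have hβL : (β : QBar) ∈ L₂ :=
    hle ((le_sup_right (a := K)) (IntermediateField.subset_adjoin _ _ rfl))
  have hdiv : ∀ q ∉ S, ∀ g : GQ, ∃ n : ℤ,
      ‖emb q (g ((β ^ p : QBarˣ) : QBar))‖ = ((q : ℕ) : ℝ) ^ ((p : ℤ) * n) := fun q hq g => by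
    have hne : localEmb (q : ℕ) L₂ (res L₂ g ⟨_, hβL⟩) ≠ 0 := by
      rw [map_ne_zero, map_ne_zero]
      exact fun h => β.ne_zero (congrArg Subtype.val h)
    obtain ⟨n, hn⟩ := PT.exists_norm_eq_zpow_of_ur L₂ hL₂ hq (Units.mk0 _ hne)
    refine ⟨n, ?_⟩
    rw [Units.val_mk0, PT.norm_localEmb_res] at hn
    rw [Units.val_pow_eq_pow_val, map_pow, map_pow, norm_pow, hn, ← zpow_natCast, ← zpow_mul,
      mul_comm n]
  obtain ⟨c, hc, hu⟩ := exists_sUnit_of_dvd hgen haK hdiv
  refine ⟨modClass p ⟨_, hu⟩, funext fun s => ?_⟩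
  show kumFun hζ hζK (sUnits_le S K) s (modClass p ⟨_, hu⟩) = f s
  have hb : ((β * c⁻¹ : QBarˣ) : QBar) ^ p = ((β ^ p * (c ^ p)⁻¹ : QBarˣ) : QBar) := by
    rw [← Units.val_pow_eq_pow_val, mul_pow, inv_pow]
  rw [kumFun_modClass, kum_eq hζ hζK s.2 (sUnits_le S K hu) (Units.ne_zero _) hb
    (i := (f s).val) ?_, ZMod.natCast_zmod_val]
  rw [Units.val_mul, map_mul, hβ s, (IntermediateField.mem_fixingSubgroup_iff _ _).mp s.2 _
    (show ((c⁻¹ : QBarˣ) : QBar) ∈ K from inv_mem hc), mul_assoc]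

end Kummer

variable (Fr : Frame)

/-- The cocycles of `IsSV` as a space over `F₂`. -/
def svClasses : Submodule (ZMod 2) (GQ → M2F) where
  carrier := {c | IsSV Fr c}
  zero_mem' :=
    { vCocycle := ⟨fun g g' => by simp, ⟨⊥, inferInstance, fun _ _ => rfl⟩,
        fun σ => by simp [InV]⟩
      unramified := fun _ _ _ _ _ _ _ _ => rfl
      line_T := fun _ _ _ _ => ⟨0, by simp [InV], fun σ _ => by simp⟩
      line_two := ⟨0, by simp [InV], fun σ _ => by simp⟩ }
  add_mem' := by
    rintro a b ⟨⟨ha, ⟨La, hLa, hla⟩, hva⟩, hua, hTa, h2a⟩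
      ⟨⟨hb, ⟨Lb, hLb, hlb⟩, hvb⟩, hub, hTb, h2b⟩
    have hline : ∀ P, LineAt Fr a P → LineAt Fr b P → LineAt Fr (a + b) P := by
      rintro P ⟨X, hX, hXa⟩ ⟨Y, hY, hYb⟩
      refine ⟨X + Y, ?_, fun σ hσ => ?_⟩
      · obtain ⟨x1, x2⟩ := hX
        obtain ⟨y1, y2⟩ := hY
        refine ⟨by simp [x1, y1], ?_⟩
        simp only [Matrix.add_apply, x2, y2]
        ring
      · have h1 := hXa σ hσ
        have h2 := hYb σ hσ
        simp only [Pi.add_apply, map_add, Matrix.add_apply] at h1 h2 ⊢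
        linear_combination h1 + h2
    refine ⟨⟨fun g g' => ?_, ⟨La ⊔ Lb, IntermediateField.finiteDimensional_sup _ _, fun σ hσ => ?_⟩,
      fun σ => ?_⟩, fun q hq h2 hT P hP σ hσ => ?_,
      fun q hq P hP => hline P (hTa q hq P hP) (hTb q hq P hP), hline _ h2a h2b⟩
    · simp only [Pi.add_apply, ha g g', hb g g', mul_add, add_mul]
      abel
    · rw [Pi.add_apply, hla σ fun x hx => hσ x (le_sup_left (a := La) hx),
        hlb σ fun x hx => hσ x (le_sup_right (a := La) hx), add_zero]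
    · obtain ⟨a1, a2⟩ := hva σ
      obtain ⟨b1, b2⟩ := hvb σ
      refine ⟨by simp [a1, b1], ?_⟩
      simp only [Pi.add_apply, Matrix.add_apply, a2, b2]
      ring
    · rw [Pi.add_apply, hua q hq h2 hT P hP σ hσ, hub q hq h2 hT P hP σ hσ, add_zero]
  smul_mem' := by
    intro t c hc
    rcases (by decide : ∀ t : ZMod 2, t = 0 ∨ t = 1) t with rfl | rfl
    · rw [zero_smul]
      exact
        { vCocycle := ⟨fun g g' => by simp, ⟨⊥, inferInstance, fun _ _ => rfl⟩,
            fun σ => by simp [InV]⟩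
          unramified := fun _ _ _ _ _ _ _ _ => rfl
          line_T := fun _ _ _ _ => ⟨0, by simp [InV], fun σ _ => by simp⟩
          line_two := ⟨0, by simp [InV], fun σ _ => by simp⟩ }
    · rwa [one_smul]

theorem mem_svClasses {c : GQ → M2F} : c ∈ svClasses Fr ↔ IsSV Fr c := Iff.rfl

/-- There are finitely many cocycles of `IsSV`. -/
theorem finite_svClasses : (svClasses Fr : Set (GQ → M2F)).Finite := by
  classical
  have hζ : IsPrimitiveRoot (-1 : QBar) 2 := IsPrimitiveRoot.neg_one 0 (by norm_num)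
  obtain ⟨Lr, hLr, hLr'⟩ := Fr.ρ_finiteLevel
  let K : IntermediateField ℚ QBar := IntermediateField.normalClosure ℚ Lr QBar
  haveI : Normal ℚ K := PT.normal_normalClosure Lr
  haveI : FiniteDimensional ℚ K := normalClosure.is_finiteDimensional ℚ Lr QBar
  haveI : IsGalois ℚ K := ⟨⟩
  have hζK : (-1 : QBar) ∈ K := neg_mem (one_mem _)
  have hrK : ∀ σ ∈ K.fixingSubgroup, Fr.ρ σ = 1 := fun σ hσ => hLr' σ fun x hx =>
    (IntermediateField.mem_fixingSubgroup_iff _ _).mp hσ x (Lr.le_normalClosure hx)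
  obtain ⟨B, hB⟩ := exists_bound_good K
  let T : Finset Nat.Primes := (Finset.range (B + 1) ∪ insert 2 Fr.T).subtype Nat.Prime
  have hT : ∀ q : Nat.Primes, q ∉ T → B < q ∧ (q : ℕ) ≠ 2 ∧ (q : ℕ) ∉ Fr.T := fun q hq => by
    refine ⟨not_le.mp fun h => hq ?_, fun h => hq ?_, fun h => hq ?_⟩
    · exact Finset.mem_subtype.mpr
        (Finset.mem_union_left _ (Finset.mem_range.mpr (Nat.lt_succ_of_le h)))
    · exact Finset.mem_subtype.mpr (Finset.mem_union_right _ (h ▸ Finset.mem_insert_self _ _))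
    · exact Finset.mem_subtype.mpr (Finset.mem_union_right _ (Finset.mem_insert_of_mem h))
  have hK : K.IsUnramifiedOutside T := ⟨inferInstance, fun q hq A hA σ hσ => by
    rw [IntermediateField.mem_fixingSubgroup_iff]
    exact (restrictNormalHom_eq_one_iff K).mp
      (inertia_fixes_of_good K q.2 (hB _ q.2 (hT q hq).1) hA hσ)⟩
  haveI := (finite_kumChars_all (p := 2) hζ hζK hK).to_subtype
  have hmem : ∀ c ∈ svClasses Fr, ∀ l : Fin 2 × Fin 2,
      (fun s : K.fixingSubgroup => c (s : GQ) l.1 l.2) ∈ kumChars 2 K T := by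
    rintro c ⟨⟨hc, ⟨L, hL, hlev⟩, -⟩, hur, -, -⟩ l
    refine ⟨fun s t => ?_, ⟨L, hL, fun s hs => ?_⟩, fun q hq A hA s hs => ?_⟩
    · simp only [Subgroup.coe_mul]
      rw [hc, hrK _ s.2, hrK _ (inv_mem s.2), one_mul, mul_one, Matrix.add_apply, add_comm]
    · show c (s : GQ) l.1 l.2 = 0
      rw [hlev _ ((IntermediateField.mem_fixingSubgroup_iff _ _).mp hs), Matrix.zero_apply]
    · show c (s : GQ) l.1 l.2 = 0
      rw [hur q q.2 (hT q hq).2.1 (hT q hq).2.2 A hA _ hs, Matrix.zero_apply]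
  let Θ : svClasses Fr → (((K ≃ₐ[ℚ] K) → M2F) × (Fin 2 × Fin 2 → kumChars 2 K T)) := fun b =>
    (fun g => (b : GQ → M2F) (Function.surjInv (AlgEquiv.restrictNormalHom_surjective QBar) g),
      fun l => ⟨_, hmem b b.2 l⟩)
  have hΘ : Function.Injective Θ := fun b b' e => by
    rw [Prod.mk.injEq] at e
    refine Subtype.ext (funext fun σ => ?_)
    set σ₀ := Function.surjInv (AlgEquiv.restrictNormalHom_surjective (K₁ := K) QBar)
      (AlgEquiv.restrictNormalHom K σ) with hσ₀
    have h0 : (b : GQ → M2F) σ₀ = (b' : GQ → M2F) σ₀ := congrFun e.1 _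
    have hker : σ₀⁻¹ * σ ∈ K.fixingSubgroup := by
      rw [IntermediateField.mem_fixingSubgroup_iff]
      refine (restrictNormalHom_eq_one_iff K).mp ?_
      rw [map_mul, map_inv, hσ₀,
        Function.surjInv_eq (AlgEquiv.restrictNormalHom_surjective (K₁ := K) QBar), inv_mul_cancel]
    have h1 : (b : GQ → M2F) (σ₀⁻¹ * σ) = (b' : GQ → M2F) (σ₀⁻¹ * σ) :=
      Matrix.ext fun i j => congrFun (congrArg Subtype.val (congrFun e.2 (i, j))) ⟨_, hker⟩
    rw [← mul_inv_cancel_left σ₀ σ, b.2.vCocycle.cocycle, b'.2.vCocycle.cocycle, h0, h1]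
  exact Set.finite_coe_iff.mp (Finite.of_injective Θ hΘ)

/-- A finite family of representatives of the classes of `IsSV`. -/
theorem exists_basis_SV : ∃ (n : ℕ) (cs : Fin n → GQ → M2F), (∀ i, IsSV Fr (cs i)) ∧
    (∀ c, IsSV Fr c → ∃ (e : Fin n → ZMod 2) (X : M2F),
      InV X ∧ c = ∑ i, e i • cs i + cobdLin Fr.ρ X) ∧
    (∀ (e : Fin n → ZMod 2) (X : M2F), InV X → ∑ i, e i • cs i = cobdLin Fr.ρ X → e = 0) := by
  classical
  haveI : Finite (svClasses Fr) := (finite_svClasses Fr).to_subtype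
  let B : Submodule (ZMod 2) (svClasses Fr) :=
    Submodule.span (ZMod 2) {c | ∃ X, InV X ∧ (c : GQ → M2F) = cobdLin Fr.ρ X}
  have hB : ∀ c ∈ B, ∃ X, InV X ∧ ((c : svClasses Fr) : GQ → M2F) = cobdLin Fr.ρ X := by
    intro c hc
    induction hc using Submodule.span_induction with
    | mem x hx => exact hx
    | zero => exact ⟨0, by simp [InV], by simp⟩
    | add x y _ _ hx hy =>
      obtain ⟨X, ⟨x1, x2⟩, ex⟩ := hx
      obtain ⟨Y, ⟨y1, y2⟩, ey⟩ := hy
      refine ⟨X + Y, ⟨by simp [x1, y1], ?_⟩, by rw [Submodule.coe_add, ex, ey, map_add]⟩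
      simp only [Matrix.add_apply, x2, y2]
      ring
    | smul t x _ hx =>
      obtain ⟨X, ⟨x1, x2⟩, ex⟩ := hx
      refine ⟨t • X, ⟨by simp [x1], ?_⟩, by rw [Submodule.coe_smul, ex, map_smul]⟩
      simp only [Matrix.smul_apply, x2, smul_eq_mul]
      ring
  obtain ⟨C, hC⟩ := exists_isCompl B
  let bas := Module.finBasis (ZMod 2) C
  refine ⟨Module.finrank (ZMod 2) C, fun i => ((bas i : svClasses Fr) : GQ → M2F),
    fun i => (bas i : svClasses Fr).2, fun c hc => ?_, fun e X hX he => ?_⟩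
  · have hmem : (⟨c, hc⟩ : svClasses Fr) ∈ C ⊔ B := by
      rw [hC.symm.sup_eq_top]; trivial
    obtain ⟨y, hy, z, hz, hyz⟩ := Submodule.mem_sup.mp hmem
    obtain ⟨X, hX, hXz⟩ := hB z hz
    refine ⟨bas.repr ⟨y, hy⟩, X, hX, ?_⟩
    have h1 : ((y : svClasses Fr) : GQ → M2F) =
        ∑ i, bas.repr ⟨y, hy⟩ i • ((bas i : svClasses Fr) : GQ → M2F) := by
      have h2 := congrArg (fun w : C => ((w : svClasses Fr) : GQ → M2F)) (bas.sum_repr ⟨y, hy⟩)
      simp only [Submodule.coe_sum, Submodule.coe_smul] at h2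
      exact h2.symm
    rw [← h1, ← hXz, ← Submodule.coe_add, hyz]
  · let s : C := ∑ i, e i • bas i
    have hs : ((s : svClasses Fr) : GQ → M2F) = cobdLin Fr.ρ X := by
      rw [← he]; simp [s]
    have h0 : (s : svClasses Fr) = 0 := (Submodule.disjoint_def.mp hC.disjoint) _
      (Submodule.subset_span ⟨X, hX, hs⟩) s.2
    have h1 : s = 0 := Subtype.ext h0
    exact funext (Fintype.linearIndependent_iff.mp bas.linearIndependent e h1)

end Fermat.Agent.TwoAdic.Selmer
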