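import Fermat.Agent.TwoAdic.Selmer.Residues

/-!
# The bound on the mod 2 Selmer classes

Modulo coboundaries a class is a scalar character, determined by one number at each prime of
`T`: there are at most `#T` independent classes.
-/

set_option autoImplicit false
set_option linter.style.haveILetI false

noncomputable section

namespace Fermat.Agent.TwoAdic.Selmer

open Fermat.Agent.Deform Fermat.Agent.Arith Fermat.Agent.CFT.Tangent
open scoped Pointwise

theorem eq_of_cobd_rot : ∀ X : M2F, InV X →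
    X = !![(rotM * X * rotM2 - X) 0 1, (rotM * X * rotM2 - X) 1 0;
      (rotM * X * rotM2 - X) 0 0, (rotM * X * rotM2 - X) 0 1] :=
  fun X h => forall_M2F
    (P := fun X => X 0 0 = X 1 1 → X 0 0 = X 0 1 + X 1 0 →
      X = !![(rotM * X * rotM2 - X) 0 1, (rotM * X * rotM2 - X) 1 0;
        (rotM * X * rotM2 - X) 0 0, (rotM * X * rotM2 - X) 0 1])
    (by decide) X h.1 h.2

theorem rot_cobd_table : ∀ g : M2F, g.det = 1 →
    g * rotM * inv2 g - rotM = if g = 1 ∨ g.trace = 1 then 0 else 1 :=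
  forall_M2F (by decide)

variable {k : Type} [Field k] [Algebra (ZMod 2) k] {Fr : Frame}

omit [Algebra (ZMod 2) k] in
theorem Frame.qc_root (Fr : Frame) (σ : GQ) :
    qc k Fr.root σ = if Fr.ρ σ = 1 ∨ (Fr.ρ σ).trace = 1 then 0 else 1 :=
  if_congr (Fr.root_iff σ) rfl rfl

theorem Frame.cobdLin_rot (Fr : Frame) (σ : GQ) :
    cobdLin (Fr.rhoK k) (liftM k rotM) σ = qc k Fr.root σ • 1 := by
  rw [cobdLin_apply, Fr.rhoK_apply, Fr.rhoK_apply, Fr.ρ_inv, ← map_mul, ← map_mul, ← map_sub,
    rot_cobd_table _ (Fr.det_ρ σ), Fr.qc_root]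
  split <;> simp

theorem Frame.cobdLin_of_eq_one (Fr : Frame) {σ : GQ} (h : Fr.ρ σ = 1) (Y : M2 k) :
    cobdLin (Fr.rhoK k) Y σ = 0 := by
  rw [cobdLin_apply, Fr.rhoK_conj_of_eq_one h, sub_self]

theorem Frame.cobdLin_refM_11 (Fr : Frame) {σ : GQ} (h : Fr.ρ σ = refM) (Y : M2 k) :
    cobdLin (Fr.rhoK k) Y σ 1 1 = Y 1 0 := by
  rw [cobdLin_apply, (Fr.rhoK_of_eq_refM h).1, (Fr.rhoK_of_eq_refM h).2]
  simp [liftM, refM, Matrix.mul_apply, Fin.sum_univ_two]

variable {ιD ιU : Type} [Fintype ιD] [Fintype ιU] {DP : DPrimes Fr ιD} {UP : UPrimes Fr ιU}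

namespace IsClass

variable {b : GQ → M2 k} (hb : IsClass DP UP b)

include hb

/-- The part in `V` is a coboundary. -/
theorem exists_projV_eq : ∃ X : M2 k, ∀ σ, projV (b σ) = cobdLin (Fr.rhoK k) X σ := by
  obtain ⟨g, hg⟩ := Fr.rot_mem
  set C := projV (b g) with hC
  refine ⟨!![C 0 1, C 1 0; C 0 0, C 0 1], fun σ => Matrix.ext fun i j => ?_⟩
  rw [← sub_eq_zero]
  refine (Module.forall_dual_apply_eq_zero_iff (ZMod 2) _).mp fun μ => ?_
  obtain ⟨X, hX, hc⟩ := (hb.isNearSV μ).eq_cobd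
  have hg' := congrFun hc g
  rw [cobdLin_apply, Fr.ρ_inv, hg, show inv2 rotM = rotM2 from rotM_table.2.1] at hg'
  have he : X = (!![C 0 1, C 1 0; C 0 0, C 0 1] : M2 k).map μ := by
    rw [eq_of_cobd_rot X hX, ← hg']
    ext a b
    fin_cases a <;> fin_cases b <;> rfl
  have h : (projV (b σ)).map μ = (cobdLin (Fr.rhoK k) !![C 0 1, C 1 0; C 0 0, C 0 1] σ).map μ := by
    rw [cobdLin_map μ, ← he]
    exact congrFun hc σ
  rw [map_sub, sub_eq_zero]
  exact congrFun (congrFun h i) j

/-- A class is a scalar character plus a coboundary. -/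
theorem exists_scalar_add_cobd :
    ∃ X : M2 k, ∀ σ, b σ = scalarPart (b σ) • 1 + cobdLin (Fr.rhoK k) X σ := by
  obtain ⟨X, hX⟩ := hb.exists_projV_eq
  exact ⟨X, fun σ => (hb.eq_scalar_add σ).trans (by rw [hX])⟩

/-- The corrected scalar character is unramified outside `T`. -/
theorem scalar_inertia {q : ℕ} (hq : q.Prime) (hqT : q ∉ Fr.T) {P : ValuationSubring QBar}
    (hP : P.LiesOverPrime q) {σ : GQ} (hσ : σ ∈ P.inertiaSubgroupIn ℚ) :
    scalarPart (b σ) + scalarPart (b Fr.σ2) * qc k Fr.root σ = 0 := by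
  obtain ⟨X, hX⟩ := hb.exists_scalar_add_cobd
  rcases eq_or_ne q 2 with rfl | hq2
  · obtain ⟨g, hg⟩ := exists_smul_eq hP Fr.P2_over hq
    have hσ' : g * σ * g⁻¹ ∈ Fr.P2.inertiaSubgroupIn ℚ := hg ▸ mem_inertia_smul_iff.mpr hσ
    have hz : (Fr.root) ^ 2 = (rootInt Fr : QBar) := root_sq_rootInt Fr
    have hconj : scalarPart (b σ) + scalarPart (b Fr.σ2) * qc k Fr.root σ =
        scalarPart (b (g * σ * g⁻¹)) + scalarPart (b Fr.σ2) * qc k Fr.root (g * σ * g⁻¹) := by
      have h1 := hb.scalarPart_mul (g * σ * g⁻¹) g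
      rw [inv_mul_cancel_right, hb.scalarPart_mul g σ] at h1
      have h2 := qc_mul (A := k) hz (rootInt_ne_zero Fr) (g * σ * g⁻¹) g
      rw [inv_mul_cancel_right, qc_mul hz (rootInt_ne_zero Fr) g σ] at h2
      linear_combination h1 + scalarPart (b Fr.σ2) * h2
    rw [hconj]
    set s := g * σ * g⁻¹
    have h11 := (hb.two_inertia s hσ').2
    rw [shiftTwo, Pi.add_apply, hX s, add_assoc, ← Pi.add_apply (cobdLin (Fr.rhoK k) X), ← map_add,
      Matrix.add_apply, Matrix.smul_apply, Matrix.one_apply_eq, smul_eq_mul, mul_one] at h11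
    rcases Fr.decomp2 s (mem_inertia_iff_forall_mem.mp hσ').1 with h | h
    · rw [Fr.cobdLin_of_eq_one h, Matrix.zero_apply, add_zero] at h11
      rw [h11, Fr.qc_root, if_pos (Or.inl h), mul_zero, add_zero]
    · rw [Fr.cobdLin_refM_11 h, Matrix.add_apply, Matrix.single_apply_same, hX Fr.σ2,
        Matrix.add_apply, Fr.cobdLin_refM_11 Fr.ρ_σ2, Matrix.smul_apply, Matrix.one_apply_eq,
        smul_eq_mul, mul_one] at h11
      rw [Fr.qc_root, if_neg (by rw [h]; decide), mul_one]
      linear_combination h11 - two_smul_eq_zero' (X 1 0)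
  · have hρ := Fr.unramified q hq hq2 hqT P hP σ hσ
    rw [Fr.qc_root, if_pos (Or.inl hρ), mul_zero, add_zero]
    suffices h : b σ = 0 by rw [h, map_zero]
    by_cases hD : ∀ i, DP.q i ≠ q
    · by_cases hU : ∀ i, UP.q i ≠ q
      · exact hb.unramified q hq hq2 hqT hD hU P hP σ hσ
      · push Not at hU
        obtain ⟨i, rfl⟩ := hU
        refine unramified_of_one hb.cocycle hq hq2 hqT (UP.liesOver i) hP (fun τ hτ => ?_) hσ
        have hpv := hX τ
        rw [Fr.cobdLin_of_eq_one (Fr.unramified _ hq hq2 hqT _ (UP.liesOver i) τ hτ), add_zero]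
          at hpv
        obtain ⟨h00, h10, h11⟩ := hb.u_inertia_entries i hτ
        have e00 := congrFun (congrFun hpv 0) 0
        have e01 := congrFun (congrFun hpv 0) 1
        simp only [Matrix.smul_apply, Matrix.one_apply_eq, Matrix.one_apply_ne zero_ne_one,
          smul_eq_mul, mul_one, mul_zero] at e00 e01
        ext r c
        fin_cases r <;> fin_cases c
        · exact h00
        · exact e01
        · exact h10
        · exact h11
    · push Not at hD
      obtain ⟨i, rfl⟩ := hD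
      exact hb.d_unramified i hP hσ

end IsClass

/-- At most `#T` independent classes. -/
theorem finrank_le_card (DP : DPrimes Fr ιD) (UP : UPrimes Fr ιU)
    (V : Submodule k (GQ → M2 k)) [Module.Finite k V] (h : ∀ b ∈ V, IsClass DP UP b)
    (hV : V ⊓ LinearMap.range (cobdLin (Fr.rhoK k)) = ⊥) :
    Module.finrank k V ≤ Fr.T.card := by
  classical
  choose Pe hPe using fun l : ℕ =>
    (show ∃ P : ValuationSubring QBar, l ∈ Fr.T → P.LiesOverPrime l by
      by_cases hl : l ∈ Fr.T
      · obtain ⟨P, hP⟩ := exists_liesOverPrime (Fr.prime_of_mem l hl)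
        exact ⟨P, fun _ => hP⟩
      · exact ⟨⊤, fun h => absurd h hl⟩)
  choose τe hτe using fun l : ℕ =>
    (show ∃ τ : GQ, l ∈ Fr.T → τ ∈ (Pe l).inertiaSubgroupIn ℚ ∧ τ (sqrtOf l) ≠ sqrtOf l by
      by_cases hl : l ∈ Fr.T
      · obtain ⟨τ, h1, h2⟩ := exists_inertia_moves (hPe l hl) (Fr.prime_of_mem l hl)
        exact ⟨τ, fun _ => ⟨h1, h2⟩⟩
      · exact ⟨1, fun h => absurd h hl⟩)
  let Φ : V →ₗ[k] (Fr.T → k) :=
    { toFun := fun b l => scalarPart ((b : GQ → M2 k) (τe l)) +
        scalarPart ((b : GQ → M2 k) Fr.σ2) * qc k Fr.root (τe l)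
      map_add' := fun b b' => funext fun l => by
        simp only [Submodule.coe_add, Pi.add_apply, map_add]; ring
      map_smul' := fun a b => funext fun l => by
        simp only [SetLike.val_smul, Pi.smul_apply, map_smul, smul_eq_mul, RingHom.id_apply]; ring }
  have hinj : Function.Injective Φ := by
    refine (injective_iff_map_eq_zero Φ).mpr fun ⟨b, hbV⟩ hb0 => ?_
    have hb := h b hbV
    have hz : Fr.root ^ 2 = (rootInt Fr : QBar) := root_sq_rootInt Fr
    have hψ := hom_eq_sum Fr.T Fr.prime_of_mem Fr.two_notMem Pe τe hPe (fun l hl => (hτe l hl).1)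
      (fun l hl => (hτe l hl).2)
      (fun σ => scalarPart (b σ) + scalarPart (b Fr.σ2) * qc k Fr.root σ)
      (fun σ τ => by rw [hb.scalarPart_mul, qc_mul hz (rootInt_ne_zero Fr)]; ring) ?_
      fun q hq hqT P hP σ hσ => hb.scalar_inertia hq hqT hP hσ
    · obtain ⟨X, hX⟩ := hb.exists_scalar_add_cobd
      have hmem : b ∈ LinearMap.range (cobdLin (Fr.rhoK k)) := by
        refine ⟨scalarPart (b Fr.σ2) • liftM k rotM + X, funext fun σ => ?_⟩
        have h0 := hψ σ
        rw [Finset.sum_eq_zero fun l hl => by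
          rw [show scalarPart (b (τe l)) + scalarPart (b Fr.σ2) * qc k Fr.root (τe l) = 0 from
            congrFun hb0 ⟨l, hl⟩, zero_mul]] at h0
        rw [map_add, map_smul, Pi.add_apply, Pi.smul_apply, Fr.cobdLin_rot, smul_smul, hX σ]
        congr 2
        linear_combination two_smul_eq_zero' (scalarPart (b Fr.σ2) * qc k Fr.root σ) - h0
      have := hV.le (Submodule.mem_inf.mpr ⟨hbV, hmem⟩)
      exact Subtype.ext this
    · obtain ⟨L, hL, hLb⟩ := hb.finiteLevel
      haveI : FiniteDimensional ℚ (IntermediateField.adjoin ℚ {Fr.root}) :=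
        IntermediateField.adjoin.finiteDimensional (Algebra.IsIntegral.isIntegral _)
      refine ⟨L ⊔ IntermediateField.adjoin ℚ {Fr.root}, inferInstance, fun σ hσ => ?_⟩
      simp only [hLb σ fun x hx => hσ x (le_sup_left (α := IntermediateField ℚ QBar) hx), map_zero,
        qc, if_pos (hσ _ (le_sup_right (α := IntermediateField ℚ QBar)
          (IntermediateField.mem_adjoin_simple_self ℚ _))), mul_zero, add_zero]
  calc Module.finrank k V ≤ Module.finrank k (Fr.T → k) :=
        LinearMap.finrank_le_finrank_of_injective hinj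
    _ = Fr.T.card := by rw [Module.finrank_pi, Fintype.card_coe]

end Fermat.Agent.TwoAdic.Selmer
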