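import Fermat.Agent.TwoAdic.Selmer.Select

/-!
# Auxiliary `U` primes with bounded `trace² - (q + 1)²`

For a lift `r` of the residual representation which is unipotent at a prime of `T`, the transpositions
used for the `U` primes may be chosen with `(trace r)² ≠ 4`; hence there is `c` with
`2 ^ c ∤ (trace r (Frob q))² - (q + 1)²` for the `U` primes, whatever their congruence level.
-/

set_option autoImplicit false
set_option linter.style.haveILetI false

noncomputable section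

namespace Fermat.Agent.TwoAdic.Selmer.Select

open Fermat.Agent.Deform Fermat.Agent.Arith Fermat.Agent.Arith.Chebotarev
open Fermat.Agent.CFT.Tangent

theorem exists_slope : ∀ A : M2F, A.det = 1 → A.trace = 0 → A ≠ 1 →
    ∃ k : Fin 3, (refM * (rotM ^ (k : ℕ) * (A - 1) * rotM ^ (3 - (k : ℕ)))).trace = 1 := by
  decide

/-- A two by two matrix of trace two and determinant one is one plus a square zero matrix. -/
theorem sub_one_sq {O : Type} [CommRing O] (R : M2 O) (ht : R.trace = 2) (hd : R.det = 1) :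
    (R - 1) * (R - 1) = 0 := by
  rw [Matrix.trace_fin_two] at ht
  rw [Matrix.det_fin_two] at hd
  ext i j
  fin_cases i <;> fin_cases j <;>
    simp only [Matrix.mul_apply, Fin.sum_univ_two, Matrix.sub_apply, Matrix.one_apply,
      Matrix.zero_apply, Fin.isValue, Fin.zero_eta, Fin.mk_one, ↓reduceIte, zero_ne_one,
      one_ne_zero, sub_zero]
  · linear_combination (R 0 0) * ht - hd
  · linear_combination (R 0 1) * ht
  · linear_combination (R 1 0) * ht
  · linear_combination (R 1 1) * ht - hd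

theorem one_add_pow {O : Type} [CommRing O] {N : M2 O} (hN : N * N = 0) (m : ℕ) :
    (1 + N) ^ m = 1 + (m : O) • N := by
  induction m with
  | zero => simp
  | succ m ih =>
    rw [pow_succ, ih, add_mul, one_mul, smul_mul_assoc, mul_add, mul_one, hN, add_zero,
      Nat.cast_succ, add_smul, one_smul]
    abel

variable {O k : Type} [CommRing O] [IsDomain O] [Field k] [Algebra (ZMod 2) k]

/-- A lift moves some modification of a transposition out of trace `±2`. -/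
theorem exists_trace_ne (Fr : Frame) (red : O →+* k) (h2 : (2 : O) ≠ 0) (r : GQ →* M2 O)
    (hres : ∀ σ, red.mapMatrix (r σ) = (Fr.ρ σ).map (algebraMap (ZMod 2) k))
    (hst : ∃ q ∈ Fr.T, ∀ P : ValuationSubring QBar, P.LiesOverPrime q →
      ∀ σ ∈ P.inertiaSubgroupIn ℚ, (r σ).trace = 2 ∧ (r σ).det = 1)
    {σ : GQ} (hσ : Fr.ρ σ = refM) :
    ∃ h : GQ, Fr.ρ h = 1 ∧ (∀ (m : ℕ) (μ : QBar), μ ^ 2 ^ m = 1 → h μ = μ) ∧
      (∀ c : GQ → M2F, IsAdCocycle Fr.ρ c → c h = 0) ∧ (r (σ * h)).trace ^ 2 ≠ 4 := by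
  obtain ⟨q, hq, hq'⟩ := hst
  obtain ⟨τ, hτμ, -, -, hroot, A, hA, hτA⟩ := exists_move Fr hq
  obtain ⟨ht, hd⟩ := hq' A hA τ hτA
  have hρτ0 : (Fr.ρ τ).trace = 0 := Fr.trace_inertia q hq A hA τ hτA
  have hρτ1 : Fr.ρ τ ≠ 1 := fun h => by
    have h' := (Fr.root_iff τ).mpr (Or.inl h)
    rw [hroot] at h'
    exact root_ne_zero Fr (neg_eq_self.mp h')
  obtain ⟨k', hk'⟩ := exists_slope _ (det_ρ Fr τ) hρτ0 hρτ1
  obtain ⟨c₀, hc₀, hρc₀⟩ := exists_rot_commutator Fr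
  set g := c₀ ^ (k' : ℕ) with hg
  have hρg : Fr.ρ g = rotM ^ (k' : ℕ) := by rw [hg, map_pow, hρc₀]
  have hρgi : Fr.ρ g⁻¹ = rotM ^ (3 - (k' : ℕ)) := by
    calc Fr.ρ g⁻¹ = rotM ^ (3 - (k' : ℕ)) * (Fr.ρ g * Fr.ρ g⁻¹) := by
          rw [hρg, ← mul_assoc, ← pow_add,
            Nat.sub_add_cancel (by omega : (k' : ℕ) ≤ 3), rotM_pow_three, one_mul]
      _ = rotM ^ (3 - (k' : ℕ)) := by rw [ρ_mul_inv, mul_one]
  set N₀ := r τ - 1 with hN₀
  have hN₀sq : N₀ * N₀ = 0 := sub_one_sq _ ht hd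
  set N := r g * N₀ * r g⁻¹ with hN
  have hNsq : N * N = 0 := by
    have hgg : r g⁻¹ * r g = 1 := by rw [← map_mul, inv_mul_cancel, map_one]
    calc N * N = r g * (N₀ * (r g⁻¹ * r g) * N₀) * r g⁻¹ := by simp only [hN, mul_assoc]
      _ = 0 := by rw [hgg, mul_one, hN₀sq, mul_zero, zero_mul]
  have hrconj : ∀ m : ℕ, r (g * τ ^ m * g⁻¹) = 1 + (m : O) • N := fun m => by
    have hgg : r g * r g⁻¹ = 1 := by rw [← map_mul, mul_inv_cancel, map_one]
    rw [map_mul, map_mul, map_pow r τ, show r τ = 1 + N₀ by rw [hN₀, add_sub_cancel],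
      one_add_pow hN₀sq, mul_add, add_mul, mul_one, hgg, hN, mul_smul_comm, smul_mul_assoc]
  have hslope : (r σ * N).trace ≠ 0 := fun h0 => by
    have h1 : red ((r σ * N).trace) = (algebraMap (ZMod 2) k) 1 := by
      have htr : ∀ {R S : Type} [CommRing R] [CommRing S] (f : R →+* S) (X : M2 R),
          f X.trace = (f.mapMatrix X).trace := fun f X => by simp [Matrix.trace_fin_two]
      rw [htr, hN, hN₀, map_mul, map_mul, map_mul, map_sub, map_one, hres, hres, hres, hres, hσ, hρg,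
        hρgi, ← hk', htr]
      simp only [← RingHom.mapMatrix_apply, map_mul, map_sub, map_one]
    rw [h0, map_zero, map_one] at h1
    exact zero_ne_one h1
  have h4 : (4 : O) ≠ 0 := by
    rw [show (4 : O) = 2 * 2 by norm_num]; exact mul_ne_zero h2 h2
  have hpow : Fr.ρ (τ ^ 2) = 1 := by
    have key : ∀ A : M2F, A.det = 1 → A.trace = 0 → A ^ 2 = 1 := by decide
    rw [map_pow, key _ (det_ρ Fr τ) hρτ0]
  obtain ⟨m, hm, hm4⟩ : ∃ m : ℕ, (m = 0 ∨ m = 4 ∨ m = 8) ∧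
      ((r σ).trace + (m : O) * (r σ * N).trace) ^ 2 ≠ 4 := by
    by_contra hcon
    push Not at hcon
    set t := (r σ).trace
    set s := (r σ * N).trace
    have e0 := hcon 0 (Or.inl rfl)
    have e1 := hcon 4 (Or.inr (Or.inl rfl))
    have e2 := hcon 8 (Or.inr (Or.inr rfl))
    push_cast at e0 e1 e2
    have e : 4 * 4 * 2 * (s * s) = 0 := by linear_combination e2 - 2 * e1 + e0
    exact mul_ne_zero (mul_ne_zero (mul_ne_zero h4 h4) h2) (mul_ne_zero hslope hslope) e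
  have hpow' : ∀ m, (m = 0 ∨ m = 4 ∨ m = 8) → ∃ x : GQ, Fr.ρ x = 1 ∧ τ ^ m = x * x := by
    intro m hm
    refine ⟨(τ ^ 2) ^ (m / 4), by rw [map_pow, hpow, one_pow], ?_⟩
    rw [← pow_add, ← pow_mul]
    rcases hm with rfl | rfl | rfl <;> rfl
  obtain ⟨x, hx, hxm⟩ := hpow' m hm
  set y := g * x * g⁻¹ with hy
  have hρy : Fr.ρ y = 1 := by rw [hy, map_mul, map_mul, hx, mul_one, ρ_mul_inv]
  have hhy : g * τ ^ m * g⁻¹ = y * y := by rw [hy, hxm]; group
  refine ⟨g * τ ^ m * g⁻¹, by rw [hhy, map_mul, hρy, one_mul], fun n μ hμ => ?_, fun c hc => ?_, ?_⟩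
  · have hfix : ∀ (u : GQ), u μ = μ → ∀ e : ℕ, (u ^ e) μ = μ := fun u hu e => by
      induction e with
      | zero => rfl
      | succ e ih => rw [pow_succ, AlgEquiv.mul_apply, hu, ih]
    have hgμ : g μ = μ := commutator_fix_two_pow (pow_mem hc₀ _) n hμ
    have hgiμ : g⁻¹ μ = μ := commutator_fix_two_pow (inv_mem (pow_mem hc₀ _)) n hμ
    rw [AlgEquiv.mul_apply, AlgEquiv.mul_apply, hgiμ, hfix τ (hτμ n μ hμ), hgμ]
  · have hyi : Fr.ρ y⁻¹ = 1 := by have h := ρ_mul_inv Fr y; rwa [hρy, one_mul] at h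
    rw [hhy, hc, hρy, hyi, one_mul, mul_one]
    ext i j
    exact CharTwo.add_self_eq_zero _
  · rw [map_mul, hrconj, mul_add, mul_one, mul_smul_comm, Matrix.trace_add, Matrix.trace_smul,
      smul_eq_mul]
    exact hm4

/-- `U` primes of arbitrary congruence level with bounded `trace² - (q + 1)²`. -/
theorem exists_uPrimes_bound (Fr : Frame) (red : O →+* k) (h2 : (2 : O) ≠ 0)
    (hsep : ∀ x : O, (∀ c : ℕ, (2 : O) ^ c ∣ x) → x = 0) (r : GQ →* M2 O)
    (hres : ∀ σ, red.mapMatrix (r σ) = (Fr.ρ σ).map (algebraMap (ZMod 2) k))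
    (hlev : ∀ c : ℕ, GaloisFactorsThroughFiniteLevel
      (mapM (Ideal.Quotient.mk (Ideal.span {(2 : O) ^ c})) r))
    (hst : ∃ q ∈ Fr.T, ∀ P : ValuationSubring QBar, P.LiesOverPrime q →
      ∀ σ ∈ P.inertiaSubgroupIn ℚ, (r σ).trace = 2 ∧ (r σ).det = 1)
    {n : ℕ} (cs : Fin n → GQ → M2F) (hcs : ∀ i, IsSV Fr (cs i))
    (hspan : ∀ c, IsSV Fr c →
      ∃ (e : Fin n → ZMod 2) (X : M2F), InV X ∧ c = ∑ i, e i • cs i + cobdLin Fr.ρ X)
    (hind : ∀ (e : Fin n → ZMod 2) (X : M2F), InV X →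
      ∑ i, e i • cs i = cobdLin Fr.ρ X → e = 0) :
    ∃ (c : ℕ) (σU : Fin n → GQ), (∀ j, Fr.ρ (σU j) = refM) ∧
      (∀ j (m : ℕ) (μ : QBar), μ ^ 2 ^ m = 1 → σU j μ = μ) ∧
      (∀ i j, cs i (σU j) 1 0 = if i = j then 1 else 0) ∧
      ∀ (N : ℕ) (avoid : Finset ℕ) (M : IntermediateField ℚ QBar) [FiniteDimensional ℚ M],
        ∃ U : UPrimes Fr (Fin n), ∀ j, 2 ^ N ∣ U.q j - 1 ∧ U.q j ∉ avoid ∧
          (∀ x ∈ M, U.φ j x = σU j x) ∧
          ¬ (2 : O) ^ c ∣ (r (U.φ j)).trace ^ 2 - ((U.q j : O) + 1) ^ 2 := by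
  classical
  obtain ⟨σ₀, hρ₀, hμ₀, hval₀⟩ := exists_uElements Fr cs hcs hind
  choose h hρh hμh hch htr using fun j => exists_trace_ne Fr red h2 r hres hst (hρ₀ j)
  have hd : ∀ j, ∃ c : ℕ, ¬ (2 : O) ^ c ∣ (r (σ₀ j * h j)).trace ^ 2 - 4 := fun j =>
    not_forall.mp fun hall => htr j (sub_eq_zero.mp (hsep _ hall))
  choose cj hcj using hd
  set c := Finset.univ.sup cj with hc
  obtain ⟨Lr, hLr, hLr'⟩ := hlev c
  have hρσ : ∀ j, Fr.ρ (σ₀ j * h j) = refM := fun j => by rw [map_mul, hρh, hρ₀, mul_one]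
  have hμσ : ∀ j (m : ℕ) (μ : QBar), μ ^ 2 ^ m = 1 → (σ₀ j * h j) μ = μ := fun j m μ hμ => by
    rw [AlgEquiv.mul_apply, hμh j m μ hμ, hμ₀ j m μ hμ]
  have hvalσ : ∀ i j, cs i (σ₀ j * h j) 1 0 = if i = j then 1 else 0 := fun i j => by
    rw [(hcs i).vCocycle.cocycle, hch j _ (hcs i).vCocycle.cocycle, mul_zero, zero_mul, zero_add,
      hval₀]
  refine ⟨c, fun j => σ₀ j * h j, hρσ, hμσ, hvalσ, fun N avoid M _ => ?_⟩
  obtain ⟨U, hU⟩ := uPrimes_of_elements Fr cs hcs hspan _ hρσ hμσ hvalσ (max N c) avoid (M ⊔ Lr)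
  refine ⟨U, fun j => ⟨(pow_dvd_pow 2 (le_max_left N c)).trans (hU j).1, (hU j).2.1,
    fun x hx => (hU j).2.2 x ((le_sup_left : M ≤ M ⊔ Lr) hx), fun hdvd => hcj j ?_⟩⟩
  set I := Ideal.span {(2 : O) ^ c} with hI
  set π := Ideal.Quotient.mk I with hπ
  have heq : mapM π r (U.φ j) = mapM π r (σ₀ j * h j) := by
    have h1 := hLr' ((σ₀ j * h j)⁻¹ * U.φ j) fun x hx => by
      rw [AlgEquiv.mul_apply, (hU j).2.2 x ((le_sup_right : Lr ≤ M ⊔ Lr) hx),
        ← AlgEquiv.mul_apply, inv_mul_cancel, AlgEquiv.one_apply]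
    rw [← mul_inv_cancel_left (σ₀ j * h j) (U.φ j), map_mul, h1, mul_one]
  have htrace : π (r (U.φ j)).trace = π (r (σ₀ j * h j)).trace := by
    have e1 := congrFun (congrFun heq 0) 0
    have e2 := congrFun (congrFun heq 1) 1
    simp only [mapM_apply] at e1 e2
    rw [Matrix.trace_fin_two, Matrix.trace_fin_two, map_add, map_add, e1, e2]
  have hq : π (U.q j : O) = 1 := by
    obtain ⟨d, hd⟩ := (pow_dvd_pow 2 (le_max_right N c)).trans (hU j).1
    have hq1 := (U.prime j).one_le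
    rw [show U.q j = 2 ^ c * d + 1 by omega, Nat.cast_add, Nat.cast_mul, Nat.cast_pow,
      Nat.cast_ofNat, Nat.cast_one, map_add, map_mul, map_one,
      Ideal.Quotient.eq_zero_iff_mem.mpr (Ideal.mem_span_singleton_self _), zero_mul, zero_add]
  have h0 : π ((r (σ₀ j * h j)).trace ^ 2 - 4) = 0 := by
    have h1 := Ideal.Quotient.eq_zero_iff_mem.mpr (Ideal.mem_span_singleton.mpr hdvd)
    rw [map_sub, map_pow, map_pow, map_add, map_one, htrace, hq] at h1
    rw [map_sub, map_pow, map_ofNat, ← h1]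
    norm_num
  exact (pow_dvd_pow _ (Finset.le_sup (Finset.mem_univ j))).trans
    (Ideal.mem_span_singleton.mp (Ideal.Quotient.eq_zero_iff_mem.mp h0))

end Fermat.Agent.TwoAdic.Selmer.Select
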