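import Fermat.Agent.TwoAdic.Selmer.DeformAdapter
import Fermat.Agent.TwoAdic.Selmer.Main
import Fermat.Agent.TwoAdic.Selmer.Finite
import Fermat.Agent.TwoAdic.Selmer.SelectBound

/-!
# The Selmer bound and the choice of auxiliary primes

For auxiliary data built from `DPrimes` and `UPrimes` the Selmer space has at most `#T` independent
classes; such primes exist at every level `2 ^ N` with the bound `c` at the transposition primes.
-/

set_option autoImplicit false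

noncomputable section

namespace Fermat.Agent.TwoAdic.Selmer

open IsLocalRing Fermat.Agent.Deform Fermat.Agent.Arith Fermat.Agent.CFT.Tangent

/-- The tangent bound at auxiliary data built from the two kinds of primes. -/
theorem selmerBound_of_primes {O : Type} [CommRing O] [IsLocalRing O]
    [Algebra (ZMod 2) (ResidueField O)] {S : Deform.Setting O} {Lv : Deform.Level S}
    (D : Deform.Aux S Lv) {Fr : Frame} {ιD ιU : Type} [Fintype ιD] [Fintype ιU]
    (DP : DPrimes Fr ιD) (UP : UPrimes Fr ιU)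
    (hrb : S.W.rb = mapM (algebraMap (ZMod 2) (ResidueField O)) Fr.ρ) (hT : S.T = Fr.T)
    (hP2 : S.P2 = Fr.P2) (hσ2 : S.σ2 = Fr.σ2) (e : D.ι ≃ ιD ⊕ ιU)
    (hq : ∀ i, D.q i = Sum.elim DP.q UP.q (e i)) (hP : ∀ i, D.P i = Sum.elim DP.P UP.P (e i))
    (hφ : ∀ i, D.φ i = Sum.elim DP.φ UP.φ (e i)) (hU : ∀ j, D.isU (e.symm (Sum.inr j)) = true) :
    Deform.SelmerBound D Fr.T.card :=
  selmerBound_of_bound hrb hT hP2 hσ2 e hq hP hφ hU fun V hf h hV =>
    haveI := hf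
    finrank_le_card DP UP V h hV

/-- Auxiliary primes at every level, with the bound at the transposition primes. -/
theorem exists_selection {O k : Type} [CommRing O] [IsDomain O] [Field k] [Algebra (ZMod 2) k]
    (Fr : Frame) (red : O →+* k) (h2 : (2 : O) ≠ 0)
    (hsep : ∀ x : O, (∀ c : ℕ, (2 : O) ^ c ∣ x) → x = 0) (r : GQ →* M2 O)
    (hres : ∀ σ, red.mapMatrix (r σ) = (Fr.ρ σ).map (algebraMap (ZMod 2) k))
    (hlev : ∀ c : ℕ, GaloisFactorsThroughFiniteLevel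
      (mapM (Ideal.Quotient.mk (Ideal.span {(2 : O) ^ c})) r))
    (hst : ∃ q ∈ Fr.T, ∀ P : ValuationSubring QBar, P.LiesOverPrime q →
      ∀ σ ∈ P.inertiaSubgroupIn ℚ, (r σ).trace = 2 ∧ (r σ).det = 1) :
    ∃ c n : ℕ, ∀ (N : ℕ) (avoid : Finset ℕ),
      ∃ (DP : DPrimes Fr (Fin (Fr.T.card - 1))) (UP : UPrimes Fr (Fin n)),
        (∀ i j, DP.q i ≠ UP.q j) ∧ (∀ i, 2 ^ N ∣ DP.q i - 1 ∧ DP.q i ∉ avoid) ∧
          ∀ j, 2 ^ N ∣ UP.q j - 1 ∧ UP.q j ∉ avoid ∧
            ¬ (2 : O) ^ c ∣ (r (UP.φ j)).trace ^ 2 - ((UP.q j : O) + 1) ^ 2 := by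
  classical
  obtain ⟨n, cs, hcs, hspan, hind⟩ := exists_basis_SV Fr
  obtain ⟨c, _, -, -, -, hU⟩ :=
    Select.exists_uPrimes_bound Fr red h2 hsep r hres hlev hst cs hcs hspan hind
  refine ⟨c, n, fun N avoid => ?_⟩
  obtain ⟨UP, hUP⟩ := hU N avoid ⊥
  obtain ⟨_, -, -, hD⟩ := Select.exists_dPrimes Fr ∅ (by simp) (by simp) (by simp)
  obtain ⟨DP, hDP⟩ := hD N (avoid ∪ Finset.univ.image UP.q) ⊥
  refine ⟨DP, UP, fun i j h => (hDP i).2.1 ?_,
    fun i => ⟨(hDP i).1, fun h => (hDP i).2.1 (Finset.mem_union_left _ h)⟩,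
    fun j => ⟨(hUP j).1, (hUP j).2.1, (hUP j).2.2.2⟩⟩
  exact Finset.mem_union_right _ (Finset.mem_image.mpr ⟨j, Finset.mem_univ j, h.symm⟩)

end Fermat.Agent.TwoAdic.Selmer
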