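import Fermat.Agent.TwoAdic.Selmer.Select

/-!
# An auxiliary prime `≡ 3 mod 4` with Frobenius of order three
-/

set_option autoImplicit false
set_option linter.style.haveILetI false

noncomputable section

namespace Fermat.Agent.TwoAdic.Selmer.Select

open Fermat.Agent.Deform Fermat.Agent.Arith Fermat.Agent.Arith.Chebotarev
open Fermat.Agent.CFT.Tangent

/-- A prime `≡ 3 mod 4` outside a given finite set with Frobenius of image the rotation, agreeing
with a fixed element on a finite level. -/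
theorem exists_three (Fr : Frame) :
    ∃ σ0 : GQ, Fr.ρ σ0 = rotM ∧
      ∀ (avoid : Finset ℕ) (M : IntermediateField ℚ QBar) [FiniteDimensional ℚ M],
        ∃ (l : ℕ) (P : ValuationSubring QBar) (φ : GQ), l.Prime ∧ l % 4 = 3 ∧ l ∉ avoid ∧
          P.LiesOverPrime l ∧ P.IsFrobeniusAt φ l ∧ Fr.ρ φ = rotM ∧ (Fr.ρ φ).trace = 1 ∧
          ∀ x ∈ M, φ x = σ0 x := by
  classical
  haveI : NeZero (2 ^ 2) := ⟨by norm_num⟩
  obtain ⟨ζ, hζ⟩ := HasEnoughRootsOfUnity.exists_primitiveRoot QBar (2 ^ 2)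
  obtain ⟨σ, hσ⟩ := autToPow_surjective hζ (ZMod.unitOfCoprime 3 (by norm_num))
  have hσζ : σ ζ = ζ ^ 3 := by
    rw [← hζ.autToPow_spec ℚ σ, hσ, ZMod.coe_unitOfCoprime]
    rfl
  obtain ⟨t, ht, hρt⟩ := exists_transposition Fr
  obtain ⟨c, hc, hρc⟩ := exists_rot_commutator Fr
  obtain ⟨j, k, hjk⟩ := image_shift _ (det_ρ Fr σ)
  have hρ : Fr.ρ (σ * t ^ (j : ℕ) * c ^ (k : ℕ)) = rotM := by
    rw [map_mul, map_mul, map_pow, map_pow, hρt, hρc, hjk]
  have htpow : ∀ (m n : ℕ) (μ : QBar), μ ^ 2 ^ n = 1 → (t ^ m) μ = μ := by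
    intro m n μ hμ
    induction m with
    | zero => simp
    | succ m ih => rw [pow_succ, AlgEquiv.mul_apply, ht n μ hμ, ih]
  refine ⟨_, hρ, fun avoid M _ => ?_⟩
  obtain ⟨L, ζ', _, hML, -, -, -, hρL⟩ := exists_level Fr M 0 ∅
  haveI : FiniteDimensional ℚ (IntermediateField.adjoin ℚ {ζ}) :=
    IntermediateField.adjoin.finiteDimensional (Algebra.IsIntegral.isIntegral ζ)
  obtain ⟨q, P, φ, -, hq⟩ := exists_frobenius_agree (fun _ : Unit => σ * t ^ (j : ℕ) * c ^ (k : ℕ))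
    (avoid ∪ {2}) (L ⊔ IntermediateField.adjoin ℚ {ζ})
  obtain ⟨hqp, hqav, hP, hφ, hagree⟩ := hq ()
  simp only [Finset.mem_union, Finset.mem_singleton, not_or] at hqav
  have hL : ∀ x ∈ L, x ∈ L ⊔ IntermediateField.adjoin ℚ {ζ} := fun x hx =>
    (le_sup_left : L ≤ _) hx
  have hρφ : Fr.ρ (φ ()) = rotM := by
    rw [map_eq_of_agree hρL fun x hx => hagree x (hL x hx), hρ]
  refine ⟨q (), P (), φ (), hqp, ?_, hqav.1, hP, hφ, hρφ, by rw [hρφ]; decide,
    fun x hx => hagree x (hL x (hML hx))⟩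
  have h := frobenius_root hP hqp hφ hζ.pow_eq_one fun h =>
    hqav.2 ((Nat.prime_dvd_prime_iff_eq hqp Nat.prime_two).mp (hqp.dvd_of_dvd_pow h))
  rw [hagree ζ ((le_sup_right : IntermediateField.adjoin ℚ {ζ} ≤ L ⊔ _)
    (IntermediateField.mem_adjoin_simple_self ℚ ζ)), AlgEquiv.mul_apply, AlgEquiv.mul_apply,
    commutator_fix_two_pow (pow_mem hc _) _ hζ.pow_eq_one, htpow _ _ _ hζ.pow_eq_one, hσζ] at h
  have h2 : q () % 4 = 3 % 4 :=
    (ZMod.natCast_eq_natCast_iff _ _ _).mp (natCast_eq_of_pow_eq hζ h.symm)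
  exact h2

end Fermat.Agent.TwoAdic.Selmer.Select
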