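import Fermat.Agent.CFT.Tangent.LocalPlace
import Fermat.Agent.Mazur.Eisenstein.Tame

/-!
# The mod 2 Selmer calculus: frame, twisted triples, places

`Frame` records the residual dihedral representation with values in `GL₂(F₂) = S₃`, the odd primes
where it ramifies and the three algebraic integers permuted like the three nonzero vectors.
A cocycle `c` in the two dimensional part `V` of the adjoint representation is encoded by a
*twisted triple* `r`: square roots `r i` of three conjugate elements, permuted with the signs given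
by the coordinates of `c`. `Iso` is isotropy of the ternary trace form of `r ²` over a local field.
-/

set_option autoImplicit false

noncomputable section

namespace Fermat.Agent.TwoAdic.Selmer

open Fermat.Agent.Deform Fermat.Agent.Arith Fermat.Agent.CFT.Tangent

/-- Two by two matrices over `F₂`. -/
abbrev M2F : Type := M2 (ZMod 2)

/-- The rotation. -/
def rotM : M2F := !![0, 1; 1, 1]

/-- The transposition fixing `(1, 0)`. -/
def refM : M2F := !![1, 1; 0, 1]

/-- The transposition fixing `(0, 1)`. -/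
def refM' : M2F := !![1, 0; 1, 1]

/-- The three nonzero vectors. -/
def pt : Fin 3 → Fin 2 → ZMod 2 := ![![1, 0], ![0, 1], ![1, 1]]

/-- The permutation of the three nonzero vectors by a matrix. -/
def perm (g : M2F) (i : Fin 3) : Fin 3 :=
  if g.mulVec (pt i) = pt 0 then 0 else if g.mulVec (pt i) = pt 1 then 1 else 2

/-- The complement `V` of the centraliser of the rotation. -/
def InV {A : Type} [CommRing A] (X : M2 A) : Prop :=
  X 0 0 = X 1 1 ∧ X 0 0 = X 0 1 + X 1 0

/-- The coordinate on `V` attached to a nonzero vector. -/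
def vCoord {A : Type} (i : Fin 3) (X : M2 A) : A :=
  ![X 1 0, X 0 1, X 0 0] i

/-- A sign. -/
def sgn (e : ZMod 2) : QBar := if e = 0 then 1 else -1

/-- The residual data of the mod 2 Selmer calculus. -/
structure Frame where
  /-- The residual representation. -/
  ρ : GQ →* M2F
  ρ_finiteLevel : GaloisFactorsThroughFiniteLevel ρ
  rot_mem : ∃ g, ρ g = rotM
  /-- The odd primes where `ρ` ramifies. -/
  T : Finset ℕ
  prime_of_mem : ∀ q ∈ T, q.Prime
  two_notMem : 2 ∉ T
  exists_three_five : ∃ q ∈ T, q % 8 = 3 ∨ q % 8 = 5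
  unramified : ∀ q : ℕ, q.Prime → q ≠ 2 → q ∉ T →
    ∀ P : ValuationSubring QBar, P.LiesOverPrime q → ∀ σ ∈ P.inertiaSubgroupIn ℚ, ρ σ = 1
  trace_inertia : ∀ q ∈ T, ∀ P : ValuationSubring QBar, P.LiesOverPrime q →
    ∀ σ ∈ P.inertiaSubgroupIn ℚ, (ρ σ).trace = 0
  /-- A square root of `-2 ∏ T`. -/
  root : QBar
  root_sq : root ^ 2 = -2 * (∏ q ∈ T, (q : QBar))
  root_iff : ∀ σ, σ root = root ↔ (ρ σ = 1 ∨ (ρ σ).trace = 1)
  /-- A place over `2`. -/
  P2 : ValuationSubring QBar
  P2_over : P2.LiesOverPrime 2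
  /-- An element of inertia at `2` acting as the transposition fixing `(1, 0)`. -/
  σ2 : GQ
  σ2_mem : σ2 ∈ P2.inertiaSubgroupIn ℚ
  ρ_σ2 : ρ σ2 = refM
  decomp2 : ∀ σ ∈ P2.decompositionSubgroup ℚ, ρ σ = 1 ∨ ρ σ = refM
  /-- Algebraic integers permuted like the nonzero vectors. -/
  θ : Fin 3 → QBar
  θ_integral : ∀ i, IsIntegral ℤ (θ i)
  θ_perm : ∀ σ i, σ (θ i) = θ (perm (ρ σ) i)
  θ_injective : Function.Injective θ
  θ_distinct : ∀ q : ℕ, q.Prime → q ≠ 2 → q ∉ T →
    ∀ P : ValuationSubring QBar, P.LiesOverPrime q → ∀ i j, i ≠ j → θ i - θ j ∉ P.nonunits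

/-- A cocycle with values in `V`, of finite level. -/
structure IsVCocycle (Fr : Frame) (c : GQ → M2F) : Prop where
  cocycle : IsAdCocycle Fr.ρ c
  finiteLevel : IsFiniteLevel c
  inV : ∀ σ, InV (c σ)

/-- On the decomposition group of `P` the class is a multiple of the transposition. -/
def LineAt (Fr : Frame) (c : GQ → M2F) (P : ValuationSubring QBar) : Prop :=
  ∃ X : M2F, InV X ∧ ∀ σ ∈ P.decompositionSubgroup ℚ, (c σ + cobdLin Fr.ρ X σ) 1 0 = 0

/-- The decomposition group of `P` fixes `(1, 0)` and inertia moves the other two vectors. -/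
structure IsAdapted (Fr : Frame) (q : ℕ) (P : ValuationSubring QBar) : Prop where
  liesOver : P.LiesOverPrime q
  decomp : ∀ σ ∈ P.decompositionSubgroup ℚ, Fr.ρ σ = 1 ∨ Fr.ρ σ = refM
  exists_inertia : ∃ σ ∈ P.inertiaSubgroupIn ℚ, Fr.ρ σ = refM

/-- The classes whose duals are killed by the `U` primes. -/
structure IsSV (Fr : Frame) (c : GQ → M2F) : Prop where
  vCocycle : IsVCocycle Fr c
  unramified : ∀ q : ℕ, q.Prime → q ≠ 2 → q ∉ Fr.T →
    ∀ P : ValuationSubring QBar, P.LiesOverPrime q → ∀ σ ∈ P.inertiaSubgroupIn ℚ, c σ = 0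
  line_T : ∀ q ∈ Fr.T, ∀ P, IsAdapted Fr q P → LineAt Fr c P
  line_two : LineAt Fr c Fr.P2

/-- Square roots of conjugate elements twisted by the cocycle `c`. -/
structure IsTwisted (Fr : Frame) (c : GQ → M2F) (r : Fin 3 → QBar) : Prop where
  ne_zero : ∀ i, r i ≠ 0
  twist : ∀ σ i, σ (r i) = sgn (vCoord (perm (Fr.ρ σ) i) (c σ)) * r (perm (Fr.ρ σ) i)

/-- An embedding of `ℚ̄` into a local algebraic closure, with the restriction of automorphisms. -/
structure Place (F Ω : Type) [Field F] [Field Ω] [Algebra F Ω] where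
  /-- The embedding. -/
  ι : QBar →+* Ω
  /-- Restriction of automorphisms. -/
  res : (Ω ≃ₐ[F] Ω) →* GQ
  comm : ∀ τ x, ι (res τ x) = τ (ι x)

variable {F Ω : Type} [Field F] [Field Ω] [Algebra F Ω]

/-- The family `z` is permuted by the local Galois group like the nonzero vectors. -/
def Equivariant (Fr : Frame) (pl : Place F Ω) (z : Fin 3 → Ω) : Prop :=
  ∀ τ i, τ (z i) = z (perm (Fr.ρ (pl.res τ)) i)

/-- The ternary form `z ↦ ∑ (r i)² (z i)²` on equivariant families has a nontrivial zero. -/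
def Iso (Fr : Frame) (pl : Place F Ω) (r : Fin 3 → QBar) : Prop :=
  ∃ z : Fin 3 → Ω, z ≠ 0 ∧ Equivariant Fr pl z ∧ ∑ i, pl.ι (r i) ^ 2 * z i ^ 2 = 0

/-- `r` is twisted by `c` for the local Galois group of the place. -/
def IsLocTwisted (Fr : Frame) (pl : Place F Ω) (c : GQ → M2F) (r : Fin 3 → QBar) : Prop :=
  ∀ τ i, pl.res τ (r i) =
    sgn (vCoord (perm (Fr.ρ (pl.res τ)) i) (c (pl.res τ))) * r (perm (Fr.ρ (pl.res τ)) i)

open Classical in
/-- Anisotropy as a number modulo 2. -/
def aniso (Fr : Frame) (pl : Place F Ω) (r : Fin 3 → QBar) : ZMod 2 :=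
  if Iso Fr pl r then 0 else 1

/-- The second difference of anisotropy. -/
def pairing (Fr : Frame) (pl : Place F Ω) (r₀ r r' r'' : Fin 3 → QBar) : ZMod 2 :=
  aniso Fr pl r₀ + aniso Fr pl r + aniso Fr pl r' + aniso Fr pl r''

open Classical in
/-- Auxiliary primes whose Frobenius has order three. -/
structure DPrimes (Fr : Frame) (ι : Type) [Fintype ι] where
  /-- The primes. -/
  q : ι → ℕ
  prime : ∀ i, (q i).Prime
  injective : Function.Injective q
  one_mod_eight : ∀ i, q i % 8 = 1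
  notMem : ∀ i, q i ∉ Fr.T
  /-- Places over them. -/
  P : ι → ValuationSubring QBar
  liesOver : ∀ i, (P i).LiesOverPrime (q i)
  /-- Frobenius elements. -/
  φ : ι → GQ
  frob : ∀ i, (P i).IsFrobeniusAt (φ i) (q i)
  ρ_φ : ∀ i, Fr.ρ (φ i) = rotM
  detect : ∀ e : ι → ZMod 2,
    (∀ l ∈ Fr.T, ∑ i, (if IsSquare ((q i : ℕ) : ZMod l) then 0 else e i) = 0) → e = 0

/-- Auxiliary primes whose Frobenius is a transposition, detecting the classes of `IsSV`. -/
structure UPrimes (Fr : Frame) (ι : Type) [Fintype ι] where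
  /-- The primes. -/
  q : ι → ℕ
  prime : ∀ i, (q i).Prime
  injective : Function.Injective q
  one_mod_four : ∀ i, q i % 4 = 1
  notMem : ∀ i, q i ∉ Fr.T
  /-- Places over them. -/
  P : ι → ValuationSubring QBar
  liesOver : ∀ i, (P i).LiesOverPrime (q i)
  /-- Frobenius elements. -/
  φ : ι → GQ
  frob : ∀ i, (P i).IsFrobeniusAt (φ i) (q i)
  ρ_φ : ∀ i, Fr.ρ (φ i) = refM
  dual : ∀ i, ∃ c, IsSV Fr c ∧ c (φ i) 1 0 = 1 ∧ ∀ j, j ≠ i → c (φ j) 1 0 = 0
  detect : ∀ c, IsSV Fr c → (∀ i, c (φ i) 1 0 = 0) → ∃ X, InV X ∧ c = cobdLin Fr.ρ X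

end Fermat.Agent.TwoAdic.Selmer
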