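import Fermat.Agent.TwoAdic.Selmer.QuadChar

/-!
# The decomposition groups at the ramified primes of the frame

At `q ∈ T` inertia acts through one transposition; adapted places exist. A cocycle with the
Steinberg conditions commutes with that transposition on the whole decomposition group.
-/

set_option autoImplicit false
set_option linter.style.haveILetI false

noncomputable section

namespace Fermat.Agent.TwoAdic.Selmer

open Fermat.Agent.Deform Fermat.Agent.Arith Fermat.Agent.CFT.Tangent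
open scoped Pointwise

theorem refM_table :
    refM.det = 1 ∧ inv2 refM = refM ∧ refM * refM = 1 ∧ refM.trace = 0 ∧ refM ≠ 1 := by decide

theorem rotM_table : rotM.det = 1 ∧ inv2 rotM = rotM2 ∧ rotM.trace = 1 ∧ rotM * rotM = rotM2 ∧
    inv2 rotM2 = rotM ∧ rotM ≠ 1 := by decide

theorem exists_conj_refM : ∀ g : M2F, g.det = 1 → g ≠ 1 → g.trace ≠ 1 →
    ∃ h ∈ ({1, rotM, rotM2} : Finset M2F), h * g * inv2 h = refM :=
  forall_M2F (by decide)

theorem eq_one_or_refM_of_trace : ∀ g : M2F, g.det = 1 → (g * refM * inv2 g * refM).trace = 0 →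
    g = 1 ∨ g = refM :=
  forall_M2F (by decide)

variable (Fr : Frame)

theorem Frame.ρ_mul_self_of {σ : GQ} (h : Fr.ρ σ = 1 ∨ Fr.ρ σ = refM) : Fr.ρ (σ * σ) = 1 := by
  rcases h with h | h <;> rw [map_mul, h]
  · exact one_mul 1
  · exact refM_table.2.2.1

theorem Frame.exists_ramified {q : ℕ} (hq : q ∈ Fr.T) {P : ValuationSubring QBar}
    (hP : P.LiesOverPrime q) :
    ∃ σ ∈ P.inertiaSubgroupIn ℚ, Fr.ρ σ ≠ 1 ∧ (Fr.ρ σ).trace ≠ 1 := by
  classical
  have hp := Fr.prime_of_mem q hq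
  have hq2 : q ≠ 2 := fun h => Fr.two_notMem (h ▸ hq)
  obtain ⟨σ, hσ, hne⟩ := exists_inertia_moves hP hp
  set z : ℤ := -2 * ∏ p ∈ Fr.T.erase q, (p : ℤ) with hz
  have h0 : sqrtOf (q : QBar) ≠ 0 := fun h => hne (by rw [h, map_zero])
  have hq0 : (q : QBar) ≠ 0 := Nat.cast_ne_zero.mpr hp.ne_zero
  have hs : (Fr.root / sqrtOf q) ^ 2 = (z : QBar) := by
    rw [div_pow, Fr.root_sq, sqrtOf_sq, hz, ← Finset.mul_prod_erase Fr.T _ hq]
    push_cast
    field_simp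
  have hnd : ¬ (q : ℤ) ∣ z := by
    rw [hz, (Nat.prime_iff_prime_int.mp hp).dvd_mul, not_or, dvd_neg]
    refine ⟨fun h => hq2 ((Nat.prime_dvd_prime_iff_eq hp Nat.prime_two).mp
      (Int.natCast_dvd_natCast.mp h)), ?_⟩
    rw [(Nat.prime_iff_prime_int.mp hp).dvd_finsetProd_iff]
    rintro ⟨p, hp', hd⟩
    obtain ⟨hpq, hpT⟩ := Finset.mem_erase.mp hp'
    exact hpq ((Nat.prime_dvd_prime_iff_eq hp (Fr.prime_of_mem p hpT)).mp
      (Int.natCast_dvd_natCast.mp hd)).symm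
  have hfix := inertia_fix_sqrt hP hp hq2 hs hnd hσ
  have hroot0 : Fr.root ≠ 0 := fun h => by
    rw [h, zero_div, zero_pow two_ne_zero, eq_comm, Int.cast_eq_zero] at hs
    exact hnd (hs ▸ dvd_zero _)
  rw [map_div₀] at hfix
  have hmoved : σ Fr.root ≠ Fr.root := fun h => by
    rw [h, div_eq_mul_inv, div_eq_mul_inv] at hfix
    exact hne (inv_injective (mul_left_cancel₀ hroot0 hfix))
  exact ⟨σ, hσ, fun h => hmoved ((Fr.root_iff σ).mpr (Or.inl h)),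
    fun h => hmoved ((Fr.root_iff σ).mpr (Or.inr h))⟩

theorem Frame.exists_ρ_eq {g : M2F} (hg : g ∈ ({1, rotM, rotM2} : Finset M2F)) :
    ∃ γ, Fr.ρ γ = g := by
  obtain ⟨γ, hγ⟩ := Fr.rot_mem
  simp only [Finset.mem_insert, Finset.mem_singleton] at hg
  rcases hg with rfl | rfl | rfl
  · exact ⟨1, map_one _⟩
  · exact ⟨γ, hγ⟩
  · exact ⟨γ * γ, by rw [map_mul, hγ, rotM_table.2.2.2.1]⟩

theorem Frame.exists_isAdapted {q : ℕ} (hq : q ∈ Fr.T) : ∃ P, IsAdapted Fr q P := by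
  obtain ⟨P, hP⟩ := exists_liesOverPrime (Fr.prime_of_mem q hq)
  obtain ⟨σ, hσ, h1, h2⟩ := Fr.exists_ramified hq hP
  obtain ⟨h, hh, he⟩ := exists_conj_refM _ (Fr.det_ρ σ) h1 h2
  obtain ⟨γ, hγ⟩ := Fr.exists_ρ_eq hh
  have hP' : (γ • P).LiesOverPrime q := liesOverPrime_smul_iff.mpr hP
  have hσ' : γ * σ * γ⁻¹ ∈ (γ • P).inertiaSubgroupIn ℚ := mem_inertia_smul_iff.mpr hσ
  have hρ' : Fr.ρ (γ * σ * γ⁻¹) = refM := by rw [map_mul, map_mul, Fr.ρ_inv, hγ]; exact he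
  refine ⟨γ • P, hP', fun s hs => ?_, _, hσ', hρ'⟩
  have h3 : s * (γ * σ * γ⁻¹) * s⁻¹ * (γ * σ * γ⁻¹) ∈ (γ • P).inertiaSubgroupIn ℚ := by
    refine mul_mem ?_ hσ'
    have h := mem_inertia_smul_iff (g := s).mpr hσ'
    rwa [show s • γ • P = γ • P from hs] at h
  have h4 := Fr.trace_inertia q hq _ hP' _ h3
  rw [map_mul, map_mul _ (s * (γ * σ * γ⁻¹)), map_mul _ s, hρ', Fr.ρ_inv] at h4
  exact eq_one_or_refM_of_trace _ (Fr.det_ρ s) h4

section Cocycle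

variable {k : Type} [Field k] [Algebra (ZMod 2) k] {Fr}

theorem Frame.rhoK_of_eq_refM {σ : GQ} (h : Fr.ρ σ = refM) :
    Fr.rhoK k σ = liftM k refM ∧ Fr.rhoK k σ⁻¹ = liftM k refM := by
  constructor
  · rw [Fr.rhoK_apply, h]
  · rw [Fr.rhoK_apply, Fr.ρ_inv, h, refM_table.2.1]

theorem Frame.rhoK_conj_of_eq_one {σ : GQ} (h : Fr.ρ σ = 1) (X : M2 k) :
    Fr.rhoK k σ * X * Fr.rhoK k σ⁻¹ = X := by
  rw [Fr.rhoK_apply, Fr.rhoK_apply, Fr.ρ_inv, h, show inv2 (1 : M2F) = 1 by decide, map_one,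
    one_mul, mul_one]

theorem commute_refM_iff {X : M2 k} :
    Commute (liftM k refM) X ↔ X 1 0 = 0 ∧ X 0 0 = X 1 1 := by
  constructor
  · intro h
    have h0 := congrFun (congrFun h 0) 0
    have h1 := congrFun (congrFun h 0) 1
    simp [liftM, refM, Matrix.mul_apply, Fin.sum_univ_two] at h0 h1
    exact ⟨h0, by linear_combination -h1⟩
  · rintro ⟨h0, h1⟩
    ext i j
    fin_cases i <;> fin_cases j <;>
      simp [liftM, refM, Matrix.mul_apply, Fin.sum_univ_two, h0, h1, add_comm]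

theorem trace_eq_zero_of_commute_refM {X : M2 k} (h : Commute (liftM k refM) X) :
    X.trace = 0 := by
  rw [Matrix.trace_fin_two, (commute_refM_iff.mp h).2]
  exact two_smul_eq_zero' _

theorem commute_refM_conj {X : M2 k} (h : Commute (liftM k refM) X) :
    liftM k refM * X * liftM k refM = X := by
  rw [h.eq, mul_assoc, ← map_mul, refM_table.2.2.1, map_one, mul_one]

theorem Frame.rhoK_conj_of_commute {σ : GQ} (h : Fr.ρ σ = 1 ∨ Fr.ρ σ = refM) {X : M2 k}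
    (hX : Commute (liftM k refM) X) : Fr.rhoK k σ * X * Fr.rhoK k σ⁻¹ = X := by
  rcases h with h | h
  · exact Fr.rhoK_conj_of_eq_one h X
  · rw [(Fr.rhoK_of_eq_refM h).1, (Fr.rhoK_of_eq_refM h).2, commute_refM_conj hX]

variable {b : GQ → M2 k}

theorem commute_mul (hb : IsAdCocycle (Fr.rhoK k) b) {σ τ : GQ}
    (hσ : Fr.ρ σ = 1 ∨ Fr.ρ σ = refM) (h1 : Commute (liftM k refM) (b σ))
    (h2 : Commute (liftM k refM) (b τ)) : Commute (liftM k refM) (b (σ * τ)) := by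
  rw [hb, Fr.rhoK_conj_of_commute hσ h2]
  exact h2.add_right h1

theorem cocycle_sq_of_eq_one (hb : IsAdCocycle (Fr.rhoK k) b) {σ : GQ}
    (h : Fr.ρ σ = 1 ∨ Fr.ρ σ = refM) (hc : Commute (liftM k refM) (b σ)) : b (σ * σ) = 0 := by
  rw [hb, Fr.rhoK_conj_of_commute h hc]
  ext i j
  exact two_smul_eq_zero' _

/-- At an adapted place of `q ∈ T` a Steinberg cocycle commutes with the transposition. -/
theorem steinberg_commute (hb : IsAdCocycle (Fr.rhoK k) b) (hfin : IsFiniteLevel b) {q : ℕ}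
    (hq : q ∈ Fr.T) {P : ValuationSubring QBar} (hP : IsAdapted Fr q P)
    (hst : ∀ σ ∈ P.inertiaSubgroupIn ℚ, (b σ).trace = 0 ∧ (b σ * Fr.rhoK k σ).trace = 0)
    {σ : GQ} (hσ : σ ∈ P.decompositionSubgroup ℚ) : Commute (liftM k refM) (b σ) := by
  have hp := Fr.prime_of_mem q hq
  have hq2 : q ≠ 2 := fun h => Fr.two_notMem (h ▸ hq)
  have hle : ∀ τ ∈ P.inertiaSubgroupIn ℚ, Fr.ρ τ = 1 ∨ Fr.ρ τ = refM := fun τ hτ =>
    hP.decomp τ (mem_inertia_iff_forall_mem.mp hτ).1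
  have hlt : ∀ τ ∈ P.inertiaSubgroupIn ℚ, Fr.ρ τ = refM → Commute (liftM k refM) (b τ) := by
    intro τ hτ hρ
    obtain ⟨h1, h2⟩ := hst τ hτ
    rw [(Fr.rhoK_of_eq_refM hρ).1] at h2
    rw [Matrix.trace_fin_two] at h1 h2
    simp [liftM, refM, Matrix.mul_apply, Fin.sum_univ_two] at h2
    refine commute_refM_iff.mpr ⟨by linear_combination h2 - h1, ?_⟩
    linear_combination h1 - two_smul_eq_zero' (b τ 1 1)
  obtain ⟨σ₀, hσ₀, hρ₀⟩ := hP.exists_inertia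
  have hI : ∀ τ ∈ P.inertiaSubgroupIn ℚ, Commute (liftM k refM) (b τ) := by
    intro τ hτ
    rcases hle τ hτ with hρ | hρ
    · have h := hlt (τ * σ₀) (mul_mem hτ hσ₀) (by rw [map_mul, hρ, hρ₀, one_mul])
      rw [hb, Fr.rhoK_conj_of_eq_one hρ] at h
      have := h.sub_right (hlt σ₀ hσ₀ hρ₀)
      rwa [add_sub_cancel_left] at this
    · exact hlt τ hτ hρ
  obtain ⟨φ, hφ⟩ := exists_isFrobeniusAt hP.liesOver hp
  haveI := jointKer_normal hb
  have hopen := jointKer_isOpen hb hfin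
  have hK : (σ₀ ^ q)⁻¹ * (φ * σ₀ * φ⁻¹) ∈ jointKer Fr hb :=
    frobenius_conj_of_open hP.liesOver hp hq2 _ hopen
      (fun τ hτ => pow_four_mem_jointKer hb (Fr.ρ_mul_self_of (hle τ hτ))) hφ hσ₀
  obtain ⟨he, hρe⟩ := eq_of_mem_jointKer hb hK
  obtain ⟨m, hm⟩ : ∃ m, q = 2 * m + 1 :=
    ⟨q / 2, by have := hp.eq_two_or_odd.resolve_left hq2; omega⟩
  have hsq : σ₀ * σ₀ ∈ jointKer Fr hb :=
    ⟨Fr.ρ_mul_self_of (Or.inr hρ₀), cocycle_sq_of_eq_one hb (Or.inr hρ₀) (hI σ₀ hσ₀)⟩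
  obtain ⟨he', hρe'⟩ : b (σ₀ ^ q) = b σ₀ ∧ Fr.ρ (σ₀ ^ q) = Fr.ρ σ₀ := by
    refine eq_of_mem_jointKer hb ?_
    rw [hm, pow_succ', inv_mul_cancel_left, pow_mul, pow_two]
    exact pow_mem hsq m
  have hφd : φ ∈ P.decompositionSubgroup ℚ := hφ.mem_decompositionSubgroup
  have hcomm : Commute (liftM k refM) (b φ) := by
    obtain ⟨hc1, hc2⟩ := Fr.rhoK_of_eq_refM (k := k) (hρe.trans (hρe'.trans hρ₀))
    have h := hb.conj φ σ₀
    rw [he.trans he', Fr.rhoK_conj_of_commute (hP.decomp φ hφd) (hI σ₀ hσ₀), hc1, hc2,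
      add_sub_assoc, left_eq_add, sub_eq_zero] at h
    calc liftM k refM * b φ = liftM k refM * (liftM k refM * b φ * liftM k refM) := by rw [← h]
      _ = b φ * liftM k refM := by
        rw [← mul_assoc, ← mul_assoc, ← map_mul, refM_table.2.2.1, map_one, one_mul]
  obtain ⟨i, τ, hτ, hmem⟩ :=
    exists_frobenius_mul_inertia_at hP.liesOver hp (jointKer Fr hb) hopen hφ hσ
  rw [(eq_of_mem_jointKer hb hmem).1]
  have hpow : ∀ j : ℕ, Commute (liftM k refM) (b (φ ^ j)) := fun j => by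
    induction j with
    | zero => rw [pow_zero, hb.one]; exact Commute.zero_right _
    | succ j ih =>
      rw [pow_succ]
      exact commute_mul hb (hP.decomp _ (pow_mem hφd j)) ih hcomm
  exact commute_mul hb (hP.decomp _ (pow_mem hφd i)) (hpow i) (hI τ hτ)

end Cocycle

end Fermat.Agent.TwoAdic.Selmer
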