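import Fermat.Agent.TwoAdic.Selmer.Adapted

/-!
# Classes with the Selmer conditions: trace zero, and the part in `V`

A class with the conditions at `T`, at `2` and at the auxiliary primes has trace zero; it is a
scalar plus a class with values in `V` which is unramified outside `T` and the transposition
primes, of line type at `T` and at `2`.
-/

set_option autoImplicit false
set_option linter.style.haveILetI false

noncomputable section

namespace Fermat.Agent.TwoAdic.Selmer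

open Fermat.Agent.Deform Fermat.Agent.Arith Fermat.Agent.CFT.Tangent
open scoped Pointwise

variable {k : Type} [Field k] [Algebra (ZMod 2) k] {Fr : Frame} {ιD ιU : Type} [Fintype ιD]
  [Fintype ιU]

/-- The correction making a class upper triangular at `2`. -/
def shiftTwo (Fr : Frame) (b : GQ → M2 k) : GQ → M2 k :=
  b + cobdLin (Fr.rhoK k) (Matrix.single 1 0 (b Fr.σ2 1 1))

/-- The local conditions of the Selmer calculus, in the basis of the frame. -/
structure IsClass (DP : DPrimes Fr ιD) (UP : UPrimes Fr ιU) (b : GQ → M2 k) : Prop where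
  cocycle : IsAdCocycle (Fr.rhoK k) b
  finiteLevel : IsFiniteLevel b
  unramified : ∀ q : ℕ, q.Prime → q ≠ 2 → q ∉ Fr.T → (∀ i, DP.q i ≠ q) → (∀ i, UP.q i ≠ q) →
    ∀ P : ValuationSubring QBar, P.LiesOverPrime q → ∀ σ ∈ P.inertiaSubgroupIn ℚ, b σ = 0
  steinberg : ∀ q ∈ Fr.T, ∀ P : ValuationSubring QBar, P.LiesOverPrime q →
    ∀ σ ∈ P.inertiaSubgroupIn ℚ, (b σ).trace = 0 ∧ (b σ * Fr.rhoK k σ).trace = 0
  two_trace : ∀ σ ∈ Fr.P2.inertiaSubgroupIn ℚ, (b σ).trace = 0
  two_inertia : ∀ σ ∈ Fr.P2.inertiaSubgroupIn ℚ,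
    shiftTwo Fr b σ 1 0 = 0 ∧ shiftTwo Fr b σ 1 1 = 0
  two_decomp : ∀ σ ∈ Fr.P2.decompositionSubgroup ℚ, shiftTwo Fr b σ 1 0 = 0
  d_inertia : ∀ i, ∃ a : k, ∀ σ ∈ (DP.P i).inertiaSubgroupIn ℚ,
    (Fr.rhoK k (DP.φ i) + a • 1) * b σ = 0
  u_inertia : ∀ i, ∀ σ ∈ (UP.P i).inertiaSubgroupIn ℚ, b σ 1 0 = 0 ∧ b σ 1 1 = 0
  u_frobenius : ∀ i, b (UP.φ i) 1 0 = 0

/-- Classes in `V` unramified outside `T` and the transposition primes, without residue along
`(1, 0)` there. -/
structure IsNearSV (UP : UPrimes Fr ιU) (c : GQ → M2F) : Prop where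
  vCocycle : IsVCocycle Fr c
  unramified : ∀ q : ℕ, q.Prime → q ≠ 2 → q ∉ Fr.T → (∀ i, UP.q i ≠ q) →
    ∀ P : ValuationSubring QBar, P.LiesOverPrime q → ∀ σ ∈ P.inertiaSubgroupIn ℚ, c σ = 0
  line_T : ∀ q ∈ Fr.T, ∀ P, IsAdapted Fr q P → LineAt Fr c P
  line_two : LineAt Fr c Fr.P2
  u_inertia : ∀ i, ∀ σ ∈ (UP.P i).inertiaSubgroupIn ℚ, c σ 1 0 = 0
  u_frobenius : ∀ i, c (UP.φ i) 1 0 = 0

/-- The scalar part. -/
def scalarPart : M2 k →ₗ[k] k where
  toFun X := X 0 0 + X 0 1 + X 1 0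
  map_add' X Y := by simp only [Matrix.add_apply]; ring
  map_smul' a X := by simp only [Matrix.smul_apply, smul_eq_mul, RingHom.id_apply]; ring

section General

variable {b : GQ → M2 k} (hb : IsAdCocycle (Fr.rhoK k) b)

theorem Frame.trace_rhoK_conj (Fr : Frame) (σ : GQ) (X : M2 k) :
    (Fr.rhoK k σ * X * Fr.rhoK k σ⁻¹).trace = X.trace := by
  rw [Matrix.trace_mul_cycle, CFT.Tangent.map_inv_mul, one_mul]

include hb

theorem trace_cocycle (σ τ : GQ) : (b (σ * τ)).trace = (b σ).trace + (b τ).trace := by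
  rw [hb, Matrix.trace_add, Fr.trace_rhoK_conj, add_comm]

theorem trace_conj (g σ : GQ) : (b (g * σ * g⁻¹)).trace = (b σ).trace := by
  rw [hb.conj, Matrix.trace_sub, Matrix.trace_add, Fr.trace_rhoK_conj, Fr.trace_rhoK_conj,
    add_sub_cancel_right]

theorem cocycle_conj_of_eq_one {g σ : GQ} (hσ : Fr.ρ σ = 1) :
    b (g * σ * g⁻¹) = Fr.rhoK k g * b σ * Fr.rhoK k g⁻¹ := by
  have h : Fr.ρ (g * σ * g⁻¹) = 1 := by rw [map_mul, map_mul, hσ, mul_one, CFT.Tangent.map_mul_inv]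
  rw [hb.conj, Fr.rhoK_conj_of_eq_one h, add_sub_cancel_right]

/-- The tame relation at a prime where the frame is unramified. -/
theorem tame_conj (hfin : IsFiniteLevel b) {q : ℕ} (hq : q.Prime) (hq2 : q ≠ 2) (hqT : q ∉ Fr.T)
    {P : ValuationSubring QBar} (hP : P.LiesOverPrime q) {φ : GQ} (hφ : P.IsFrobeniusAt φ q)
    {σ : GQ} (hσ : σ ∈ P.inertiaSubgroupIn ℚ) :
    Fr.rhoK k φ * b σ * Fr.rhoK k φ⁻¹ = b σ := by
  haveI := jointKer_normal hb
  have h1 : ∀ τ ∈ P.inertiaSubgroupIn ℚ, Fr.ρ τ = 1 := Fr.unramified q hq hq2 hqT P hP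
  have hK := frobenius_conj_of_open hP hq hq2 _ (jointKer_isOpen hb hfin)
    (fun τ hτ => pow_four_mem_jointKer hb (Fr.ρ_mul_self_of (Or.inl (h1 τ hτ)))) hφ hσ
  rw [← cocycle_conj_of_eq_one hb (h1 σ hσ), (eq_of_mem_jointKer hb hK).1]
  obtain ⟨m, hm⟩ : ∃ m, q = 2 * m + 1 :=
    ⟨q / 2, by have := hq.eq_two_or_odd.resolve_left hq2; omega⟩
  refine (eq_of_mem_jointKer hb ?_).1
  rw [hm, pow_succ', inv_mul_cancel_left, pow_mul, pow_two]
  refine pow_mem (show σ * σ ∈ jointKer Fr hb from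
    ⟨Fr.ρ_mul_self_of (Or.inl (h1 σ hσ)), ?_⟩) m
  rw [hb, Fr.rhoK_conj_of_eq_one (h1 σ hσ)]
  ext i j
  exact two_smul_eq_zero' _

/-- Vanishing on the inertia group of one place spreads to the other places. -/
theorem unramified_of_one {q : ℕ} (hq : q.Prime) (hq2 : q ≠ 2) (hqT : q ∉ Fr.T)
    {P₀ P : ValuationSubring QBar} (hP₀ : P₀.LiesOverPrime q) (hP : P.LiesOverPrime q)
    (h₀ : ∀ σ ∈ P₀.inertiaSubgroupIn ℚ, b σ = 0) {σ : GQ} (hσ : σ ∈ P.inertiaSubgroupIn ℚ) :
    b σ = 0 := by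
  obtain ⟨g, hg⟩ := exists_smul_eq hP hP₀ hq
  have hσ' : g * σ * g⁻¹ ∈ P₀.inertiaSubgroupIn ℚ := hg ▸ mem_inertia_smul_iff.mpr hσ
  have h := h₀ _ hσ'
  rw [cocycle_conj_of_eq_one hb (Fr.unramified q hq hq2 hqT P hP σ hσ)] at h
  have h' : b σ = Fr.rhoK k g⁻¹ * (Fr.rhoK k g * b σ * Fr.rhoK k g⁻¹) * Fr.rhoK k g := by
    rw [← mul_assoc, ← mul_assoc, CFT.Tangent.map_inv_mul, one_mul, mul_assoc,
      CFT.Tangent.map_inv_mul, mul_one]
  rw [h', h, mul_zero, zero_mul]

end General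

theorem commute_of_conj_eq {g : M2F} (hg : g.det = 1) {X : M2 k}
    (h : liftM k g * X * liftM k (inv2 g) = X) : liftM k g * X = X * liftM k g := by
  have h1 : inv2 g * g = 1 := by
    rcases six g hg with rfl | rfl | rfl | rfl | rfl | rfl <;> decide
  calc liftM k g * X = liftM k g * X * liftM k (inv2 g) * liftM k g := by
        rw [mul_assoc _ (liftM k (inv2 g)), ← map_mul, h1, map_one, mul_one]
    _ = X * liftM k g := by rw [h]

/-- The equations at a prime whose Frobenius is the rotation. -/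
theorem eq_zero_of_rot {X : M2 k} (hc : liftM k rotM * X = X * liftM k rotM) {a : k}
    (ha : (liftM k rotM + a • 1) * X = 0) (ht : X.trace = 0) : X = 0 := by
  have c00 := congrFun (congrFun hc 0) 0
  have c01 := congrFun (congrFun hc 0) 1
  have a00 := congrFun (congrFun ha 0) 0
  have a01 := congrFun (congrFun ha 0) 1
  simp [liftM, rotM, Matrix.mul_apply, Fin.sum_univ_two] at c00 c01 a00 a01
  rw [Matrix.trace_fin_two] at ht
  have h01 : X 0 1 = 0 := by linear_combination ht - c01 - two_smul_eq_zero' (X 0 0)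
  have h11 : X 1 1 = 0 := by linear_combination a01 - a * h01
  have h10 : X 1 0 = 0 := by linear_combination c00 + h01
  have h00 : X 0 0 = 0 := by linear_combination ht - h11
  ext i j
  fin_cases i <;> fin_cases j
  · exact h00
  · exact h01
  · exact h10
  · exact h11

namespace IsClass

variable {DP : DPrimes Fr ιD} {UP : UPrimes Fr ιU} {b : GQ → M2 k} (hb : IsClass DP UP b)

include hb

/-- At a transposition prime inertia goes to the multiples of the upper nilpotent matrix. -/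
theorem u_inertia_entries (i : ιU) {σ : GQ} (hσ : σ ∈ (UP.P i).inertiaSubgroupIn ℚ) :
    b σ 0 0 = 0 ∧ b σ 1 0 = 0 ∧ b σ 1 1 = 0 := by
  have hq2 : UP.q i ≠ 2 := fun h => by
    have := UP.one_mod_four i
    omega
  have h := tame_conj hb.cocycle hb.finiteLevel (UP.prime i) hq2 (UP.notMem i) (UP.liesOver i)
    (UP.frob i) hσ
  rw [(Fr.rhoK_of_eq_refM (UP.ρ_φ i)).1, (Fr.rhoK_of_eq_refM (UP.ρ_φ i)).2] at h
  have hc : Commute (liftM k refM) (b σ) :=
    commute_of_conj_eq refM_table.1 (by rw [refM_table.2.1]; exact h)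
  obtain ⟨h10, h11⟩ := hb.u_inertia i σ hσ
  exact ⟨(commute_refM_iff.mp hc).2.trans h11, h10, h11⟩

theorem steinberg_commute' {q : ℕ} (hq : q ∈ Fr.T) {P : ValuationSubring QBar}
    (hP : IsAdapted Fr q P) {σ : GQ} (hσ : σ ∈ P.decompositionSubgroup ℚ) :
    Commute (liftM k refM) (b σ) :=
  steinberg_commute hb.cocycle hb.finiteLevel hq hP (hb.steinberg q hq P hP.liesOver) hσ

/-- The trace is unramified away from the rotation primes. -/
theorem trace_inertia {q : ℕ} (hq : q.Prime) (hD : ∀ i, DP.q i ≠ q) {P : ValuationSubring QBar}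
    (hP : P.LiesOverPrime q) {σ : GQ} (hσ : σ ∈ P.inertiaSubgroupIn ℚ) : (b σ).trace = 0 := by
  rcases eq_or_ne q 2 with rfl | hq2
  · obtain ⟨g, hg⟩ := exists_smul_eq hP Fr.P2_over hq
    rw [← trace_conj hb.cocycle g σ]
    exact hb.two_trace _ (hg ▸ mem_inertia_smul_iff.mpr hσ)
  by_cases hqT : q ∈ Fr.T
  · exact (hb.steinberg q hqT P hP σ hσ).1
  by_cases hU : ∀ i, UP.q i ≠ q
  · rw [hb.unramified q hq hq2 hqT hD hU P hP σ hσ, Matrix.trace_zero]
  · push Not at hU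
    obtain ⟨i, rfl⟩ := hU
    obtain ⟨g, hg⟩ := exists_smul_eq hP (UP.liesOver i) hq
    rw [← trace_conj hb.cocycle g σ, Matrix.trace_fin_two]
    obtain ⟨h00, -, h11⟩ := hb.u_inertia_entries i (hg ▸ mem_inertia_smul_iff.mpr hσ)
    rw [h00, h11, add_zero]

/-- Selmer classes have trace zero. -/
theorem trace_eq_zero (σ : GQ) : (b σ).trace = 0 := by
  classical
  set E : Finset ℕ := Finset.univ.image DP.q with hE
  have hEp : ∀ e ∈ E, e.Prime := fun e he => by
    obtain ⟨i, -, rfl⟩ := Finset.mem_image.mp he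
    exact DP.prime i
  have hE2 : 2 ∉ E := fun he => by
    obtain ⟨i, -, h⟩ := Finset.mem_image.mp he
    have := DP.one_mod_eight i
    omega
  choose Pe hPe using fun e : ℕ =>
    (show ∃ P : ValuationSubring QBar, e ∈ E → P.LiesOverPrime e by
      by_cases he : e ∈ E
      · obtain ⟨P, hP⟩ := exists_liesOverPrime (hEp e he)
        exact ⟨P, fun _ => hP⟩
      · exact ⟨⊤, fun h => absurd h he⟩)
  choose τe hτe using fun e : ℕ =>
    (show ∃ τ : GQ, e ∈ E → τ ∈ (Pe e).inertiaSubgroupIn ℚ ∧ τ (sqrtOf e) ≠ sqrtOf e by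
      by_cases he : e ∈ E
      · obtain ⟨τ, h1, h2⟩ := exists_inertia_moves (hPe e he) (hEp e he)
        exact ⟨τ, fun _ => ⟨h1, h2⟩⟩
      · exact ⟨1, fun h => absurd h he⟩)
  have hfin : IsFiniteLevel fun τ => (b τ).trace := by
    obtain ⟨L, hL, h⟩ := hb.finiteLevel
    exact ⟨L, hL, fun τ hτ => by simp [h τ hτ]⟩
  have hsum := hom_eq_sum E hEp hE2 Pe τe hPe (fun e he => (hτe e he).1)
    (fun e he => (hτe e he).2) (fun τ => (b τ).trace) (trace_cocycle hb.cocycle) hfin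
    fun q hq hqE P hP τ hτ => hb.trace_inertia hq
      (fun i h => hqE (Finset.mem_image.mpr ⟨i, Finset.mem_univ _, h⟩)) hP hτ
  rw [hsum, Finset.sum_image fun i _ j _ h => DP.injective h]
  refine Finset.sum_eq_zero fun i _ => mul_eq_zero_of_left ?_ _
  revert i
  suffices h : ∀ i, (b (τe (DP.q i))).trace = 0 by simpa using h
  intro i
  refine (Module.forall_dual_apply_eq_zero_iff (ZMod 2) _).mp fun μ => ?_
  refine congrFun (DP.detect (fun j => μ (b (τe (DP.q j))).trace) fun l hl => ?_) i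
  obtain ⟨P, hP⟩ := Fr.exists_isAdapted hl
  obtain ⟨φ, hφ⟩ := exists_isFrobeniusAt hP.liesOver (Fr.prime_of_mem l hl)
  have h0 : (b φ).trace = 0 :=
    trace_eq_zero_of_commute_refM (hb.steinberg_commute' hl hP hφ.mem_decompositionSubgroup)
  rw [hsum φ, Finset.sum_image fun i _ j _ h => DP.injective h] at h0
  refine Eq.trans (Finset.sum_congr rfl fun j _ => ?_) ((map_sum μ _ _).symm.trans
    ((congrArg μ h0).trans (map_zero μ)))
  have hl2 : l ≠ 2 := fun h => Fr.two_notMem (h ▸ hl)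
  have hne : l ≠ DP.q j := fun h => DP.notMem j (h ▸ hl)
  have hstar : qStar (DP.q j) = DP.q j := by
    rw [qStar, if_pos (by have := DP.one_mod_eight j; omega)]
  have hiff := frobenius_sqrt hP.liesOver (Fr.prime_of_mem l hl) hl2 (starRoot_sq (DP.q j))
    (not_dvd_qStar (DP.prime j) (Fr.prime_of_mem l hl) hne) hφ
  rw [hstar, Int.cast_natCast] at hiff
  by_cases hs : IsSquare ((DP.q j : ℕ) : ZMod l)
  · rw [if_pos hs, qc, if_pos (hiff.mpr hs), mul_zero, map_zero]
  · rw [if_neg hs, qc, if_neg fun h => hs (hiff.mp h), mul_one]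

/-- At the rotation primes the class is unramified. -/
theorem d_unramified (i : ιD) {P : ValuationSubring QBar} (hP : P.LiesOverPrime (DP.q i)) {σ : GQ}
    (hσ : σ ∈ P.inertiaSubgroupIn ℚ) : b σ = 0 := by
  have hq2 : DP.q i ≠ 2 := fun h => by
    have := DP.one_mod_eight i
    omega
  refine unramified_of_one hb.cocycle (DP.prime i) hq2 (DP.notMem i) (DP.liesOver i) hP
    (fun τ hτ => ?_) hσ
  obtain ⟨a, ha⟩ := hb.d_inertia i
  have h := tame_conj hb.cocycle hb.finiteLevel (DP.prime i) hq2 (DP.notMem i) (DP.liesOver i)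
    (DP.frob i) hτ
  rw [Fr.rhoK_apply, Fr.rhoK_apply, Fr.ρ_inv, DP.ρ_φ i] at h
  have ha' := ha τ hτ
  rw [Fr.rhoK_apply, DP.ρ_φ i] at ha'
  exact eq_zero_of_rot (commute_of_conj_eq rotM_table.1 h) ha' (hb.trace_eq_zero τ)

end IsClass

section Functional

variable (μ : k →ₗ[ZMod 2] ZMod 2)

theorem map_liftM_mul_mul (g h : M2F) (X : M2 k) :
    (liftM k g * X * liftM k h).map μ = g * X.map μ * h := by
  have e : ∀ (a c : ZMod 2) (x : k),
      μ (algebraMap (ZMod 2) k a * x * algebraMap (ZMod 2) k c) = a * μ x * c := fun a c x => by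
    rw [show algebraMap (ZMod 2) k a * x * algebraMap (ZMod 2) k c = (a * c) • x by
      rw [Algebra.smul_def, map_mul]; ring, map_smul, smul_eq_mul]
    ring
  ext i j
  simp only [liftM, RingHom.mapMatrix_apply, Matrix.map_apply, Matrix.mul_apply,
    Fin.sum_univ_two, add_mul, map_add, e]

theorem inV_map {X : M2 k} (hX : InV X) : InV (X.map μ) := by
  obtain ⟨h1, h2⟩ := hX
  exact ⟨by simp [Matrix.map_apply, h1], by simp [Matrix.map_apply, h2, map_add]⟩

theorem cobdLin_map (Y : M2 k) (σ : GQ) :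
    (cobdLin (Fr.rhoK k) Y σ).map μ = cobdLin Fr.ρ (Y.map μ) σ := by
  rw [cobdLin_apply, cobdLin_apply, Fr.rhoK_apply, Fr.rhoK_apply, ← map_liftM_mul_mul μ,
    Matrix.map_sub _ (map_sub μ)]

end Functional

theorem projV_rhoK_conj (Fr : Frame) (σ : GQ) (X : M2 k) :
    projV (Fr.rhoK k σ * X * Fr.rhoK k σ⁻¹) = Fr.rhoK k σ * projV X * Fr.rhoK k σ⁻¹ := by
  rw [Fr.rhoK_apply, Fr.rhoK_apply, Fr.ρ_inv, projV_conj (Fr.det_ρ σ)]

theorem projV_cobdLin (Fr : Frame) (Y : M2 k) (σ : GQ) :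
    projV (cobdLin (Fr.rhoK k) Y σ) = cobdLin (Fr.rhoK k) (projV Y) σ := by
  rw [cobdLin_apply, cobdLin_apply, map_sub, projV_rhoK_conj]

omit [Algebra (ZMod 2) k] in
theorem projV_10 (X : M2 k) : projV X 1 0 = X 1 0 + X.trace := rfl

namespace IsClass

variable {DP : DPrimes Fr ιD} {UP : UPrimes Fr ιU} {b : GQ → M2 k} (hb : IsClass DP UP b)

include hb

theorem eq_scalar_add (σ : GQ) : b σ = scalarPart (b σ) • (1 : M2 k) + projV (b σ) :=
  eq_scalar_add_projV (hb.trace_eq_zero σ)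

theorem projV_cocycle : IsAdCocycle (Fr.rhoK k) fun σ => projV (b σ) := fun g g' => by
  simp only [hb.cocycle g g', map_add, projV_rhoK_conj]

theorem scalarPart_mul (σ τ : GQ) :
    scalarPart (b (σ * τ)) = scalarPart (b σ) + scalarPart (b τ) := by
  have h := hb.cocycle σ τ
  have h' : projV (b (σ * τ)) = Fr.rhoK k σ * projV (b τ) * Fr.rhoK k σ⁻¹ + projV (b σ) :=
    hb.projV_cocycle σ τ
  rw [hb.eq_scalar_add (σ * τ), hb.eq_scalar_add σ, hb.eq_scalar_add τ, h',
    mul_add, add_mul, mul_smul_comm, smul_mul_assoc, mul_one, CFT.Tangent.map_mul_inv] at h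
  have h00 := congrFun (congrFun h 0) 0
  simp only [Matrix.add_apply, Matrix.smul_apply, Matrix.one_apply_eq, smul_eq_mul, mul_one] at h00
  linear_combination h00

/-- The part in `V` under a functional. -/
theorem isNearSV (μ : k →ₗ[ZMod 2] ZMod 2) :
    IsNearSV UP fun σ => (projV (b σ)).map μ := by
  refine ⟨⟨fun g g' => ?_, ?_, fun σ => inV_map μ (inV_projV _)⟩, ?_, ?_, ?_, ?_, ?_⟩
  · show (projV (b (g * g'))).map μ = _
    rw [show projV (b (g * g')) = Fr.rhoK k g * projV (b g') * Fr.rhoK k g⁻¹ + projV (b g) from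
      hb.projV_cocycle g g', Matrix.map_add _ (map_add μ), Fr.rhoK_apply, Fr.rhoK_apply,
      map_liftM_mul_mul]
  · obtain ⟨L, hL, h⟩ := hb.finiteLevel
    exact ⟨L, hL, fun σ hσ => by simp [h σ hσ]⟩
  · intro q hq hq2 hqT hqU P hP σ hσ
    suffices h : b σ = 0 by simp [h]
    by_cases hD : ∀ i, DP.q i ≠ q
    · exact hb.unramified q hq hq2 hqT hD hqU P hP σ hσ
    · push Not at hD
      obtain ⟨i, rfl⟩ := hD
      exact hb.d_unramified i hP hσ
  · refine fun q hq P hP => ⟨0, inV_zero, fun σ hσ => ?_⟩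
    rw [map_zero, Pi.zero_apply, add_zero]
    show (projV (b σ)).map μ 1 0 = 0
    rw [Matrix.map_apply, projV_10, hb.trace_eq_zero,
      (commute_refM_iff.mp (hb.steinberg_commute' hq hP hσ)).1, add_zero, map_zero]
  · refine ⟨(projV (Matrix.single 1 0 (b Fr.σ2 1 1))).map μ, inV_map μ (inV_projV _),
      fun σ hσ => ?_⟩
    show ((projV (b σ)).map μ + _) 1 0 = 0
    rw [← cobdLin_map μ, ← projV_cobdLin, Matrix.add_apply, Matrix.map_apply, Matrix.map_apply,
      ← map_add, ← Matrix.add_apply, ← map_add, projV_10]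
    have e : b σ + cobdLin (Fr.rhoK k) (Matrix.single 1 0 (b Fr.σ2 1 1)) σ = shiftTwo Fr b σ := rfl
    rw [e, hb.two_decomp σ hσ, zero_add, shiftTwo, Pi.add_apply, Matrix.trace_add,
      hb.trace_eq_zero, cobdLin_apply, Matrix.trace_sub, Fr.trace_rhoK_conj, sub_self, add_zero,
      map_zero]
  · intro i σ hσ
    show (projV (b σ)).map μ 1 0 = 0
    rw [Matrix.map_apply, projV_10, hb.trace_eq_zero, (hb.u_inertia i σ hσ).1, add_zero, map_zero]
  · intro i
    show (projV (b (UP.φ i))).map μ 1 0 = 0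
    rw [Matrix.map_apply, projV_10, hb.trace_eq_zero, hb.u_frobenius i, add_zero, map_zero]

end IsClass

end Fermat.Agent.TwoAdic.Selmer
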