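import Fermat.Agent.TwoAdic.Selmer.Classes
import Fermat.Agent.TwoAdic.Deform.Classes

/-!
# Selmer classes of a deformation problem as classes of the frame

A setting with the residual representation of a frame and auxiliary data made of rotation and
transposition primes: its Selmer cocycles satisfy `IsClass`, so a bound on such classes gives
`SelmerBound`.
-/

set_option autoImplicit false

noncomputable section

namespace Fermat.Agent.TwoAdic.Selmer

open IsLocalRing Fermat.Agent.Deform Fermat.Agent.Arith Fermat.Agent.CFT.Tangent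
open Fermat.Agent.TwoAdic.Deform (Setting Level Aux IsSelmer SelmerBound residualAt)

section Entries

variable {k : Type} [Field k] [Algebra (ZMod 2) k]

/-- A matrix whose bottom row vanishes is killed by the translate of an upper triangular one. -/
theorem upper_mul_eq_zero {M B : M2 k} (hM : M 1 0 = 0) (h0 : B 1 0 = 0) (h1 : B 1 1 = 0) :
    (M + M 0 0 • 1) * B = 0 := by
  ext i j
  fin_cases i <;> fin_cases j <;>
    simp [Matrix.mul_apply, Fin.sum_univ_two, Matrix.one_apply, hM, h0, h1, two_smul_eq_zero']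

/-- A basis making `refM` upper triangular with equal diagonal is upper triangular. -/
theorem lower_entry_eq_zero {G M : M2 k} (hM : M 1 0 = 0) (hd : M 0 0 = M 1 1)
    (h : liftM k refM * G = G * M) : G 1 0 = 0 := by
  have e00 := congrFun (congrFun h 0) 0
  have e10 := congrFun (congrFun h 1) 0
  simp [liftM, refM, Matrix.mul_apply, Fin.sum_univ_two, hM] at e00 e10
  by_cases ha : M 0 0 = 1
  · rw [ha, mul_one] at e00
    linear_combination e00
  · have e : G 1 0 * (M 0 0 - 1) = 0 := by linear_combination -e10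
    exact (mul_eq_zero.mp e).resolve_right (sub_ne_zero.mpr ha)

end Entries

variable {O : Type} [CommRing O] [IsLocalRing O] {S : Setting O} {Lv : Level S}
  [Algebra (ZMod 2) (ResidueField O)] {Fr : Frame} {ιD ιU : Type} [Fintype ιD] [Fintype ιU]
  {DP : DPrimes Fr ιD} {UP : UPrimes Fr ιU} {D : Aux S Lv}

/-- Selmer cocycles of the deformation problem are classes of the Selmer calculus. -/
theorem isClass_of_isSelmer
    (hrb : S.W.rb = mapM (algebraMap (ZMod 2) (ResidueField O)) Fr.ρ) (hT : S.T = Fr.T)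
    (hP2 : S.P2 = Fr.P2) (hσ2 : S.σ2 = Fr.σ2) (e : D.ι ≃ ιD ⊕ ιU)
    (hq : ∀ i, D.q i = Sum.elim DP.q UP.q (e i)) (hP : ∀ i, D.P i = Sum.elim DP.P UP.P (e i))
    (hφ : ∀ i, D.φ i = Sum.elim DP.φ UP.φ (e i)) (hU : ∀ j, D.isU (e.symm (Sum.inr j)) = true)
    {b : GQ → M2 (ResidueField O)} (hb : IsSelmer D b) : IsClass DP UP b := by
  have hrho : Fr.rhoK (ResidueField O) = S.W.rb := hrb.symm
  have hshift : shiftTwo Fr b = Fermat.Agent.TwoAdic.Deform.twoShift S b := by
    rw [shiftTwo, Fermat.Agent.TwoAdic.Deform.twoShift, hrho, hσ2]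
  have hQ2 : 2 ∉ Lv.Q := fun h => Lv.ne_two 2 h rfl
  -- the residual matrix and the class in the basis at an auxiliary prime
  have hlow : ∀ i, residualAt S (D.g i) (D.φ i) 1 0 = 0 := D.rb_lower
  have hconj : ∀ i, Fr.rhoK (ResidueField O) (D.φ i) * (D.basis i (ResidueField O) : M2 (ResidueField O)) =
      (D.basis i (ResidueField O) : M2 (ResidueField O)) * residualAt S (D.g i) (D.φ i) := fun i => by
    show _ = _ * ((↑(D.basis i (ResidueField O))⁻¹ : M2 (ResidueField O)) * S.W.rb (D.φ i) *
      (D.basis i (ResidueField O) : M2 (ResidueField O)))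
    rw [hrho, ← mul_assoc, ← mul_assoc, Units.mul_inv, one_mul]
  have hcls : ∀ i σ, b σ * (D.basis i (ResidueField O) : M2 (ResidueField O)) =
      (D.basis i (ResidueField O) : M2 (ResidueField O)) * D.locCls i b σ := fun i σ => by
    rw [Aux.locCls, ← mul_assoc, ← mul_assoc, Units.mul_inv, one_mul]
  -- at a transposition prime the basis is upper triangular
  have htri : ∀ j : ιU, (D.basis (e.symm (Sum.inr j)) (ResidueField O) : M2 (ResidueField O)) 1 0 = 0 ∧
      (D.basis (e.symm (Sum.inr j)) (ResidueField O) : M2 (ResidueField O)) 0 0 ≠ 0 := fun j => by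
    set i := e.symm (Sum.inr j) with hi
    have hρ : Fr.ρ (D.φ i) = refM := by
      rw [hφ, hi, Equiv.apply_symm_apply]
      exact UP.ρ_φ j
    have h := hconj i
    rw [Fr.rhoK_apply, hρ] at h
    have h10 := lower_entry_eq_zero (hlow i) ((D.rb_diag i).mpr (hU j)) h
    refine ⟨h10, fun h00 => ?_⟩
    have hdet := congrArg Matrix.det (Units.mul_inv (D.basis i (ResidueField O)))
    rw [Matrix.det_mul, Matrix.det_one, Matrix.det_fin_two, h10, h00] at hdet
    simp at hdet
  refine ⟨hrho ▸ hb.cocycle, hb.finiteLevel, fun q hq' hq2 hqT hD hU' => ?_, ?_, ?_, ?_, ?_,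
    fun j => ?_, fun j σ hσ => ?_, fun j => ?_⟩
  · refine hb.unramified q hq' hq2 (by rwa [hT]) fun hmem => ?_
    obtain ⟨i, rfl⟩ := D.q_surj q hmem
    rcases hi : e i with j | j
    · exact hD j (by rw [hq, hi]; rfl)
    · exact hU' j (by rw [hq, hi]; rfl)
  · intro q hq' P hP' σ hσ
    rw [hrho]
    exact hb.steinberg q (by rwa [hT]) P hP' σ hσ
  · exact hb.trace 2 Nat.prime_two hQ2 Fr.P2 Fr.P2_over
  · rw [hshift, ← hP2]
    exact hb.two_inertia
  · rw [hshift, ← hP2]
    exact hb.two_decomp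
  · -- rotation primes: the class is killed by a translate of Frobenius
    set i := e.symm (Sum.inl j) with hi
    have hPi : D.P i = DP.P j := by rw [hP, hi, Equiv.apply_symm_apply]; rfl
    have hφi : D.φ i = DP.φ j := by rw [hφ, hi, Equiv.apply_symm_apply]; rfl
    refine ⟨residualAt S (D.g i) (D.φ i) 0 0, fun σ hσ => ?_⟩
    obtain ⟨h0, h1⟩ := hb.aux_inertia i σ (by rw [hPi]; exact hσ)
    have hz : (Fr.rhoK (ResidueField O) (D.φ i) + residualAt S (D.g i) (D.φ i) 0 0 • 1) *
        b σ * (D.basis i (ResidueField O) : M2 (ResidueField O)) = 0 := by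
      rw [mul_assoc, hcls, ← mul_assoc, add_mul (Fr.rhoK _ _), hconj, smul_mul_assoc, one_mul,
        ← mul_one (D.basis i (ResidueField O) : M2 (ResidueField O)), mul_assoc, one_mul, ← mul_smul_comm,
        ← mul_add, mul_assoc, upper_mul_eq_zero (hlow i) h0 h1, mul_zero]
    rw [hφi] at hz ⊢
    exact (Units.mul_left_eq_zero _).mp hz
  · set i := e.symm (Sum.inr j) with hi
    have hPi : D.P i = UP.P j := by rw [hP, hi, Equiv.apply_symm_apply]; rfl
    obtain ⟨h0, h1⟩ := hb.aux_inertia i σ (by rw [hPi]; exact hσ)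
    obtain ⟨h10, h00⟩ := htri j
    rw [← hi] at h10 h00
    have e0 := congrFun (congrFun (hcls i σ) 1) 0
    have e1 := congrFun (congrFun (hcls i σ) 1) 1
    simp [Matrix.mul_apply, Fin.sum_univ_two, h10, h0, h1] at e0 e1
    have hb10 : b σ 1 0 = 0 := e0.resolve_right h00
    refine ⟨hb10, ?_⟩
    rw [hb10, zero_mul, zero_add] at e1
    refine (mul_eq_zero.mp e1).resolve_right fun h11 => ?_
    have hdet := congrArg Matrix.det (Units.mul_inv (D.basis i (ResidueField O)))
    rw [Matrix.det_mul, Matrix.det_one, Matrix.det_fin_two, h10, h11] at hdet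
    simp at hdet
  · set i := e.symm (Sum.inr j) with hi
    have hφi : D.φ i = UP.φ j := by rw [hφ, hi, Equiv.apply_symm_apply]; rfl
    have h0 := hb.aux_frobenius i (hU j)
    obtain ⟨h10, h00⟩ := htri j
    rw [← hi] at h10 h00
    have e0 := congrFun (congrFun (hcls i (D.φ i)) 1) 0
    simp [Matrix.mul_apply, Fin.sum_univ_two, h10, h0] at e0
    rw [← hφi]
    exact e0.resolve_right h00

/-- A bound on the classes of the Selmer calculus bounds the Selmer space. -/
theorem selmerBound_of_bound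
    (hrb : S.W.rb = mapM (algebraMap (ZMod 2) (ResidueField O)) Fr.ρ) (hT : S.T = Fr.T)
    (hP2 : S.P2 = Fr.P2) (hσ2 : S.σ2 = Fr.σ2) (e : D.ι ≃ ιD ⊕ ιU)
    (hq : ∀ i, D.q i = Sum.elim DP.q UP.q (e i)) (hP : ∀ i, D.P i = Sum.elim DP.P UP.P (e i))
    (hφ : ∀ i, D.φ i = Sum.elim DP.φ UP.φ (e i)) (hU : ∀ j, D.isU (e.symm (Sum.inr j)) = true)
    {n : ℕ}
    (hbound : ∀ V : Submodule (ResidueField O) (GQ → M2 (ResidueField O)),
      Module.Finite (ResidueField O) V → (∀ b ∈ V, IsClass DP UP b) →
        V ⊓ LinearMap.range (cobdLin (Fr.rhoK (ResidueField O))) = ⊥ →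
          Module.finrank (ResidueField O) V ≤ n) :
    SelmerBound D n := by
  intro V hfin hV hdisj
  refine hbound V hfin (fun b hb => isClass_of_isSelmer hrb hT hP2 hσ2 e hq hP hφ hU (hV b hb)) ?_
  rw [show Fr.rhoK (ResidueField O) = S.W.rb from hrb.symm]
  exact hdisj

end Fermat.Agent.TwoAdic.Selmer
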