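import Fermat.Agent.TwoAdic.Selmer.Defs
import Fermat.Agent.TwoAdic.CFT.Hilbert.Defs
import Fermat.Prelude.Def_GaloisRep_ComplexConjugation

/-!
# The rational Gram matrix of a twisted triple, the places `padicAt` and `realPlace`

`Iso` at a place of `F` only depends on `F`: it is isotropy of the rational ternary form
`M j k = ∑ i, r i ^ 2 * θ i ^ (j + k)`, hence of a rational diagonal form.
-/

set_option autoImplicit false
set_option linter.style.haveILetI false

noncomputable section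

namespace Fermat.Agent.TwoAdic.Selmer

open Fermat.Agent.Deform Fermat.Agent.Arith
open Matrix

/-- The squares of `r` are permuted like the nonzero vectors. -/
def SqEquivariant (Fr : Frame) (r : Fin 3 → QBar) : Prop :=
  ∀ σ i, σ (r i ^ 2) = r (perm (Fr.ρ σ) i) ^ 2

theorem sgn_sq (e : ZMod 2) : sgn e ^ 2 = 1 := by
  rw [sgn]; split <;> ring

theorem IsTwisted.sqEquivariant {Fr : Frame} {c : GQ → M2F} {r : Fin 3 → QBar}
    (h : IsTwisted Fr c r) : SqEquivariant Fr r := by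
  intro σ i
  rw [map_pow, h.twist, mul_pow, sgn_sq, one_mul]

theorem perm_injective (Fr : Frame) (σ : GQ) : Function.Injective (perm (Fr.ρ σ)) := by
  intro i j h
  have h' : σ (Fr.θ i) = σ (Fr.θ j) := by rw [Fr.θ_perm, Fr.θ_perm, h]
  exact Fr.θ_injective (σ.injective h')

theorem perm_surjective (Fr : Frame) (σ : GQ) : Function.Surjective (perm (Fr.ρ σ)) :=
  Finite.injective_iff_surjective.mp (perm_injective Fr σ)

theorem perm_map_mul (Fr : Frame) (σ τ : GQ) (i : Fin 3) :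
    perm (Fr.ρ (σ * τ)) i = perm (Fr.ρ σ) (perm (Fr.ρ τ) i) :=
  Fr.θ_injective (by rw [← Fr.θ_perm, AlgEquiv.mul_apply, Fr.θ_perm, Fr.θ_perm])

theorem perm_map_one (Fr : Frame) (i : Fin 3) : perm (Fr.ρ 1) i = i :=
  Fr.θ_injective (by rw [← Fr.θ_perm, AlgEquiv.one_apply])

variable {F Ω : Type} [Field F] [Field Ω] [Algebra F Ω]

/-- A matrix defines a quadratic form with a nontrivial zero. -/
def MatIso (N : Matrix (Fin 3) (Fin 3) F) : Prop :=
  ∃ x : Fin 3 → F, x ≠ 0 ∧ x ⬝ᵥ N *ᵥ x = 0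

section General

variable (Fr : Frame) (pl : Place F Ω)

/-- The Gram matrix of the trace form of a triple of local elements. -/
def IsGram (w : Fin 3 → Ω) (N : Matrix (Fin 3) (Fin 3) F) : Prop :=
  ∀ j k : Fin 3, algebraMap F Ω (N j k) = ∑ i, w i * pl.ι (Fr.θ i) ^ ((j : ℕ) + k)

theorem apply_theta (τ : Ω ≃ₐ[F] Ω) (i : Fin 3) :
    τ (pl.ι (Fr.θ i)) = pl.ι (Fr.θ (perm (Fr.ρ (pl.res τ)) i)) := by
  rw [← pl.comm, Fr.θ_perm]

theorem equivariant_sq {r : Fin 3 → QBar} (hr : SqEquivariant Fr r) :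
    Equivariant Fr pl fun i => pl.ι (r i) ^ 2 := by
  intro τ i
  show τ (pl.ι (r i) ^ 2) = pl.ι (r (perm (Fr.ρ (pl.res τ)) i)) ^ 2
  rw [← map_pow, ← pl.comm, hr, map_pow]

theorem exists_isGram [IsGalois F Ω] {w : Fin 3 → Ω} (hw : Equivariant Fr pl w) :
    ∃ N, IsGram Fr pl w N := by
  have h : ∀ j k : Fin 3, ∃ a : F,
      algebraMap F Ω a = ∑ i, w i * pl.ι (Fr.θ i) ^ ((j : ℕ) + k) := by
    intro j k
    refine (InfiniteGalois.mem_range_algebraMap_iff_fixed _).mpr fun τ => ?_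
    rw [map_sum]
    simp only [map_mul, map_pow, apply_theta Fr pl τ, hw τ]
    exact Equiv.sum_comp (Equiv.ofBijective _
      ⟨perm_injective Fr (pl.res τ), perm_surjective Fr (pl.res τ)⟩)
      (fun i => w i * pl.ι (Fr.θ i) ^ ((j : ℕ) + k))
  choose N hN using h
  exact ⟨Matrix.of N, fun j k => hN j k⟩

variable {Fr pl}

theorem IsGram.symm {w : Fin 3 → Ω} {N : Matrix (Fin 3) (Fin 3) F} (h : IsGram Fr pl w N) :
    N.IsSymm := by
  ext j k
  apply (algebraMap F Ω).injective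
  rw [transpose_apply, h k j, h j k, add_comm]

theorem IsGram.map_eq {w : Fin 3 → Ω} {N : Matrix (Fin 3) (Fin 3) F} (h : IsGram Fr pl w N) :
    N.map (algebraMap F Ω) = (vandermonde fun i => pl.ι (Fr.θ i))ᵀ * diagonal w *
      vandermonde fun i => pl.ι (Fr.θ i) := by
  ext j k
  rw [map_apply, h j k, Matrix.mul_assoc, Matrix.mul_apply]
  refine Finset.sum_congr rfl fun i _ => ?_
  rw [diagonal_mul, transpose_apply, vandermonde_apply, vandermonde_apply, pow_add]
  ring

theorem IsGram.map_det {w : Fin 3 → Ω} {N : Matrix (Fin 3) (Fin 3) F} (h : IsGram Fr pl w N) :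
    algebraMap F Ω N.det = (∏ i, w i) * (vandermonde fun i => pl.ι (Fr.θ i)).det ^ 2 := by
  rw [RingHom.map_det, RingHom.mapMatrix_apply, h.map_eq, det_mul, det_mul, det_transpose,
    det_diagonal]
  ring

variable (Fr pl) in
theorem det_vandermonde_theta_ne_zero : (vandermonde fun i => pl.ι (Fr.θ i)).det ≠ 0 :=
  det_vandermonde_ne_zero_iff.mpr fun i j h => Fr.θ_injective (pl.ι.injective h)

theorem IsGram.quad {w : Fin 3 → Ω} {N : Matrix (Fin 3) (Fin 3) F} (h : IsGram Fr pl w N)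
    (x : Fin 3 → F) : algebraMap F Ω (x ⬝ᵥ N *ᵥ x) =
      ∑ i, w i * ((vandermonde fun i => pl.ι (Fr.θ i)) *ᵥ fun j => algebraMap F Ω (x j)) i ^ 2 := by
  have h' : ∀ j k : Fin 3, algebraMap F Ω (N j k) =
      ∑ i, w i * pl.ι (Fr.θ i) ^ ((j : ℕ) + k) := h
  simp only [dotProduct, mulVec, map_add, map_mul, vandermonde_apply, Fin.sum_univ_three]
  rw [h' 0 0, h' 0 1, h' 0 2, h' 1 0, h' 1 1, h' 1 2, h' 2 0, h' 2 1, h' 2 2]
  simp [Fin.sum_univ_three]
  ring

theorem IsGram.iso_iff [IsGalois F Ω] {w : Fin 3 → Ω} {N : Matrix (Fin 3) (Fin 3) F}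
    (h : IsGram Fr pl w N) :
    (∃ z : Fin 3 → Ω, z ≠ 0 ∧ Equivariant Fr pl z ∧ ∑ i, w i * z i ^ 2 = 0) ↔ MatIso N := by
  set V := vandermonde fun i => pl.ι (Fr.θ i) with hV
  have hdet : V.det ≠ 0 := det_vandermonde_theta_ne_zero Fr pl
  have hinj : Function.Injective V.mulVec :=
    mulVec_injective_iff_isUnit.mpr ((isUnit_iff_isUnit_det V).mpr (Ne.isUnit hdet))
  constructor
  · rintro ⟨z, hz0, hz, hzero⟩
    have hx : V *ᵥ (V⁻¹ *ᵥ z) = z := by
      rw [mulVec_mulVec, mul_nonsing_inv V (Ne.isUnit hdet), one_mulVec]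
    have hfix : ∀ j, ∀ τ : Ω ≃ₐ[F] Ω, τ ((V⁻¹ *ᵥ z) j) = (V⁻¹ *ᵥ z) j := by
      intro j τ
      have key : V *ᵥ (fun j => τ ((V⁻¹ *ᵥ z) j)) = V *ᵥ (V⁻¹ *ᵥ z) := by
        rw [hx]
        ext k
        obtain ⟨i, rfl⟩ := perm_surjective Fr (pl.res τ) k
        rw [← hz τ i]
        conv_rhs => rw [← hx]
        simp only [mulVec, dotProduct, map_sum, map_mul, hV, vandermonde_apply, map_pow,
          apply_theta Fr pl τ]
      exact congrFun (hinj key) j
    choose x hxx using fun j => (InfiniteGalois.mem_range_algebraMap_iff_fixed _).mpr (hfix j)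
    refine ⟨x, fun h0 => hz0 ?_, (algebraMap F Ω).injective ?_⟩
    · rw [← hx, show V⁻¹ *ᵥ z = 0 from funext fun j => by rw [← hxx j, h0]; simp, mulVec_zero]
    · rw [h.quad, map_zero, ← hV, show (fun j => algebraMap F Ω (x j)) = V⁻¹ *ᵥ z from funext hxx,
        hx]
      exact hzero
  · rintro ⟨x, hx0, hx⟩
    refine ⟨V *ᵥ fun j => algebraMap F Ω (x j), fun h0 => hx0 ?_, fun τ i => ?_, ?_⟩
    · have := hinj (h0.trans (mulVec_zero V).symm)
      funext j
      exact (algebraMap F Ω).injective (by simpa using congrFun this j)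
    · simp only [mulVec, dotProduct, map_sum, map_mul, hV, vandermonde_apply, map_pow,
        apply_theta Fr pl τ, AlgEquiv.commutes]
    · rw [← h.quad, hx, map_zero]

theorem iso_iff_exists {r : Fin 3 → QBar} :
    Iso Fr pl r ↔
      ∃ z : Fin 3 → Ω, z ≠ 0 ∧ Equivariant Fr pl z ∧ ∑ i, pl.ι (r i) ^ 2 * z i ^ 2 = 0 := Iff.rfl

end General

/-! ### The rational matrix -/

/-- The rational Gram matrix of `r`. -/
def IsRatGram (Fr : Frame) (r : Fin 3 → QBar) (M : Matrix (Fin 3) (Fin 3) ℚ) : Prop :=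
  ∀ j k : Fin 3, algebraMap ℚ QBar (M j k) = ∑ i, r i ^ 2 * Fr.θ i ^ ((j : ℕ) + k)

/-- The tautological place. -/
def globalPlace : Place ℚ QBar where
  ι := RingHom.id _
  res := MonoidHom.id _
  comm := fun _ _ => rfl

local instance isGaloisQBar : IsGalois ℚ QBar := by
  haveI : Normal ℚ QBar := IsAlgClosure.normal ℚ QBar
  exact ⟨⟩

theorem exists_isRatGram {Fr : Frame} {r : Fin 3 → QBar} (hr : SqEquivariant Fr r) :
    ∃ M, IsRatGram Fr r M :=
  exists_isGram Fr globalPlace (w := fun i => r i ^ 2) (equivariant_sq Fr globalPlace hr)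

theorem IsRatGram.det_ne_zero {Fr : Frame} {r : Fin 3 → QBar} {M : Matrix (Fin 3) (Fin 3) ℚ}
    (h : IsRatGram Fr r M) (hr : ∀ i, r i ≠ 0) : M.det ≠ 0 := by
  intro h0
  have h1 := IsGram.map_det (pl := globalPlace) (w := fun i => r i ^ 2) h
  rw [h0, map_zero] at h1
  exact mul_ne_zero (Finset.prod_ne_zero_iff.mpr fun i _ => pow_ne_zero _ (hr i))
    (pow_ne_zero _ (det_vandermonde_theta_ne_zero Fr globalPlace)) h1.symm

theorem IsRatGram.isSymm {Fr : Frame} {r : Fin 3 → QBar} {M : Matrix (Fin 3) (Fin 3) ℚ}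
    (h : IsRatGram Fr r M) : M.IsSymm :=
  IsGram.symm (pl := globalPlace) (w := fun i => r i ^ 2) h

theorem IsRatGram.isGram [CharZero F] {Fr : Frame} {r : Fin 3 → QBar}
    {M : Matrix (Fin 3) (Fin 3) ℚ} (h : IsRatGram Fr r M) (pl : Place F Ω) :
    IsGram Fr pl (fun i => pl.ι (r i) ^ 2) (M.map fun a : ℚ => (a : F)) := by
  haveI : CharZero Ω := charZero_of_injective_algebraMap (algebraMap F Ω).injective
  intro j k
  have h1 := congrArg pl.ι (h j k)
  simpa using h1

theorem IsRatGram.iso_iff [CharZero F] [IsGalois F Ω] {Fr : Frame} {r : Fin 3 → QBar}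
    {M : Matrix (Fin 3) (Fin 3) ℚ} (h : IsRatGram Fr r M) (pl : Place F Ω) :
    Iso Fr pl r ↔ MatIso (M.map fun a : ℚ => (a : F)) :=
  (h.isGram pl).iso_iff

/-- Isotropy only depends on the ground field of the place. -/
theorem iso_iff_of_place [CharZero F] [IsGalois F Ω] {Fr : Frame} {r : Fin 3 → QBar}
    (hr : SqEquivariant Fr r) (pl pl' : Place F Ω) : Iso Fr pl r ↔ Iso Fr pl' r := by
  obtain ⟨M, hM⟩ := exists_isRatGram hr
  rw [hM.iso_iff pl, hM.iso_iff pl']

/-! ### Diagonalisation -/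

theorem exists_congr_diagonal {M : Matrix (Fin 3) (Fin 3) ℚ} (hM : M.IsSymm) (hd : M.det ≠ 0) :
    ∃ (P : Matrix (Fin 3) (Fin 3) ℚ) (d : Fin 3 → ℚ),
      P.det ≠ 0 ∧ (∀ i, d i ≠ 0) ∧ Pᵀ * M * P = diagonal d := by
  have hB : LinearMap.IsSymm (Matrix.toBilin' M) := ⟨fun x y => by
    simp only [Matrix.toBilin'_apply', RingHom.id_apply]
    rw [dotProduct_mulVec, ← mulVec_transpose, hM.eq, dotProduct_comm]⟩
  obtain ⟨v, hv⟩ := LinearMap.BilinForm.exists_orthogonal_basis hB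
  have h3 : Module.finrank ℚ (Fin 3 → ℚ) = 3 := Module.finrank_fin_fun ℚ
  set w := v.reindex (finCongr h3) with hw
  set P : Matrix (Fin 3) (Fin 3) ℚ := Matrix.of fun i j => w j i with hP
  have hPd : P.det ≠ 0 := by
    have : P = (Pi.basisFun ℚ (Fin 3)).toMatrix w := by
      ext i j; simp [hP, Module.Basis.toMatrix_apply]
    rw [this, ← Module.Basis.det_apply]
    exact ((Pi.basisFun ℚ (Fin 3)).isUnit_det w).ne_zero
  have hentry : ∀ i j, (Pᵀ * M * P) i j = Matrix.toBilin' M (w i) (w j) := by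
    intro i j
    simp only [Matrix.toBilin'_apply', Matrix.mul_assoc]
    rfl
  have hoff : Pᵀ * M * P = diagonal fun i => (Pᵀ * M * P) i i := by
    ext i j
    by_cases hij : i = j
    · subst hij; simp
    · rw [diagonal_apply_ne _ hij, hentry]
      have hne : (finCongr h3).symm i ≠ (finCongr h3).symm j :=
        fun h => hij ((finCongr h3).symm.injective h)
      simpa [hw] using hv hne
  refine ⟨P, _, hPd, fun i => ?_, hoff⟩
  have h1 : (Pᵀ * M * P).det ≠ 0 := by
    rw [det_mul, det_mul, det_transpose]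
    exact mul_ne_zero (mul_ne_zero hPd hd) hPd
  rw [hoff, det_diagonal] at h1
  exact Finset.prod_ne_zero_iff.mp h1 i (Finset.mem_univ i)

theorem matIso_congr {N P : Matrix (Fin 3) (Fin 3) F} (hP : P.det ≠ 0) :
    MatIso (Pᵀ * N * P) ↔ MatIso N := by
  have hinj : Function.Injective P.mulVec :=
    mulVec_injective_iff_isUnit.mpr ((isUnit_iff_isUnit_det P).mpr (Ne.isUnit hP))
  have key : ∀ x : Fin 3 → F, x ⬝ᵥ (Pᵀ * N * P) *ᵥ x = (P *ᵥ x) ⬝ᵥ N *ᵥ (P *ᵥ x) := by
    intro x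
    rw [← mulVec_mulVec, ← mulVec_mulVec, dotProduct_mulVec, vecMul_transpose]
  constructor
  · rintro ⟨x, hx0, hx⟩
    exact ⟨P *ᵥ x, fun h => hx0 (hinj (h.trans (mulVec_zero P).symm)), (key x).symm.trans hx⟩
  · rintro ⟨y, hy0, hy⟩
    have e : P *ᵥ (P⁻¹ *ᵥ y) = y := by
      rw [mulVec_mulVec, mul_nonsing_inv P (Ne.isUnit hP), one_mulVec]
    refine ⟨P⁻¹ *ᵥ y, fun h => hy0 (by rw [← e, h, mulVec_zero]), ?_⟩
    rw [key, e, hy]

theorem matIso_diagonal (d : Fin 3 → F) :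
    MatIso (diagonal d) ↔ CFT.Isotropic F (d 0) (d 1) (d 2) := by
  constructor
  · rintro ⟨x, hx0, hx⟩
    refine ⟨x 0, x 1, x 2, ?_, ?_⟩
    · by_contra hc
      push Not at hc
      exact hx0 (funext fun i => by fin_cases i <;> simp [hc.1, hc.2.1, hc.2.2])
    · simp [dotProduct, mulVec_diagonal, Fin.sum_univ_three] at hx
      linear_combination hx
  · rintro ⟨x, y, z, hne, h⟩
    refine ⟨![x, y, z], fun h0 => ?_, ?_⟩
    · have h0' := fun i => congrFun h0 i
      have e0 := h0' 0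
      have e1 := h0' 1
      have e2 := h0' 2
      simp at e0 e1 e2
      tauto
    · simp [dotProduct, mulVec_diagonal, Fin.sum_univ_three]
      linear_combination h

/-- `Iso` at every place is isotropy of one rational diagonal form. -/
theorem exists_diagonal_form {Fr : Frame} {r : Fin 3 → QBar} (hr : SqEquivariant Fr r)
    (hr0 : ∀ i, r i ≠ 0) :
    ∃ d : Fin 3 → ℚ, (∀ i, d i ≠ 0) ∧
      ∀ {F Ω : Type} [Field F] [Field Ω] [Algebra F Ω] [CharZero F] [IsGalois F Ω]
        (pl : Place F Ω), Iso Fr pl r ↔ CFT.Isotropic F (d 0 : F) (d 1 : F) (d 2 : F) := by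
  obtain ⟨M, hM⟩ := exists_isRatGram hr
  obtain ⟨P, d, hP, hd, hPM⟩ := exists_congr_diagonal hM.isSymm (hM.det_ne_zero hr0)
  refine ⟨d, hd, ?_⟩
  intro F Ω _ _ _ _ _ pl
  rw [hM.iso_iff pl]
  have hP' : (P.map (Rat.castHom F)).det ≠ 0 := by
    rw [← RingHom.mapMatrix_apply, ← RingHom.map_det]
    exact (map_ne_zero _).mpr hP
  have e : (P.map (Rat.castHom F))ᵀ * M.map (Rat.castHom F) * P.map (Rat.castHom F) =
      diagonal fun i => (d i : F) := by
    rw [← transpose_map, ← Matrix.map_mul, ← Matrix.map_mul, hPM, diagonal_map (map_zero _)]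
    rfl
  rw [show (M.map fun a : ℚ => (a : F)) = M.map (Rat.castHom F) from rfl, ← matIso_congr hP', e,
    matIso_diagonal]

/-! ### The places -/

/-- The place of `ℚ̄` given by `padicEmbedding q ∘ g`. -/
def padicAt (q : ℕ) [Fact q.Prime] (g : GQ) : Place ℚ_[q] (PadicAlgCl q) where
  ι := (padicEmbedding q).toRingHom.comp g.toAlgHom.toRingHom
  res := (MulAut.conj g⁻¹).toMonoidHom.comp (localGaloisToGlobal q)
  comm := fun τ x => by
    show padicEmbedding q (g ((g⁻¹ * localGaloisToGlobal q τ * g⁻¹⁻¹) x)) =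
      τ (padicEmbedding q (g x))
    rw [inv_inv, AlgEquiv.mul_apply, AlgEquiv.mul_apply,
      show g (g⁻¹ (localGaloisToGlobal q τ (g x))) = localGaloisToGlobal q τ (g x) from
        g.apply_symm_apply _, padicEmbedding_localGaloisToGlobal]

theorem padicAt_ι (q : ℕ) [Fact q.Prime] (g : GQ) (x : QBar) :
    (padicAt q g).ι x = padicEmbedding q (g x) := rfl

theorem padicAt_res (q : ℕ) [Fact q.Prime] (g : GQ) (τ : PadicAlgCl q ≃ₐ[ℚ_[q]] PadicAlgCl q) :
    (padicAt q g).res τ = g⁻¹ * localGaloisToGlobal q τ * g := by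
  show g⁻¹ * localGaloisToGlobal q τ * g⁻¹⁻¹ = _
  rw [inv_inv]

instance isGaloisPadicAlgCl (q : ℕ) [Fact q.Prime] : IsGalois ℚ_[q] (PadicAlgCl q) := by
  haveI : Normal ℚ_[q] (PadicAlgCl q) := IsAlgClosure.normal ℚ_[q] (PadicAlgCl q)
  exact ⟨⟩

/-- Isotropy at `padicAt q g` does not depend on `g`. -/
theorem iso_padicAt_iff {Fr : Frame} {r : Fin 3 → QBar} (hr : SqEquivariant Fr r) (q : ℕ)
    [Fact q.Prime] (g g' : GQ) : Iso Fr (padicAt q g) r ↔ Iso Fr (padicAt q g') r :=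
  iso_iff_of_place hr _ _

theorem aniso_padicAt_eq {Fr : Frame} {r : Fin 3 → QBar} (hr : SqEquivariant Fr r) (q : ℕ)
    [Fact q.Prime] (g g' : GQ) : aniso Fr (padicAt q g) r = aniso Fr (padicAt q g') r := by
  have h := iso_padicAt_iff hr q g g'
  by_cases hi : Iso Fr (padicAt q g') r <;> simp [aniso, h, hi]

section Real

attribute [local instance] isAlgClosureQbar_cc normalQbar_cc instAlgebraQbarComplex
  instTowerQbarComplex

/-- The real place. -/
def realPlace : Place ℝ ℂ where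
  ι := complexEmbedding.toRingHom
  res := (AlgEquiv.restrictNormalHom (F := ℚ) (K₁ := ℂ) QBar).comp
    (MonoidHom.mk' (fun τ : ℂ ≃ₐ[ℝ] ℂ => τ.restrictScalars ℚ) fun _ _ => rfl)
  comm := fun τ x => AlgEquiv.restrictNormal_commutes (τ.restrictScalars ℚ) QBar x

end Real

instance isGaloisRealComplex : IsGalois ℝ ℂ := by
  haveI : IsAlgClosure ℝ ℂ := ⟨Complex.isAlgClosed, inferInstance⟩
  haveI : Normal ℝ ℂ := IsAlgClosure.normal ℝ ℂ
  exact ⟨⟩

theorem eq_one_of_perm_eq : ∀ g : M2F, perm g 0 = 0 → perm g 1 = 1 → g = 1 := by decide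

theorem conj_ne_one (Fr : Frame) : Fr.ρ (realPlace.res Complex.conjAe) ≠ 1 := by
  intro h
  have hfix := (Fr.root_iff (realPlace.res Complex.conjAe)).mpr (Or.inl h)
  have hre : starRingEnd ℂ (complexEmbedding Fr.root) = complexEmbedding Fr.root := by
    have := realPlace.comm Complex.conjAe Fr.root
    rw [hfix] at this
    exact this.symm
  obtain ⟨x, hx⟩ := Complex.conj_eq_iff_real.mp hre
  have hsq : (x : ℂ) ^ 2 = -2 * (∏ q ∈ Fr.T, (q : ℂ)) := by
    rw [← hx, ← map_pow, Fr.root_sq]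
    simp [map_prod, map_ofNat]
  have hsq' : x ^ 2 = -2 * (∏ q ∈ Fr.T, (q : ℝ)) :=
    Complex.ofReal_injective (by push_cast; exact hsq)
  have hpos : 0 < ∏ q ∈ Fr.T, (q : ℝ) :=
    Finset.prod_pos fun q hq => Nat.cast_pos.mpr (Fr.prime_of_mem q hq).pos
  nlinarith [sq_nonneg x]

theorem iso_realPlace {Fr : Frame} {r : Fin 3 → QBar} (hr : SqEquivariant Fr r) :
    Iso Fr realPlace r := by
  set π := perm (Fr.ρ (realPlace.res Complex.conjAe)) with hπ
  set y : Fin 3 → ℂ := fun i => realPlace.ι (r i) ^ 2 with hy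
  have hy' : Equivariant Fr realPlace y := equivariant_sq Fr realPlace hr
  have hπ2 : ∀ i, π (π i) = i := by
    intro i
    rw [hπ, ← perm_map_mul, ← map_mul,
      show (Complex.conjAe * Complex.conjAe : ℂ ≃ₐ[ℝ] ℂ) = 1 from
        AlgEquiv.ext fun z => Complex.conj_conj z, map_one, perm_map_one]
  obtain ⟨j, hj⟩ : ∃ j, π j ≠ j := by
    by_contra h
    push Not at h
    exact conj_ne_one Fr (eq_one_of_perm_eq _ (h 0) (h 1))
  obtain ⟨u, hu⟩ : ∃ u : ℂ, y j * u ^ 2 + starRingEnd ℂ (y j * u ^ 2) = 0 ∧ u ≠ 0 := by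
    rcases eq_or_ne (y j) 0 with h0 | h0
    · exact ⟨1, by simp [h0], one_ne_zero⟩
    · obtain ⟨u, hu⟩ := IsAlgClosed.exists_pow_nat_eq (Complex.I / y j) two_pos
      refine ⟨u, ?_, fun h => ?_⟩
      · rw [hu, mul_div_cancel₀ _ h0]; simp
      · rw [h, zero_pow two_ne_zero, eq_comm, div_eq_zero_iff] at hu
        simp [h0] at hu
  classical
  refine ⟨fun i => if i = j then u else if i = π j then starRingEnd ℂ u else 0, fun h => hu.2 ?_,
    fun τ i => ?_, ?_⟩
  · simpa using congrFun h j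
  · rcases Complex.real_algHom_eq_id_or_conj τ.toAlgHom with hτ | hτ
    · have hτ1 : τ = 1 := AlgEquiv.ext fun z => DFunLike.congr_fun hτ z
      rw [hτ1, map_one, perm_map_one]
      rfl
    · have hτ1 : τ = Complex.conjAe := AlgEquiv.ext fun z => DFunLike.congr_fun hτ z
      rw [hτ1, ← hπ]
      show starRingEnd ℂ _ = _
      by_cases h1 : i = j
      · simp [h1, hj]
      · by_cases h2 : i = π j
        · simp [h2, hπ2, hj]
        · have h3 : π i ≠ j := fun h => h2 (by rw [← h, hπ2])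
          have h4 : π i ≠ π j := fun h => h1 (perm_injective Fr _ h)
          simp [h1, h2, h3, h4]
  · have hk : y (π j) = starRingEnd ℂ (y j) := (hy' Complex.conjAe j).symm
    show ∑ i, y i * _ = 0
    rw [← Finset.sum_subset (Finset.subset_univ {j, π j}) fun i _ hi => by
      simp only [Finset.mem_insert, Finset.mem_singleton, not_or] at hi
      simp [hi.1, hi.2], Finset.sum_pair (Ne.symm hj)]
    simp only [if_true, hj, if_false]
    rw [hk, ← map_pow, ← map_mul]
    exact hu.1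

theorem aniso_realPlace {Fr : Frame} {r : Fin 3 → QBar} (hr : SqEquivariant Fr r) :
    aniso Fr realPlace r = 0 := by
  simp [aniso, iso_realPlace hr]

end Fermat.Agent.TwoAdic.Selmer
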