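import Fermat.Agent.TwoAdic.Selmer.Defs

/-!
# The group of invertible matrices over `F₂`, its action on the nonzero vectors and on `V`
-/

set_option autoImplicit false

noncomputable section

namespace Fermat.Agent.TwoAdic.Selmer

open Fermat.Agent.Deform Fermat.Agent.Arith Fermat.Agent.CFT.Tangent

/-- The square of the rotation. -/
def rotM2 : M2F := !![1, 1; 1, 0]

/-- The transposition fixing `(1, 1)`. -/
def swapM : M2F := !![0, 1; 1, 0]

/-- A statement about all matrices, by their entries. -/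
theorem forall_M2F {P : M2F → Prop} : (∀ a b c d, P !![a, b; c, d]) → ∀ g, P g := fun h g => by
  rw [Matrix.eta_fin_two g]; exact h _ _ _ _

theorem six : ∀ g : M2F, g.det = 1 →
    g = 1 ∨ g = rotM ∨ g = rotM2 ∨ g = refM ∨ g = refM' ∨ g = swapM :=
  forall_M2F (by decide)

/-- The inverse of a matrix of determinant one. -/
def inv2 (g : M2F) : M2F := !![g 1 1, g 0 1; g 1 0, g 0 0]

theorem mul_inv2 : ∀ g : M2F, g.det = 1 → g * inv2 g = 1 := forall_M2F (by decide)

theorem inv2_det : ∀ g : M2F, g.det = 1 → (inv2 g).det = 1 := forall_M2F (by decide)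

theorem det_one_of_mul : ∀ g h : M2F, g * h = 1 → g.det = 1 := fun g h e => by
  have := congrArg Matrix.det e
  rw [Matrix.det_mul, Matrix.det_one] at this
  revert this
  generalize g.det = a
  generalize h.det = b
  revert a b
  decide

theorem perm_one : ∀ i, perm 1 i = i := by decide

theorem perm_rotM : perm rotM 0 = 1 ∧ perm rotM 1 = 2 ∧ perm rotM 2 = 0 := by decide

theorem perm_refM : perm refM 0 = 0 ∧ perm refM 1 = 2 ∧ perm refM 2 = 1 := by decide

theorem perm_mul {g h : M2F} (hg : g.det = 1) (hh : h.det = 1) (i : Fin 3) :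
    perm (g * h) i = perm g (perm h i) := by
  rcases six g hg with rfl | rfl | rfl | rfl | rfl | rfl <;>
    rcases six h hh with rfl | rfl | rfl | rfl | rfl | rfl <;> revert i <;> decide

theorem perm_inv2_perm {g : M2F} (hg : g.det = 1) (i : Fin 3) : perm (inv2 g) (perm g i) = i := by
  rcases six g hg with rfl | rfl | rfl | rfl | rfl | rfl <;> revert i <;> decide

theorem perm_perm_inv2 {g : M2F} (hg : g.det = 1) (i : Fin 3) : perm g (perm (inv2 g) i) = i := by
  rcases six g hg with rfl | rfl | rfl | rfl | rfl | rfl <;> revert i <;> decide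

theorem perm_table :
    (perm 1 0 = 0 ∧ perm 1 1 = 1 ∧ perm 1 2 = 2) ∧
    (perm rotM 0 = 1 ∧ perm rotM 1 = 2 ∧ perm rotM 2 = 0) ∧
    (perm rotM2 0 = 2 ∧ perm rotM2 1 = 0 ∧ perm rotM2 2 = 1) ∧
    (perm refM 0 = 0 ∧ perm refM 1 = 2 ∧ perm refM 2 = 1) ∧
    (perm refM' 0 = 2 ∧ perm refM' 1 = 1 ∧ perm refM' 2 = 0) ∧
    (perm swapM 0 = 1 ∧ perm swapM 1 = 0 ∧ perm swapM 2 = 2) := by decide

theorem exists_perm_eq (i j : Fin 3) :
    ∃ g : M2F, (g = 1 ∨ g = rotM ∨ g = rotM2) ∧ perm g i = j := by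
  revert i j
  decide

section Algebra

variable {A : Type} [CommRing A]

/-- Matrices over `F₂` with coefficients in an algebra. -/
def liftM (A : Type) [CommRing A] [Algebra (ZMod 2) A] : M2F →+* M2 A :=
  (algebraMap (ZMod 2) A).mapMatrix

theorem vCoord_add (i : Fin 3) (X Y : M2 A) : vCoord i (X + Y) = vCoord i X + vCoord i Y := by
  fin_cases i <;> rfl

theorem vCoord_zero (i : Fin 3) : vCoord i (0 : M2 A) = 0 := by
  fin_cases i <;> rfl

theorem vCoord_smul (i : Fin 3) (a : A) (X : M2 A) : vCoord i (a • X) = a * vCoord i X := by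
  fin_cases i <;> rfl

theorem inV_zero : InV (0 : M2 A) := by simp [InV]

theorem InV.add {X Y : M2 A} (hX : InV X) (hY : InV Y) : InV (X + Y) := by
  obtain ⟨h1, h2⟩ := hX
  obtain ⟨h3, h4⟩ := hY
  refine ⟨?_, ?_⟩ <;> simp only [Matrix.add_apply]
  · rw [h1, h3]
  · rw [h2, h4]; ring

theorem InV.smul {X : M2 A} (a : A) (hX : InV X) : InV (a • X) := by
  obtain ⟨h1, h2⟩ := hX
  refine ⟨?_, ?_⟩ <;> simp only [Matrix.smul_apply, smul_eq_mul]
  · rw [h1]
  · rw [h2]; ring

theorem InV.ext {X Y : M2 A} (hX : InV X) (hY : InV Y) (h : ∀ i, vCoord i X = vCoord i Y) :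
    X = Y := by
  have h0 : X 1 0 = Y 1 0 := h 0
  have h1 : X 0 1 = Y 0 1 := h 1
  have h2 : X 0 0 = Y 0 0 := h 2
  ext i j
  fin_cases i <;> fin_cases j
  · exact h2
  · exact h1
  · exact h0
  · show X 1 1 = Y 1 1
    rw [← hX.1, ← hY.1, h2]

variable [Algebra (ZMod 2) A]

theorem two_smul_eq_zero' (a : A) : a + a = 0 := by
  have h : (1 : A) + 1 = 0 := by
    rw [← map_one (algebraMap (ZMod 2) A), ← map_add, show (1 : ZMod 2) + 1 = 0 by decide, map_zero]
  linear_combination a * h

theorem vCoord_conj {g : M2F} (hg : g.det = 1) {X : M2 A} (hX : InV X) (i : Fin 3) :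
    vCoord (perm g i) (liftM A g * X * liftM A (inv2 g)) = vCoord i X := by
  obtain ⟨h1, h2⟩ := hX
  have t00 := two_smul_eq_zero' (X 0 0)
  have t01 := two_smul_eq_zero' (X 0 1)
  have t10 := two_smul_eq_zero' (X 1 0)
  have t11 := two_smul_eq_zero' (X 1 1)
  have tb := perm_table
  rcases six g hg with rfl | rfl | rfl | rfl | rfl | rfl <;> fin_cases i <;>
    simp only [Fin.isValue, Fin.reduceFinMk, Fin.mk_zero, Fin.mk_one, tb] <;>
    simp [vCoord, liftM, inv2, rotM, rotM2, refM, refM', swapM, Matrix.mul_apply,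
      Fin.sum_univ_two] <;>
    grind

theorem InV.conj {g : M2F} (hg : g.det = 1) {X : M2 A} (hX : InV X) :
    InV (liftM A g * X * liftM A (inv2 g)) := by
  obtain ⟨h1, h2⟩ := hX
  have t00 := two_smul_eq_zero' (X 0 0)
  have t01 := two_smul_eq_zero' (X 0 1)
  have t10 := two_smul_eq_zero' (X 1 0)
  have t11 := two_smul_eq_zero' (X 1 1)
  rcases six g hg with rfl | rfl | rfl | rfl | rfl | rfl <;> refine ⟨?_, ?_⟩ <;>
    simp [liftM, inv2, rotM, rotM2, refM, refM', swapM, Matrix.mul_apply, Fin.sum_univ_two] <;>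
    grind

/-- The projection to `V` along the centraliser of the rotation. -/
def projV : M2 A →ₗ[A] M2 A where
  toFun X := !![X 0 1 + X 1 0, X 0 1 + X.trace; X 1 0 + X.trace, X 0 1 + X 1 0]
  map_add' X Y := by
    ext i j
    fin_cases i <;> fin_cases j <;> simp <;> ring
  map_smul' a X := by
    ext i j
    fin_cases i <;> fin_cases j <;> simp [Matrix.trace_fin_two] <;> ring

theorem inV_projV (X : M2 A) : InV (projV X) := by
  have t00 := two_smul_eq_zero' (X 0 0)
  have t01 := two_smul_eq_zero' (X 0 1)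
  have t10 := two_smul_eq_zero' (X 1 0)
  have t11 := two_smul_eq_zero' (X 1 1)
  refine ⟨rfl, ?_⟩
  simp [projV, Matrix.trace_fin_two]
  grind

theorem projV_of_inV {X : M2 A} (hX : InV X) : projV X = X := by
  obtain ⟨h1, h2⟩ := hX
  have t00 := two_smul_eq_zero' (X 0 0)
  have t01 := two_smul_eq_zero' (X 0 1)
  have t10 := two_smul_eq_zero' (X 1 0)
  have t11 := two_smul_eq_zero' (X 1 1)
  ext i j
  fin_cases i <;> fin_cases j <;> simp [projV, Matrix.trace_fin_two] <;> grind

theorem eq_scalar_add_projV {X : M2 A} (hX : X.trace = 0) :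
    X = (X 0 0 + X 0 1 + X 1 0) • (1 : M2 A) + projV X := by
  rw [Matrix.trace_fin_two] at hX
  have t00 := two_smul_eq_zero' (X 0 0)
  have t01 := two_smul_eq_zero' (X 0 1)
  have t10 := two_smul_eq_zero' (X 1 0)
  have t11 := two_smul_eq_zero' (X 1 1)
  ext i j
  fin_cases i <;> fin_cases j <;> simp [projV, Matrix.trace_fin_two] <;> grind

theorem projV_conj {g : M2F} (hg : g.det = 1) (X : M2 A) :
    projV (liftM A g * X * liftM A (inv2 g)) = liftM A g * projV X * liftM A (inv2 g) := by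
  have t00 := two_smul_eq_zero' (X 0 0)
  have t01 := two_smul_eq_zero' (X 0 1)
  have t10 := two_smul_eq_zero' (X 1 0)
  have t11 := two_smul_eq_zero' (X 1 1)
  rcases six g hg with rfl | rfl | rfl | rfl | rfl | rfl <;> ext i j <;>
    fin_cases i <;> fin_cases j <;>
    simp [projV, liftM, inv2, rotM, rotM2, refM, refM', swapM, Matrix.mul_apply, Fin.sum_univ_two,
      Matrix.trace_fin_two] <;>
    grind

end Algebra

end Fermat.Agent.TwoAdic.Selmer
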