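import Fermat.Agent.TwoAdic.CFT.Hilbert.Parity

/-!
# The norm group of a quadratic extension of `ℚ_p` or `ℝ` has index at most two

Two nonnorms of `x² + d y²` multiply to a norm, by bilinearity of the Hilbert symbol.
-/

set_option autoImplicit false

namespace Fermat.Agent.TwoAdic.Selmer

open Fermat.Agent.TwoAdic.CFT Polynomial

section padic

variable {p : ℕ} [hp : Fact p.Prime]

/-- A `p`-adic number very close to `1` is a square. -/
theorem exists_sq_eq_of_norm_sub_one {c : ℚ_[p]} (h : ‖c - 1‖ ≤ ((p : ℝ) ^ 3)⁻¹) :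
    ∃ t : ℚ_[p], t ≠ 0 ∧ c = t ^ 2 := by
  have hp1 : (1 : ℝ) < p := by exact_mod_cast hp.out.one_lt
  have h3 : ((p : ℝ) ^ 3)⁻¹ < 1 := inv_lt_one_of_one_lt₀ (one_lt_pow₀ hp1 (by norm_num))
  have hc : ‖c‖ ≤ 1 := by
    calc ‖c‖ = ‖(c - 1) + 1‖ := by rw [sub_add_cancel]
      _ ≤ max ‖c - 1‖ ‖(1 : ℚ_[p])‖ := Padic.nonarchimedean _ _
      _ ≤ 1 := max_le (h.trans h3.le) (by rw [norm_one])
  obtain ⟨u, rfl⟩ : ∃ u : ℤ_[p], (u : ℚ_[p]) = c := ⟨⟨c, hc⟩, rfl⟩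
  have h2 : ((p : ℝ) ^ 3)⁻¹ < ‖((2 : ℕ) : ℤ_[p])‖ ^ 2 := by
    by_cases h2 : p = 2
    · subst h2
      rw [PadicInt.norm_p]; norm_num
    · have hn : ‖((2 : ℕ) : ℤ_[p])‖ = 1 := by
        refine le_antisymm (PadicInt.norm_le_one _) (le_of_not_gt fun hlt => h2 ?_)
        have hd : (p : ℤ) ∣ ((2 : ℕ) : ℤ) :=
          (PadicInt.norm_int_lt_one_iff_dvd _).mp (by rw [Int.cast_natCast]; exact hlt)
        exact (Nat.prime_dvd_prime_iff_eq hp.out Nat.prime_two).mp (Int.natCast_dvd_natCast.mp hd)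
      rw [hn, one_pow]; exact h3
  have hn : ‖Polynomial.eval (1 : ℤ_[p]) (X ^ 2 - C u)‖ <
      ‖Polynomial.eval (1 : ℤ_[p]) (derivative (X ^ 2 - C u))‖ ^ 2 := by
    have e2 : Polynomial.eval (1 : ℤ_[p]) (derivative (X ^ 2 - C u)) = ((2 : ℕ) : ℤ_[p]) := by
      simp [one_add_one_eq_two]
    rw [e2]
    refine lt_of_le_of_lt ?_ h2
    rw [eval_sub, eval_pow, eval_X, eval_C, one_pow, ← norm_neg, neg_sub, PadicInt.norm_def,
      PadicInt.coe_sub, PadicInt.coe_one]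
    exact h
  obtain ⟨z, hz, -⟩ := hensels_lemma (F := X ^ 2 - C u) (a := (1 : ℤ_[p])) (by simpa using hn)
  have hz2 : u = z ^ 2 := (sub_eq_zero.1 (by simpa using hz)).symm
  refine ⟨z, fun h0 => ?_, by rw [hz2, PadicInt.coe_pow]⟩
  rw [hz2, PadicInt.coe_pow, h0, zero_pow two_ne_zero, zero_sub, norm_neg, norm_one] at h
  exact absurd h (not_le.2 h3)

/-- Every nonzero `p`-adic number is a square times an integer. -/
theorem exists_eq_intCast_mul_sq {c : ℚ_[p]} (hc : c ≠ 0) :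
    ∃ (n : ℤ) (t : ℚ_[p]), n ≠ 0 ∧ t ≠ 0 ∧ c = (n : ℚ_[p]) * t ^ 2 := by
  have hp3 : (0 : ℝ) < ((p : ℝ) ^ 3)⁻¹ := by
    have := hp.out.pos
    positivity
  obtain ⟨r, hr⟩ := Padic.rat_dense p c (mul_pos (norm_pos_iff.2 hc) hp3)
  obtain ⟨s, hs0, hs⟩ := exists_sq_eq_of_norm_sub_one (c := (r : ℚ_[p]) / c) (by
    rw [div_sub_one hc, norm_div, div_le_iff₀ (norm_pos_iff.2 hc), norm_sub_rev, mul_comm]
    exact hr.le)
  have hr0 : (r : ℚ_[p]) ≠ 0 := fun h0 => hs0 (by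
    rw [h0, zero_div] at hs
    simpa using hs.symm)
  have hden : (r.den : ℚ_[p]) ≠ 0 := Nat.cast_ne_zero.mpr r.den_ne_zero
  refine ⟨r.num * r.den, ((r.den : ℚ_[p]) * s)⁻¹,
    num_mul_den_ne_zero (fun h0 => hr0 (by rw [h0, Rat.cast_zero])), inv_ne_zero (mul_ne_zero hden hs0), ?_⟩
  have hcs : c = (r : ℚ_[p]) / s ^ 2 := by
    rw [← hs]; field_simp
  rw [hcs, Rat.cast_def]
  push_cast
  field_simp

theorem exists_norm_iff_isotropic {F : Type*} [Field F] [CharZero F] {a d : F}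
    (hd : d ≠ 0) : (∃ x y : F, x ^ 2 + d * y ^ 2 = a) ↔ Isotropic F a (-d) (-1) := by
  constructor
  · rintro ⟨x, y, h⟩
    exact ⟨1, y, x, Or.inl one_ne_zero, by rw [← h]; ring⟩
  · rintro ⟨x, y, z, hne, he⟩
    by_cases hx : x = 0
    · subst hx
      have hy : y ≠ 0 := fun hy => by
        subst hy
        have : z = 0 := by simpa using he
        simp [this] at hne
      set s := z / y
      have hs : -d = s ^ 2 := by
        rw [div_pow, eq_div_iff (pow_ne_zero 2 hy)]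
        linear_combination he
      have hs0 : s ≠ 0 := fun h0 => hd (by simpa [h0] using hs)
      refine ⟨(a + 1) / 2, (a - 1) / (2 * s), ?_⟩
      rw [show d = -s ^ 2 by rw [← hs, neg_neg]]
      field_simp
      ring
    · refine ⟨z / x, y / x, ?_⟩
      field_simp
      linear_combination -he

/-- The product of two nonnorms is a norm. -/
theorem norm_index_two (p : ℕ) [Fact p.Prime] (d : ℚ_[p]) (hd : d ≠ 0) (a b : ℚ_[p]) (ha : a ≠ 0)
    (hb : b ≠ 0) (h1 : ¬∃ x y, x ^ 2 + d * y ^ 2 = a) (h2 : ¬∃ x y, x ^ 2 + d * y ^ 2 = b) :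
    ∃ x y, x ^ 2 + d * y ^ 2 = a * b := by
  obtain ⟨l, u, hl, hu, rfl⟩ := exists_eq_intCast_mul_sq ha
  obtain ⟨m, v, hm, hv, rfl⟩ := exists_eq_intCast_mul_sq hb
  obtain ⟨e, w, he, hw, hew⟩ := exists_eq_intCast_mul_sq (neg_ne_zero.2 hd)
  have key : ∀ (n : ℤ) (t : ℚ_[p]), n ≠ 0 → t ≠ 0 →
      ((∃ x y, x ^ 2 + d * y ^ 2 = (n : ℚ_[p]) * t ^ 2) ↔
        symAt ⟨p, Fact.out⟩ n e = 0) := fun n t hn ht => by
    rw [exists_norm_iff_isotropic hd, hew,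
      isotropic_mul_sq _ _ _ ht hw]
    exact isotropic_iff_symAt ⟨p, Fact.out⟩ hn he
  rw [key l u hl hu] at h1
  rw [key m v hm hv] at h2
  have := (key (l * m) (u * v) (mul_ne_zero hl hm) (mul_ne_zero hu hv)).2 (by
    rw [symAt_mul_left _ hl hm, zmod_two_eq_one h1, zmod_two_eq_one h2]; decide)
  obtain ⟨x, y, h⟩ := this
  exact ⟨x, y, by rw [h]; push_cast; ring⟩

end padic

/-- The product of two nonnorms is a norm over `ℝ`. -/
theorem norm_index_two_real (d : ℝ) (hd : d ≠ 0) (a b : ℝ)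
    (h1 : ¬∃ x y, x ^ 2 + d * y ^ 2 = a) (h2 : ¬∃ x y, x ^ 2 + d * y ^ 2 = b) :
    ∃ x y, x ^ 2 + d * y ^ 2 = a * b := by
  rcases lt_or_gt_of_ne hd with h | h
  · have ha : 0 ≤ a ∨ a < 0 := le_or_gt 0 a
    rcases ha with ha | ha
    · exact absurd ⟨√a, 0, by rw [Real.sq_sqrt ha]; ring⟩ h1
    · refine absurd ⟨0, √(a / d), ?_⟩ h1
      rw [Real.sq_sqrt (div_nonneg_of_nonpos ha.le h.le)]
      field_simp
      ring
  · rcases le_or_gt 0 a with ha | ha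
    · exact absurd ⟨√a, 0, by rw [Real.sq_sqrt ha]; ring⟩ h1
    · rcases le_or_gt 0 b with hb | hb
      · exact absurd ⟨√b, 0, by rw [Real.sq_sqrt hb]; ring⟩ h2
      · exact ⟨√(a * b), 0, by rw [Real.sq_sqrt (mul_pos_of_neg_of_neg ha hb).le]; ring⟩

end Fermat.Agent.TwoAdic.Selmer
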