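import Fermat.Agent.TwoAdic.Selmer.Defs
import Fermat.Agent.TwoAdic.Selmer.NormIndex

/-!
# The pairing at places of line type

At a place whose local Galois group acts through `{1, refM}`, both values occurring, a twisted
triple of a class with vanishing `(1, 0)` entry gives a number `b` of the base field with
`Iso ↔ -2 b` is a norm from `F (√ (-2 ∏ T))`. Norms have index at most two, so the pairing
vanishes there.
-/

set_option autoImplicit false

noncomputable section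

namespace Fermat.Agent.TwoAdic.Selmer

open Fermat.Agent.Deform Fermat.Agent.Arith Fermat.Agent.CFT.Tangent
open Fermat.Agent.TwoAdic.CFT (Isotropic)

/-- The integer whose square root is the root of the frame. -/
def rootInt (Fr : Frame) : ℤ := -2 * ∏ q ∈ Fr.T, (q : ℤ)

theorem rootInt_ne_zero (Fr : Frame) : rootInt Fr ≠ 0 :=
  mul_ne_zero (by norm_num)
    (Finset.prod_ne_zero_iff.mpr fun q hq => Int.natCast_ne_zero.mpr (Fr.prime_of_mem q hq).ne_zero)

theorem root_sq_rootInt (Fr : Frame) : Fr.root ^ 2 = (rootInt Fr : QBar) := by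
  rw [Fr.root_sq, rootInt]
  push_cast
  ring

theorem root_line_ne_zero (Fr : Frame) : Fr.root ≠ 0 := fun h => by
  have := root_sq_rootInt Fr
  rw [h, zero_pow two_ne_zero, eq_comm, Int.cast_eq_zero] at this
  exact rootInt_ne_zero Fr this

theorem root_of_eq_one (Fr : Frame) {σ : GQ} (h : Fr.ρ σ = 1) : σ Fr.root = Fr.root :=
  (Fr.root_iff σ).mpr (Or.inl h)

theorem root_of_eq_refM (Fr : Frame) {σ : GQ} (h : Fr.ρ σ = refM) : σ Fr.root = -Fr.root := by
  refine (sq_eq_sq_iff_eq_or_eq_neg.mp ?_).resolve_left fun he => ?_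
  · rw [← map_pow, root_sq_rootInt, map_intCast]
  · rcases (Fr.root_iff σ).mp he with h' | h' <;> rw [h] at h' <;>
      exact absurd h' (by decide)

/-! ### Signs and the permutation of a line stabiliser -/

theorem sgn_cast (e : ZMod 2) : sgn e = ((if e = 0 then 1 else -1 : ℤ) : QBar) := by
  unfold sgn
  split <;> simp

theorem algEquiv_sgn (σ : GQ) (e : ZMod 2) : σ (sgn e) = sgn e := by
  rw [sgn_cast, map_intCast]

theorem zmod_two_cases (e : ZMod 2) : e = 0 ∨ e = 1 := by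
  revert e; decide

theorem sgn_add' (e e' : ZMod 2) : sgn (e + e') = sgn e * sgn e' := by
  rcases zmod_two_cases e with rfl | rfl <;> rcases zmod_two_cases e' with rfl | rfl <;>
    simp [sgn, show (1 + 1 : ZMod 2) = 0 from rfl]

theorem sgn_self_mul (e : ZMod 2) : sgn e * sgn e = 1 := by
  unfold sgn; split <;> simp

theorem sgn_ne_zero' (e : ZMod 2) : sgn e ≠ 0 := fun h => by
  simpa [h] using sgn_self_mul e

theorem sgn_inj' {e e' : ZMod 2} (h : sgn e = sgn e') : e = e' := by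
  unfold sgn at h
  revert h
  rcases zmod_two_cases e with rfl | rfl <;> rcases zmod_two_cases e' with rfl | rfl <;> norm_num

theorem perm_line_one (i : Fin 3) : perm 1 i = i := by
  revert i; decide

theorem perm_line_ref : perm refM 0 = 0 ∧ perm refM 1 = 2 ∧ perm refM 2 = 1 := by
  decide

theorem inV_line {X : M2F} (h : InV X) (h0 : X 1 0 = 0) : X 0 1 = X 0 0 := by
  rw [h.2, h0, add_zero]

theorem inV_add' {A : Type} [CommRing A] {X Y : M2 A} (hX : InV X) (hY : InV Y) : InV (X + Y) := by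
  refine ⟨?_, ?_⟩
  · rw [Matrix.add_apply, Matrix.add_apply, hX.1, hY.1]
  · rw [Matrix.add_apply, Matrix.add_apply, Matrix.add_apply, hX.2, hY.2]
    ring

/-! ### Norms from a quadratic extension -/

/-- Among two non-norms from a quadratic extension of `F`, the product is a norm. -/
def NormDichotomy (F : Type) [Field F] : Prop :=
  ∀ x y d : F, x ≠ 0 → y ≠ 0 → d ≠ 0 → ¬ Isotropic F x d (-1) → ¬ Isotropic F y d (-1) →
    Isotropic F (x * y) d (-1)

section Norms

variable {F : Type} [Field F]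

theorem isotropic_mul' {x y d : F} (hx : Isotropic F x d (-1)) (hy : Isotropic F y d (-1)) :
    Isotropic F (x * y) d (-1) := by
  obtain ⟨X, Y, Z, hne, h⟩ := hx
  obtain ⟨X', Y', Z', hne', h'⟩ := hy
  by_cases hX : X = 0
  · exact ⟨0, Y, Z, by tauto, by rw [hX] at h; linear_combination h⟩
  by_cases hX' : X' = 0
  · exact ⟨0, Y', Z', by tauto, by rw [hX'] at h'; linear_combination h'⟩
  refine ⟨X * X', Z * Y' + Y * Z', Z * Z' + d * Y * Y', Or.inl (mul_ne_zero hX hX'), ?_⟩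
  linear_combination y * X' ^ 2 * h + (Z ^ 2 - d * Y ^ 2) * h'

theorem isotropic_sq_mul' {x d k : F} (hk : k ≠ 0) :
    Isotropic F (x * k ^ 2) d (-1) ↔ Isotropic F x d (-1) := by
  constructor
  · rintro ⟨X, Y, Z, hne, h⟩
    exact ⟨k * X, Y, Z, by simpa [hk] using hne, by linear_combination h⟩
  · rintro ⟨X, Y, Z, hne, h⟩
    refine ⟨X / k, Y, Z, by simpa [hk] using hne, ?_⟩
    rw [mul_assoc, ← mul_pow, mul_div_cancel₀ _ hk]
    exact h

open Classical in
/-- The symbol of the pair `(x, d)`, written additively. -/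
def normBit (x d : F) : ZMod 2 := if Isotropic F x d (-1) then 0 else 1

theorem normBit_mul (hF : NormDichotomy F) {x y d : F} (hx : x ≠ 0) (hy : y ≠ 0) (hd : d ≠ 0) :
    normBit (x * y) d = normBit x d + normBit y d := by
  unfold normBit
  by_cases h : Isotropic F x d (-1) <;> by_cases h' : Isotropic F y d (-1)
  · rw [if_pos h, if_pos h', if_pos (isotropic_mul' h h'), add_zero]
  · rw [if_pos h, if_neg h', if_neg fun hxy => h' ?_, zero_add]
    exact (isotropic_sq_mul' hx).mp (by convert isotropic_mul' h hxy using 1; ring)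
  · rw [if_neg h, if_pos h', if_neg fun hxy => h ?_, add_zero]
    exact (isotropic_sq_mul' hy).mp (by convert isotropic_mul' h' hxy using 1; ring)
  · rw [if_neg h, if_neg h', if_pos (hF x y d hx hy hd h h')]
    rfl

theorem normBit_sq_mul {x d k : F} (hk : k ≠ 0) : normBit (x * k ^ 2) d = normBit x d := by
  unfold normBit
  by_cases h : Isotropic F x d (-1)
  · rw [if_pos h, if_pos ((isotropic_sq_mul' hk).mpr h)]
  · rw [if_neg h, if_neg (mt (isotropic_sq_mul' hk).mp h)]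

end Norms

section Rep

theorem normDichotomy_padic (p : ℕ) [hp : Fact p.Prime] : NormDichotomy ℚ_[p] := by
  intro x y d hx hy hd h h'
  obtain ⟨a, s, ha, hs, rfl⟩ := exists_eq_intCast_mul_sq hx
  obtain ⟨b, t, hb, ht, rfl⟩ := exists_eq_intCast_mul_sq hy
  obtain ⟨e, u, he, hu, rfl⟩ := exists_eq_intCast_mul_sq hd
  have key : ∀ {c : ℤ} {k : ℚ_[p]}, c ≠ 0 → k ≠ 0 →
      (Isotropic ℚ_[p] ((c : ℚ_[p]) * k ^ 2) ((e : ℚ_[p]) * u ^ 2) (-1) ↔
        CFT.symAt ⟨p, hp.out⟩ c e = 0) := fun {c k} hc hk => by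
    rw [← CFT.isotropic_iff_symAt ⟨p, hp.out⟩ hc he]
    exact CFT.isotropic_mul_sq _ _ _ hk hu
  rw [key ha hs] at h
  rw [key hb ht] at h'
  rw [show (a : ℚ_[p]) * s ^ 2 * ((b : ℚ_[p]) * t ^ 2) = ((a * b : ℤ) : ℚ_[p]) * (s * t) ^ 2 by
    push_cast; ring, key (mul_ne_zero ha hb) (mul_ne_zero hs ht), CFT.symAt_mul_left _ ha hb,
    CFT.zmod_two_eq_one h, CFT.zmod_two_eq_one h']
  decide

theorem normDichotomy_real : NormDichotomy ℝ := by
  intro x y d hx hy hd h h'
  have hneg : ∀ {w : ℝ}, ¬ Isotropic ℝ w d (-1) → w < 0 := fun {w} hw => by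
    by_contra hle
    refine hw ⟨1, 0, √w, by simp, ?_⟩
    rw [Real.sq_sqrt (not_lt.mp hle)]
    ring
  refine ⟨1, 0, √(x * y), by simp, ?_⟩
  rw [Real.sq_sqrt (mul_nonneg_of_nonpos_of_nonpos (hneg h).le (hneg h').le)]
  ring

end Rep

/-! ### Places of line type -/

section Places

variable {F Ω : Type} [Field F] [Field Ω] [Algebra F Ω] {Fr : Frame} {pl : Place F Ω}

theorem comm_fixed {x : QBar} {τ : Ω ≃ₐ[F] Ω} (h : pl.res τ x = x) : τ (pl.ι x) = pl.ι x := by
  rw [← pl.comm, h]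

theorem exists_base_eq [IsGalois F Ω] {z : Ω} (h : ∀ τ : Ω ≃ₐ[F] Ω, τ z = z) :
    ∃ a : F, algebraMap F Ω a = z :=
  (InfiniteGalois.mem_range_algebraMap_iff_fixed z).mpr h

/-- A locally twisted triple of a line class has a parameter twisted by the upper left entry. -/
theorem exists_line_param (hD : ∀ τ, Fr.ρ (pl.res τ) = 1 ∨ Fr.ρ (pl.res τ) = refM)
    {c : GQ → M2F} (hV : ∀ τ, InV (c (pl.res τ))) (h0 : ∀ τ, c (pl.res τ) 1 0 = 0)
    {r : Fin 3 → QBar} (hr0 : ∀ i, r i ≠ 0) (hr : IsLocTwisted Fr pl c r) :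
    ∃ t : QBar, t ≠ 0 ∧ ∀ τ, pl.res τ t = sgn (c (pl.res τ) 0 0) * t := by
  have h1 : ∀ τ, Fr.ρ (pl.res τ) = 1 →
      pl.res τ (r 1) = sgn (c (pl.res τ) 0 0) * r 1 ∧
        pl.res τ (r 2) = sgn (c (pl.res τ) 0 0) * r 2 := fun τ h => by
    have e1 := hr τ 1
    have e2 := hr τ 2
    rw [h, perm_line_one] at e1 e2
    rw [show vCoord 1 (c (pl.res τ)) = c (pl.res τ) 0 1 from rfl,
      inV_line (hV τ) (h0 τ)] at e1
    exact ⟨e1, e2⟩
  have h2 : ∀ τ, Fr.ρ (pl.res τ) = refM →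
      pl.res τ (r 1) = sgn (c (pl.res τ) 0 0) * r 2 ∧
        pl.res τ (r 2) = sgn (c (pl.res τ) 0 0) * r 1 := fun τ h => by
    have e1 := hr τ 1
    have e2 := hr τ 2
    rw [h, perm_line_ref.2.1] at e1
    rw [h, perm_line_ref.2.2] at e2
    rw [show vCoord 1 (c (pl.res τ)) = c (pl.res τ) 0 1 from rfl,
      inV_line (hV τ) (h0 τ)] at e2
    exact ⟨e1, e2⟩
  by_cases hs : r 1 + r 2 = 0
  · refine ⟨(r 1 - r 2) * Fr.root, mul_ne_zero (fun h => ?_) (root_line_ne_zero Fr), fun τ => ?_⟩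
    · exact hr0 1 (by linear_combination (h + hs) / 2)
    rcases hD τ with h | h
    · rw [map_mul, map_sub, (h1 τ h).1, (h1 τ h).2, root_of_eq_one Fr h]
      ring
    · rw [map_mul, map_sub, (h2 τ h).1, (h2 τ h).2, root_of_eq_refM Fr h]
      ring
  · refine ⟨r 1 + r 2, hs, fun τ => ?_⟩
    rcases hD τ with h | h
    · rw [map_add, (h1 τ h).1, (h1 τ h).2]
      ring
    · rw [map_add, (h2 τ h).1, (h2 τ h).2]
      ring

theorem exists_param_sq [IsGalois F Ω] {c : GQ → M2F} {t : QBar} (ht0 : t ≠ 0)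
    (ht : ∀ τ, pl.res τ t = sgn (c (pl.res τ) 0 0) * t) :
    ∃ b : F, b ≠ 0 ∧ algebraMap F Ω b = pl.ι t ^ 2 := by
  obtain ⟨b, hb⟩ := exists_base_eq (F := F) (z := pl.ι t ^ 2) fun τ => by
    rw [map_pow, ← pl.comm, ht, map_mul, mul_pow, ← map_pow, sq, sgn_self_mul, map_one, one_mul]
  refine ⟨b, fun h => ht0 ?_, hb⟩
  rw [h, map_zero, eq_comm, pow_eq_zero_iff two_ne_zero] at hb
  exact pl.ι.injective (hb.trans (map_zero _).symm)

/-- A quadratic form in normal shape: `z² + 2 b (x² + D y²)`. -/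
theorem line_form_iff {b D : F} (hb : b ≠ 0) (h2 : (2 : F) ≠ 0) :
    (∃ z x y : F, (z ≠ 0 ∨ x ≠ 0 ∨ y ≠ 0) ∧ z ^ 2 + 2 * b * (x ^ 2 + D * y ^ 2) = 0) ↔
      Isotropic F (-2 * b) (-D) (-1) := by
  constructor
  · rintro ⟨z, x, y, hne, h⟩
    by_cases hn : x ^ 2 + D * y ^ 2 = 0
    · have hz : z = 0 := by simpa [hn] using h
      refine ⟨0, y, x, ?_, by linear_combination -hn⟩
      tauto
    · exact ⟨x ^ 2 + D * y ^ 2, z * y, z * x, Or.inl hn,
        by linear_combination -(x ^ 2 + D * y ^ 2) * h⟩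
  · rintro ⟨X, Y, Z, hne, h⟩
    refine ⟨-2 * b * X, Z, Y, ?_, by linear_combination (-2 * b) * h⟩
    rcases hne with hX | hY | hZ
    · exact Or.inl (mul_ne_zero (mul_ne_zero (neg_ne_zero.mpr h2) hb) hX)
    · exact Or.inr (Or.inr hY)
    · exact Or.inr (Or.inl hZ)

/-- Isotropy of a line class through its parameter. -/
theorem iso_line_iff [IsGalois F Ω] [CharZero F]
    (hD : ∀ τ, Fr.ρ (pl.res τ) = 1 ∨ Fr.ρ (pl.res τ) = refM)
    (hsw : ∃ τ, Fr.ρ (pl.res τ) = refM)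
    {c : GQ → M2F} (hV : ∀ τ, InV (c (pl.res τ))) (h0 : ∀ τ, c (pl.res τ) 1 0 = 0)
    {r : Fin 3 → QBar} (hr0 : ∀ i, r i ≠ 0) (hr : IsLocTwisted Fr pl c r)
    {t : QBar} (ht0 : t ≠ 0) (ht : ∀ τ, pl.res τ t = sgn (c (pl.res τ) 0 0) * t)
    {b : F} (hb0 : b ≠ 0) (hb : algebraMap F Ω b = pl.ι t ^ 2) :
    Iso Fr pl r ↔ Isotropic F (-2 * b) (-(rootInt Fr : F)) (-1) := by
  haveI : CharZero Ω := charZero_of_injective_algebraMap (algebraMap F Ω).injective
  rw [← line_form_iff hb0 two_ne_zero]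
  set δ : Ω := pl.ι Fr.root with hδ
  have hδ0 : δ ≠ 0 := (map_ne_zero _).mpr (root_line_ne_zero Fr)
  have hδ2 : δ ^ 2 = algebraMap F Ω (rootInt Fr : F) := by
    rw [hδ, ← map_pow, root_sq_rootInt, map_intCast, map_intCast]
  have hδ1 : ∀ τ, Fr.ρ (pl.res τ) = 1 → τ δ = δ := fun τ h =>
    comm_fixed (root_of_eq_one Fr h)
  have hδr : ∀ τ, Fr.ρ (pl.res τ) = refM → τ δ = -δ := fun τ h => by
    rw [hδ, ← pl.comm, root_of_eq_refM Fr h, map_neg]
  -- the weights, permuted without signs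
  have hw : ∃ w : Fin 3 → Ω, (∀ i, w i ≠ 0) ∧ Equivariant Fr pl w ∧
      pl.ι (r 0) = w 0 ∧ pl.ι (r 1) = pl.ι t * w 1 ∧ pl.ι (r 2) = pl.ι t * w 2 := by
    have hti : pl.ι t ≠ 0 := (map_ne_zero _).mpr ht0
    have hk : ∀ τ, pl.ι (sgn (c (pl.res τ) 0 0)) ≠ 0 := fun τ =>
      (map_ne_zero _).mpr (sgn_ne_zero' _)
    refine ⟨![pl.ι (r 0), pl.ι (r 1) / pl.ι t, pl.ι (r 2) / pl.ι t], fun i => ?_,
      fun τ i => ?_, rfl, (mul_div_cancel₀ _ hti).symm, (mul_div_cancel₀ _ hti).symm⟩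
    · fin_cases i <;> simp [hti, hr0]
    have e := hr τ i
    rcases hD τ with h | h <;> rw [h] at e ⊢
    · rw [perm_line_one] at e ⊢
      fin_cases i
      · simpa [vCoord, h0 τ, sgn] using comm_fixed (pl := pl) (τ := τ) (x := r 0)
          (by simpa [vCoord, h0 τ, sgn] using e)
      · simp only [Fin.mk_one, Matrix.cons_val_one, Matrix.cons_val_zero] at e ⊢
        rw [map_div₀, ← pl.comm, ← pl.comm, ht, e,
          show vCoord 1 (c (pl.res τ)) = c (pl.res τ) 0 1 from rfl, inV_line (hV τ) (h0 τ),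
          map_mul, map_mul, mul_div_mul_left _ _ (hk τ)]
      · simp only [Fin.reduceFinMk, Matrix.cons_val] at e ⊢
        rw [map_div₀, ← pl.comm, ← pl.comm, ht, e,
          show vCoord 2 (c (pl.res τ)) = c (pl.res τ) 0 0 from rfl,
          map_mul, map_mul, mul_div_mul_left _ _ (hk τ)]
    · obtain ⟨p0, p1, p2⟩ := perm_line_ref
      fin_cases i
      · simp only [Fin.zero_eta] at e ⊢
        rw [p0] at e ⊢
        simpa using comm_fixed (pl := pl) (τ := τ) (x := r 0)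
          (by simpa [vCoord, h0 τ, sgn] using e)
      · simp only [Fin.mk_one] at e ⊢
        rw [p1] at e ⊢
        simp only [Matrix.cons_val_one, Matrix.cons_val_zero, Matrix.cons_val]
        rw [map_div₀, ← pl.comm, ← pl.comm, ht, e,
          show vCoord 2 (c (pl.res τ)) = c (pl.res τ) 0 0 from rfl,
          map_mul, map_mul, mul_div_mul_left _ _ (hk τ)]
      · simp only [Fin.reduceFinMk] at e ⊢
        rw [p2] at e ⊢
        simp only [Matrix.cons_val_one, Matrix.cons_val_zero, Matrix.cons_val]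
        rw [map_div₀, ← pl.comm, ← pl.comm, ht, e,
          show vCoord 1 (c (pl.res τ)) = c (pl.res τ) 0 1 from rfl, inV_line (hV τ) (h0 τ),
          map_mul, map_mul, mul_div_mul_left _ _ (hk τ)]
  obtain ⟨w, hw0, hwe, e0, e1, e2⟩ := hw
  constructor
  · rintro ⟨z, hz0, hze, hz⟩
    have hZ : Equivariant Fr pl fun i => w i * z i := fun τ i => by
      simp only [map_mul, hwe τ i, hze τ i]
    obtain ⟨p0, p1, p2⟩ := perm_line_ref
    obtain ⟨A, hA⟩ := exists_base_eq (F := F) (z := w 0 * z 0) fun τ => by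
      have := hZ τ 0
      rcases hD τ with h | h <;> rw [h] at this
      · rwa [perm_line_one] at this
      · rwa [p0] at this
    obtain ⟨X, hX⟩ := exists_base_eq (F := F) (z := (w 1 * z 1 + w 2 * z 2) / 2) fun τ => by
      have h1 := hZ τ 1
      have h2 := hZ τ 2
      rcases hD τ with h | h <;> rw [h] at h1 h2
      · rw [perm_line_one] at h1 h2
        rw [map_div₀, map_add, h1, h2, map_ofNat]
      · rw [p1] at h1
        rw [p2] at h2
        rw [map_div₀, map_add, h1, h2, map_ofNat, add_comm]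
    obtain ⟨Y, hY⟩ := exists_base_eq (F := F)
        (z := (w 1 * z 1 - w 2 * z 2) / (2 * δ)) fun τ => by
      have h1 := hZ τ 1
      have h2 := hZ τ 2
      rcases hD τ with h | h <;> rw [h] at h1 h2
      · rw [perm_line_one] at h1 h2
        rw [map_div₀, map_sub, h1, h2, map_mul, map_ofNat, hδ1 τ h]
      · rw [p1] at h1
        rw [p2] at h2
        rw [map_div₀, map_sub, h1, h2, map_mul, map_ofNat, hδr τ h]
        field_simp
        ring
    have hZ1 : w 1 * z 1 = algebraMap F Ω X + algebraMap F Ω Y * δ := by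
      rw [hX, hY]; field_simp; ring
    have hZ2 : w 2 * z 2 = algebraMap F Ω X - algebraMap F Ω Y * δ := by
      rw [hX, hY]; field_simp; ring
    refine ⟨A, X, Y, ?_, (algebraMap F Ω).injective ?_⟩
    · by_contra hc
      simp only [ne_eq, not_or, not_not] at hc
      obtain ⟨rfl, rfl, rfl⟩ := hc
      refine hz0 (funext fun i => ?_)
      fin_cases i
      · simpa [hw0] using hA.symm
      · simpa [hw0] using hZ1
      · simpa [hw0] using hZ2
    · rw [Fin.sum_univ_three, e0, e1, e2] at hz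
      simp only [map_add, map_mul, map_pow, map_ofNat, map_zero, hb, hA]
      rw [← hδ2]
      linear_combination hz
        - pl.ι t ^ 2 * ((w 1 * z 1 + algebraMap F Ω X + algebraMap F Ω Y * δ) * hZ1
          + (w 2 * z 2 + algebraMap F Ω X - algebraMap F Ω Y * δ) * hZ2)
  · rintro ⟨A, X, Y, hne, h⟩
    set Z : Fin 3 → Ω := ![algebraMap F Ω A, algebraMap F Ω X + algebraMap F Ω Y * δ,
      algebraMap F Ω X - algebraMap F Ω Y * δ] with hZdef
    have hZ : Equivariant Fr pl Z := fun τ i => by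
      rcases hD τ with h | h <;> rw [h]
      · rw [perm_line_one]
        fin_cases i <;> simp [hZdef, hδ1 τ h]
      · obtain ⟨p0, p1, p2⟩ := perm_line_ref
        fin_cases i <;> simp [hZdef, p0, p1, p2, hδr τ h, sub_eq_add_neg]
    have hZ0 : Z ≠ 0 := fun he => by
      have a0 : algebraMap F Ω A = 0 := by simpa [hZdef] using congrFun he 0
      have a1 : algebraMap F Ω X + algebraMap F Ω Y * δ = 0 := by
        simpa [hZdef] using congrFun he 1
      have a2 : algebraMap F Ω X - algebraMap F Ω Y * δ = 0 := by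
        simpa [hZdef] using congrFun he 2
      have aX : algebraMap F Ω X = 0 := by linear_combination (a1 + a2) / 2
      have aY : algebraMap F Ω Y * δ = 0 := by linear_combination (a1 - a2) / 2
      simp only [map_eq_zero] at a0 aX
      rw [mul_eq_zero, map_eq_zero, or_iff_left hδ0] at aY
      tauto
    refine ⟨fun i => Z i / w i, fun he => hZ0 (funext fun i => ?_), fun τ i => ?_, ?_⟩
    · simpa [hw0] using congrFun he i
    · simp only [map_div₀, hZ τ i, hwe τ i]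
    · have h' := congrArg (algebraMap F Ω) h
      simp only [map_add, map_mul, map_pow, map_ofNat, map_zero, hb, ← hδ2] at h'
      have hzc : ∀ i, w i * (Z i / w i) = Z i := fun i => mul_div_cancel₀ _ (hw0 i)
      rw [Fin.sum_univ_three, e0, e1, e2, ← mul_pow, ← mul_pow, ← mul_pow, mul_assoc, mul_assoc,
        hzc, hzc, hzc]
      simp only [hZdef, Matrix.cons_val_zero, Matrix.cons_val_one, Matrix.cons_val]
      linear_combination h'

theorem aniso_line [IsGalois F Ω] [CharZero F]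
    (hD : ∀ τ, Fr.ρ (pl.res τ) = 1 ∨ Fr.ρ (pl.res τ) = refM)
    (hsw : ∃ τ, Fr.ρ (pl.res τ) = refM)
    {c : GQ → M2F} (hV : ∀ τ, InV (c (pl.res τ))) (h0 : ∀ τ, c (pl.res τ) 1 0 = 0)
    {r : Fin 3 → QBar} (hr0 : ∀ i, r i ≠ 0) (hr : IsLocTwisted Fr pl c r)
    {t : QBar} (ht0 : t ≠ 0) (ht : ∀ τ, pl.res τ t = sgn (c (pl.res τ) 0 0) * t)
    {b : F} (hb0 : b ≠ 0) (hb : algebraMap F Ω b = pl.ι t ^ 2) :
    aniso Fr pl r = normBit (-2 * b) (-(rootInt Fr : F)) := by
  unfold aniso normBit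
  by_cases h : Iso Fr pl r
  · rw [if_pos h, if_pos ((iso_line_iff hD hsw hV h0 hr0 hr ht0 ht hb0 hb).mp h)]
  · rw [if_neg h, if_neg (mt (iso_line_iff hD hsw hV h0 hr0 hr ht0 ht hb0 hb).mpr h)]

/-- The pairing of two line classes vanishes. -/
theorem pairing_line [IsGalois F Ω] [CharZero F] (hF : NormDichotomy F)
    (hD : ∀ τ, Fr.ρ (pl.res τ) = 1 ∨ Fr.ρ (pl.res τ) = refM)
    (hsw : ∃ τ, Fr.ρ (pl.res τ) = refM)
    {c c' : GQ → M2F} (hV : ∀ τ, InV (c (pl.res τ))) (h0 : ∀ τ, c (pl.res τ) 1 0 = 0)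
    (hV' : ∀ τ, InV (c' (pl.res τ))) (h0' : ∀ τ, c' (pl.res τ) 1 0 = 0)
    {r₀ r r' r'' : Fin 3 → QBar} (hne₀ : ∀ i, r₀ i ≠ 0) (hne : ∀ i, r i ≠ 0)
    (hne' : ∀ i, r' i ≠ 0) (hne'' : ∀ i, r'' i ≠ 0)
    (hr₀ : IsLocTwisted Fr pl 0 r₀) (hr : IsLocTwisted Fr pl c r)
    (hr' : IsLocTwisted Fr pl c' r') (hr'' : IsLocTwisted Fr pl (c + c') r'') :
    pairing Fr pl r₀ r r' r'' = 0 := by
  have hVz : ∀ τ, InV ((0 : GQ → M2F) (pl.res τ)) := fun _ => ⟨rfl, by simp⟩
  have hVs : ∀ τ, InV ((c + c') (pl.res τ)) := fun τ => inV_add' (hV τ) (hV' τ)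
  have h0s : ∀ τ, (c + c') (pl.res τ) 1 0 = 0 := fun τ => by
    rw [Pi.add_apply, Matrix.add_apply, h0, h0', add_zero]
  obtain ⟨t₀, ht₀0, ht₀⟩ := exists_line_param hD hVz (fun _ => rfl) hne₀ hr₀
  obtain ⟨t, ht0, ht⟩ := exists_line_param hD hV h0 hne hr
  obtain ⟨t', ht'0, ht'⟩ := exists_line_param hD hV' h0' hne' hr'
  obtain ⟨t'', ht''0, ht''⟩ := exists_line_param hD hVs h0s hne'' hr''
  obtain ⟨b₀, hb₀0, hb₀⟩ := exists_param_sq ht₀0 ht₀
  obtain ⟨b, hb0, hb⟩ := exists_param_sq ht0 ht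
  obtain ⟨b', hb'0, hb'⟩ := exists_param_sq ht'0 ht'
  obtain ⟨b'', hb''0, hb''⟩ := exists_param_sq ht''0 ht''
  obtain ⟨k₀, hk₀⟩ := exists_base_eq (F := F) (z := pl.ι t₀) fun τ => by
    rw [← pl.comm, ht₀]; simp [sgn]
  obtain ⟨k, hk⟩ := exists_base_eq (F := F) (z := pl.ι (t'' / (t * t'))) fun τ => by
    refine comm_fixed ?_
    rw [map_div₀, map_mul, ht, ht', ht'', Pi.add_apply, Matrix.add_apply, sgn_add',
      mul_mul_mul_comm, mul_div_mul_left _ _ (mul_ne_zero (sgn_ne_zero' _) (sgn_ne_zero' _))]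
  have e₀ : b₀ = k₀ ^ 2 := (algebraMap F Ω).injective (by rw [map_pow, hk₀, hb₀])
  have e'' : b'' = b * b' * k ^ 2 := (algebraMap F Ω).injective (by
    rw [map_mul, map_mul, map_pow, hk, hb, hb', hb'', map_div₀, map_mul, div_pow, mul_pow,
      mul_div_cancel₀]
    exact mul_ne_zero (pow_ne_zero _ ((map_ne_zero _).mpr ht0))
      (pow_ne_zero _ ((map_ne_zero _).mpr ht'0)))
  have hk0 : k ≠ 0 := fun h => hb''0 (by rw [e'', h]; ring)
  have hk₀0 : k₀ ≠ 0 := fun h => hb₀0 (by rw [e₀, h]; ring)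
  have hD0 : -(rootInt Fr : F) ≠ 0 := neg_ne_zero.mpr (Int.cast_ne_zero.mpr (rootInt_ne_zero Fr))
  have h2 : (-2 : F) ≠ 0 := neg_ne_zero.mpr two_ne_zero
  rw [pairing, aniso_line hD hsw hVz (fun _ => rfl) hne₀ hr₀ ht₀0 ht₀ hb₀0 hb₀,
    aniso_line hD hsw hV h0 hne hr ht0 ht hb0 hb,
    aniso_line hD hsw hV' h0' hne' hr' ht'0 ht' hb'0 hb',
    aniso_line hD hsw hVs h0s hne'' hr'' ht''0 ht'' hb''0 hb'', e₀, e'', ← mul_assoc,
    normBit_sq_mul hk₀0, normBit_sq_mul hk0, ← mul_assoc,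
    normBit_mul hF h2 hb0 hD0, normBit_mul hF h2 hb'0 hD0,
    normBit_mul hF (mul_ne_zero h2 hb0) hb'0 hD0, normBit_mul hF h2 hb0 hD0]
  generalize normBit (-2 : F) _ = a, normBit b _ = x, normBit b' _ = y
  revert a x y
  decide

end Places

end Fermat.Agent.TwoAdic.Selmer
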