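import Fermat.Agent.TwoAdic.Selmer.Gram
import Fermat.Agent.TwoAdic.CFT.Hilbert.Parity

/-!
# The product formula for the anisotropy of a twisted triple
-/

set_option autoImplicit false
set_option linter.style.haveILetI false

noncomputable section

namespace Fermat.Agent.TwoAdic.Selmer

open Fermat.Agent.Deform Fermat.Agent.Arith

open Classical in
/-- Anisotropy at a natural number, zero unless it is prime. -/
def anisoN (Fr : Frame) (p : ℕ) (r : Fin 3 → QBar) : ZMod 2 :=
  if h : p.Prime then haveI : Fact p.Prime := ⟨h⟩; aniso Fr (padicAt p 1) r else 0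

theorem anisoN_eq {Fr : Frame} {r : Fin 3 → QBar} (hr : SqEquivariant Fr r) (p : ℕ)
    [hp : Fact p.Prime] (g : GQ) : anisoN Fr p r = aniso Fr (padicAt p g) r := by
  rw [anisoN, dif_pos hp.out]
  exact aniso_padicAt_eq hr p 1 g

theorem anisoN_of_not_prime (Fr : Frame) {p : ℕ} (hp : ¬ p.Prime) (r : Fin 3 → QBar) :
    anisoN Fr p r = 0 := dif_neg hp

/-- The number of places where a triple is anisotropic is even. -/
theorem sum_anisoN {Fr : Frame} {r : Fin 3 → QBar} (hr : SqEquivariant Fr r)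
    (hr0 : ∀ i, r i ≠ 0) (S : Finset ℕ) (hS : ∀ p, anisoN Fr p r ≠ 0 → p ∈ S) :
    ∑ p ∈ S, anisoN Fr p r = 0 := by
  classical
  obtain ⟨d, hd, key⟩ := exists_diagonal_form hr hr0
  obtain ⟨hfin, heven⟩ := CFT.even_anisotropic (d 0) (d 1) (d 2) (hd 0) (hd 1) (hd 2)
  have hev := heven.mpr ((key realPlace).mp (iso_realPlace hr))
  rw [Set.ncard_eq_toFinset_card _ hfin] at hev
  have hA : ∀ p : Nat.Primes, anisoN Fr (p : ℕ) r = if p ∈ hfin.toFinset then 1 else 0 := by
    intro p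
    haveI : Fact (p : ℕ).Prime := ⟨p.2⟩
    rw [anisoN, dif_pos p.2, aniso, if_congr (key (padicAt (p : ℕ) 1)) rfl rfl]
    simp only [Set.Finite.mem_toFinset, Set.mem_ofPred_eq, ite_not]
  set A : Finset ℕ := hfin.toFinset.map ⟨fun p : Nat.Primes => (p : ℕ), fun _ _ => Subtype.ext⟩
    with hA'
  have hval : ∀ n, anisoN Fr n r = if n ∈ A then 1 else 0 := by
    intro n
    by_cases hn : n.Prime
    · obtain ⟨p, rfl⟩ : ∃ p : Nat.Primes, (p : ℕ) = n := ⟨⟨n, hn⟩, rfl⟩
      have hiff : (p : ℕ) ∈ A ↔ p ∈ hfin.toFinset := Finset.mem_map'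
        ⟨fun p : Nat.Primes => (p : ℕ), fun _ _ => Subtype.ext⟩
      rw [hA p]
      exact if_congr hiff.symm rfl rfl
    · rw [anisoN_of_not_prime Fr hn, if_neg fun h => ?_]
      obtain ⟨p, -, rfl⟩ := Finset.mem_map.mp h
      exact hn p.2
  have hsub : A ⊆ S := fun n hn => hS n (by rw [hval, if_pos hn]; exact one_ne_zero)
  rw [← Finset.sum_subset hsub fun n _ hn => by rw [hval, if_neg hn],
    Finset.sum_congr rfl fun n hn => (hval n).trans (if_pos hn), Finset.sum_const, Finset.card_map,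
    nsmul_one]
  exact ZMod.natCast_eq_zero_iff_even.mpr hev

theorem IsTwisted.sum_anisoN {Fr : Frame} {c : GQ → M2F} {r : Fin 3 → QBar}
    (h : IsTwisted Fr c r) (S : Finset ℕ) (hS : ∀ p, anisoN Fr p r ≠ 0 → p ∈ S) :
    ∑ p ∈ S, Selmer.anisoN Fr p r = 0 :=
  Selmer.sum_anisoN h.sqEquivariant h.ne_zero S hS

end Fermat.Agent.TwoAdic.Selmer
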