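import Fermat.Agent.TwoAdic.Selmer.Tame

/-!
# The quadratic characters of `√(q*)` and homomorphisms unramified outside given odd primes
-/

set_option autoImplicit false
set_option linter.style.haveILetI false

noncomputable section

namespace Fermat.Agent.TwoAdic.Selmer

open Fermat.Agent.Deform Fermat.Agent.Arith Fermat.Agent.CFT.Tangent
open scoped Pointwise

/-- `±q`, congruent to `1` modulo `4`. -/
def qStar (q : ℕ) : ℤ := if q % 4 = 1 then (q : ℤ) else -(q : ℤ)

/-- A square root of `±q`. -/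
def starRoot (q : ℕ) : QBar := sqrtOf (qStar q : QBar)

theorem starRoot_sq (q : ℕ) : starRoot q ^ 2 = (qStar q : QBar) := sqrtOf_sq _

theorem qStar_emod_four {q : ℕ} (hq : q % 2 = 1) : qStar q % 4 = 1 := by
  unfold qStar
  split <;> omega

theorem qStar_natAbs (q : ℕ) : (qStar q).natAbs = q := by
  unfold qStar
  split <;> simp

theorem not_dvd_qStar {q l : ℕ} (hq : q.Prime) (hl : l.Prime) (h : l ≠ q) :
    ¬ (l : ℤ) ∣ qStar q := fun hd => by
  rw [Int.natCast_dvd, qStar_natAbs] at hd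
  exact h ((Nat.prime_dvd_prime_iff_eq hl hq).mp hd)

section Sign

variable {s : QBar} {z : ℤ}

theorem eq_or_eq_neg (hs : s ^ 2 = (z : QBar)) (σ : GQ) : σ s = s ∨ σ s = -s := by
  refine sq_eq_sq_iff_eq_or_eq_neg.mp ?_
  rw [← map_pow, hs, map_intCast]

/-- The quadratic character of a square root, with values in `A`. -/
def qc (A : Type) [CommRing A] (s : QBar) (σ : GQ) : A := if σ s = s then 0 else 1

variable {A : Type} [CommRing A] [Algebra (ZMod 2) A]

theorem qc_mul (hs : s ^ 2 = (z : QBar)) (hz : z ≠ 0) (σ τ : GQ) :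
    qc A s (σ * τ) = qc A s σ + qc A s τ := by
  have h0 : s ≠ 0 := fun h => hz (by exact_mod_cast (show ((z : ℤ) : QBar) = 0 by simp [← hs, h]))
  have hne : (-s : QBar) ≠ s := fun h => h0 (by linear_combination (-(1 : QBar) / 2) * h)
  have h11 := two_smul_eq_zero' (1 : A)
  rcases eq_or_eq_neg hs σ with h1 | h1 <;> rcases eq_or_eq_neg hs τ with h2 | h2 <;>
    simp [qc, AlgEquiv.mul_apply, h1, h2, hne, h11]

omit [Algebra (ZMod 2) A] in
theorem qc_one (s : QBar) : qc A s 1 = 0 := by simp [qc]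

end Sign

variable {P : ValuationSubring QBar} {l : ℕ} {s : QBar} {z : ℤ}

theorem isIntegral_of_sq (hs : s ^ 2 = (z : QBar)) : IsIntegral ℤ s :=
  IsIntegral.of_pow two_pos (hs ▸ isIntegral_intCast z)

theorem notMem_nonunits_of_sq (hP : P.LiesOverPrime l) (hl : l.Prime) (hs : s ^ 2 = (z : QBar))
    (hz : ¬ (l : ℤ) ∣ z) : s ∈ P ∧ s ∉ P.nonunits := by
  refine ⟨mem_of_isIntegral P (isIntegral_of_sq hs), fun h => hz ?_⟩
  rw [← intCast_mem_nonunits_iff hP hl, ← hs, sq]
  exact nonunits_mul_left (mem_of_isIntegral P (isIntegral_of_sq hs)) h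

theorem two_notMem_nonunits (hP : P.LiesOverPrime l) (hl : l.Prime) (hl2 : l ≠ 2) :
    (2 : QBar) ∉ P.nonunits := fun h => by
  rw [show (2 : QBar) = ((2 : ℕ) : QBar) by norm_num, natCast_mem_nonunits_iff hP hl,
    Nat.prime_dvd_prime_iff_eq hl Nat.prime_two] at h
  exact hl2 h

theorem neg_sub_notMem (hP : P.LiesOverPrime l) (hl : l.Prime) (hl2 : l ≠ 2)
    (hs : s ^ 2 = (z : QBar)) (hz : ¬ (l : ℤ) ∣ z) : -s - s ∉ P.nonunits := fun h => by
  obtain ⟨hsP, hsn⟩ := notMem_nonunits_of_sq hP hl hs hz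
  obtain ⟨h2, h2i⟩ := (notMem_nonunits_iff (A := P) (by exact_mod_cast natCast_mem P 2)).mp
    (two_notMem_nonunits hP hl hl2)
  apply hsn
  have := nonunits_mul_left (neg_mem h2i) h
  rwa [show -(2 : QBar)⁻¹ * (-s - s) = s by field_simp; ring] at this

/-- Inertia at an odd prime not dividing `z` fixes `√z`. -/
theorem inertia_fix_sqrt (hP : P.LiesOverPrime l) (hl : l.Prime) (hl2 : l ≠ 2)
    (hs : s ^ 2 = (z : QBar)) (hz : ¬ (l : ℤ) ∣ z) {σ : GQ}
    (hσ : σ ∈ P.inertiaSubgroupIn ℚ) : σ s = s := by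
  refine (eq_or_eq_neg hs σ).resolve_right fun h => neg_sub_notMem hP hl hl2 hs hz ?_
  have := (mem_inertia_iff_forall_mem.mp hσ).2 s (notMem_nonunits_of_sq hP hl hs hz).1
  rwa [h] at this

/-- Inertia at `2` fixes `√z` for `z ≡ 1` modulo `4`. -/
theorem inertia_fix_sqrt_two (hP : P.LiesOverPrime 2) (hs : s ^ 2 = (z : QBar))
    (hz : z % 4 = 1) {σ : GQ} (hσ : σ ∈ P.inertiaSubgroupIn ℚ) : σ s = s := by
  refine (eq_or_eq_neg hs σ).resolve_right fun h => ?_
  have hodd : ¬ ((2 : ℕ) : ℤ) ∣ z := by omega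
  obtain ⟨hsP, hsn⟩ := notMem_nonunits_of_sq hP Nat.prime_two hs hodd
  obtain ⟨w, hw⟩ : ∃ w : ℤ, z = 1 + 4 * w := ⟨z / 4, by omega⟩
  have hint : IsIntegral ℤ ((1 + s) / 2) := by
    refine ⟨Polynomial.X ^ 2 - Polynomial.X - Polynomial.C w, by monicity!, ?_⟩
    rw [hw] at hs
    push_cast at hs
    rw [Polynomial.eval₂_sub, Polynomial.eval₂_sub, Polynomial.eval₂_X_pow, Polynomial.eval₂_X,
      Polynomial.eval₂_C, eq_intCast]
    linear_combination hs / 4
  have h1 := (mem_inertia_iff_forall_mem.mp hσ).2 _ (mem_of_isIntegral P hint)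
  rw [map_div₀, map_add, map_one, h, map_ofNat] at h1
  have h2 : s ∈ P.nonunits := by
    have := nonunits_neg h1
    rwa [show -((1 + -s) / 2 - (1 + s) / 2) = s by ring] at this
  exact hsn h2

/-- A Frobenius at an odd prime fixes `√z` iff `z` is a square modulo it. -/
theorem frobenius_sqrt (hP : P.LiesOverPrime l) (hl : l.Prime) (hl2 : l ≠ 2)
    (hs : s ^ 2 = (z : QBar)) (hz : ¬ (l : ℤ) ∣ z) {φ : GQ} (hφ : P.IsFrobeniusAt φ l) :
    φ s = s ↔ IsSquare (z : ZMod l) := by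
  haveI : Fact l.Prime := ⟨hl⟩
  have hz0 : (z : ZMod l) ≠ 0 := fun h => hz ((ZMod.intCast_zmod_eq_zero_iff_dvd z l).mp h)
  rw [ZMod.euler_criterion l hz0]
  obtain ⟨hsP, hsn⟩ := notMem_nonunits_of_sq hP hl hs hz
  have h := (isFrobeniusAt_iff_forall_mem.mp hφ).2 s hsP
  have hpow : s ^ l = s * (z : QBar) ^ (l / 2) := by
    rw [← hs, ← pow_mul, ← pow_succ']
    congr 1
    have := hl.eq_two_or_odd
    omega
  rw [hpow] at h
  rcases ZMod.pow_div_two_eq_neg_one_or_one l hz0 with e | e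
  · refine iff_of_true ?_ e
    refine (eq_or_eq_neg hs φ).resolve_right fun h' => neg_sub_notMem hP hl hl2 hs hz ?_
    rw [h'] at h
    have e' : (((z ^ (l / 2) - 1 : ℤ)) : QBar) ∈ P.nonunits :=
      (intCast_mem_nonunits_iff hP hl _).mpr
        ((ZMod.intCast_zmod_eq_zero_iff_dvd _ l).mp (by push_cast; rw [e, sub_self]))
    push_cast at e'
    have := nonunits_add h (nonunits_mul_left hsP e')
    rwa [show -s - s * (z : QBar) ^ (l / 2) + s * ((z : QBar) ^ (l / 2) - 1) = -s - s by ring]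
      at this
  · refine iff_of_false (fun h' => neg_sub_notMem hP hl hl2 hs hz ?_) ?_
    · rw [h'] at h
      have e' : (((z ^ (l / 2) + 1 : ℤ)) : QBar) ∈ P.nonunits :=
        (intCast_mem_nonunits_iff hP hl _).mpr
          ((ZMod.intCast_zmod_eq_zero_iff_dvd _ l).mp (by push_cast; rw [e, neg_add_cancel]))
      push_cast at e'
      have := nonunits_neg (nonunits_add h (nonunits_mul_left hsP e'))
      rwa [show -(s - s * (z : QBar) ^ (l / 2) + s * ((z : QBar) ^ (l / 2) + 1)) = -s - s by ring]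
        at this
    · rw [e]
      haveI : Fact (2 < l) := ⟨lt_of_le_of_ne hl.two_le (Ne.symm hl2)⟩
      exact ZMod.neg_one_ne_one

/-- A Frobenius at `2` moves `√z` for `z ≡ 5` modulo `8`. -/
theorem frobenius_sqrt_two (hP : P.LiesOverPrime 2) (hs : s ^ 2 = (z : QBar))
    (hz : z % 8 = 5) {φ : GQ} (hφ : P.IsFrobeniusAt φ 2) : φ s ≠ s := fun h => by
  obtain ⟨w, hw⟩ : ∃ w : ℤ, z = 5 + 8 * w := ⟨z / 8, by omega⟩
  have hint : IsIntegral ℤ ((1 + s) / 2) := by
    refine ⟨Polynomial.X ^ 2 - Polynomial.X - Polynomial.C (1 + 2 * w), by monicity!, ?_⟩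
    rw [hw] at hs
    push_cast at hs
    rw [Polynomial.eval₂_sub, Polynomial.eval₂_sub, Polynomial.eval₂_X_pow, Polynomial.eval₂_X,
      Polynomial.eval₂_C, eq_intCast]
    push_cast
    linear_combination hs / 4
  have h1 := (isFrobeniusAt_iff_forall_mem.mp hφ).2 _ (mem_of_isIntegral P hint)
  rw [map_div₀, map_add, map_one, h, map_ofNat] at h1
  have e : (1 + s) / 2 - ((1 + s) / 2) ^ 2 = ((-(1 + 2 * w) : ℤ) : QBar) := by
    rw [hw] at hs
    push_cast at hs ⊢
    linear_combination -hs / 4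
  rw [e, intCast_mem_nonunits_iff hP Nat.prime_two] at h1
  omega

/-- An inertia element moving `√q` moves `√(q*)`. -/
theorem starRoot_moved {q : ℕ} (hP : P.LiesOverPrime q) (hq : q.Prime) (hq2 : q ≠ 2) {σ : GQ}
    (hσ : σ ∈ P.inertiaSubgroupIn ℚ) (hne : σ (sqrtOf q) ≠ sqrtOf q) :
    σ (starRoot q) ≠ starRoot q := fun h => hne <| by
  have h0 : (sqrtOf (q : QBar)) ≠ 0 := fun h0 => by
    have := sqrtOf_sq (q : QBar)
    rw [h0] at this
    simp at this
    exact hq.ne_zero (by exact_mod_cast this.symm)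
  have h4 : (starRoot q / sqrtOf q) ^ 4 = 1 := by
    have e : (starRoot q / sqrtOf q) ^ 4 = (((qStar q : QBar)) / (q : QBar)) ^ 2 := by
      rw [show (starRoot q / sqrtOf q) ^ 4 = (starRoot q ^ 2 / sqrtOf (q : QBar) ^ 2) ^ 2 by
        rw [← div_pow, ← pow_mul], starRoot_sq, sqrtOf_sq]
    rw [e]
    have : (q : QBar) ≠ 0 := by exact_mod_cast hq.ne_zero
    unfold qStar
    split <;> push_cast <;> field_simp
  have h5 : σ (starRoot q / sqrtOf q) = starRoot q / sqrtOf q :=
    inertia_root hP hq hσ h4 fun hd =>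
      hq2 ((Nat.prime_dvd_prime_iff_eq hq Nat.prime_two).mp
        (hq.dvd_of_dvd_pow (show q ∣ 2 ^ 2 by simpa using hd)))
  have hs0 : starRoot q ≠ 0 := fun h0 => by
    rw [h0, zero_div] at h4
    simp at h4
  rw [map_div₀, h, div_eq_mul_inv, div_eq_mul_inv] at h5
  exact inv_injective (mul_left_cancel₀ hs0 h5)

section Decompose

variable {k : Type} [Field k] [Algebra (ZMod 2) k]

/-- A homomorphism unramified outside given odd primes is a combination of their characters. -/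
theorem hom_eq_sum (E : Finset ℕ) (hE : ∀ e ∈ E, e.Prime) (hE2 : 2 ∉ E)
    (Pe : ℕ → ValuationSubring QBar) (τe : ℕ → GQ) (hPe : ∀ e ∈ E, (Pe e).LiesOverPrime e)
    (hτe : ∀ e ∈ E, τe e ∈ (Pe e).inertiaSubgroupIn ℚ)
    (hne : ∀ e ∈ E, τe e (sqrtOf e) ≠ sqrtOf e)
    (T : GQ → k) (hT : ∀ σ τ, T (σ * τ) = T σ + T τ) (hfin : IsFiniteLevel T)
    (hur : ∀ q : ℕ, q.Prime → q ∉ E → ∀ P : ValuationSubring QBar, P.LiesOverPrime q →
      ∀ σ ∈ P.inertiaSubgroupIn ℚ, T σ = 0) :
    ∀ σ, T σ = ∑ e ∈ E, T (τe e) * qc k (starRoot e) σ := by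
  classical
  set D : GQ → k := fun σ => T σ - ∑ e ∈ E, T (τe e) * qc k (starRoot e) σ with hD
  have hz : ∀ e ∈ E, qStar e ≠ 0 := fun e he h => by
    have := qStar_natAbs e
    rw [h] at this
    exact (hE e he).ne_zero this.symm
  have hDadd : ∀ σ τ, D (σ * τ) = D σ + D τ := fun σ τ => by
    simp only [hD]
    rw [Finset.sum_congr rfl fun e he => by
      rw [qc_mul (starRoot_sq e) (hz e he) σ τ, mul_add], Finset.sum_add_distrib, hT]
    ring
  have hD1 : D 1 = 0 := by
    have := hDadd 1 1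
    rwa [mul_one, left_eq_add] at this
  obtain ⟨L, hL, hLT⟩ := hfin
  let Ls : IntermediateField ℚ QBar := L ⊔ ⨆ e : E, IntermediateField.adjoin ℚ {starRoot e}
  haveI : ∀ e : E, FiniteDimensional ℚ (IntermediateField.adjoin ℚ {starRoot e}) := fun e =>
    IntermediateField.adjoin.finiteDimensional (Algebra.IsIntegral.isIntegral _)
  haveI : FiniteDimensional ℚ Ls := inferInstance
  have hDlev : ∀ σ : GQ, (∀ x ∈ Ls, σ x = x) → D σ = 0 := fun σ hσ => by
    simp only [hD]
    rw [hLT σ fun x hx => hσ x (le_sup_left (α := IntermediateField ℚ QBar) hx), zero_sub,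
      neg_eq_zero]
    refine Finset.sum_eq_zero fun e he => ?_
    rw [qc, if_pos, mul_zero]
    exact hσ _ (le_sup_right (α := IntermediateField ℚ QBar)
      (le_iSup (fun e : E => IntermediateField.adjoin ℚ {starRoot e}) ⟨e, he⟩
        (IntermediateField.mem_adjoin_simple_self ℚ _)))
  let ψ : GQ →* Multiplicative k :=
    { toFun := fun σ => Multiplicative.ofAdd (D σ)
      map_one' := by rw [hD1]; rfl
      map_mul' := fun σ τ => by rw [hDadd]; rfl }
  have hodd : ∀ e ∈ E, e % 2 = 1 := fun e he => (hE e he).eq_two_or_odd.resolve_left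
    fun h => hE2 (h ▸ he)
  haveI : ψ.ker.Normal := inferInstance
  have hopen : IsOpen (ψ.ker : Set GQ) := Subgroup.isOpen_mono (fun σ hσ => by
    rw [MonoidHom.mem_ker]
    show Multiplicative.ofAdd (D σ) = 1
    rw [hDlev σ ((IntermediateField.mem_fixingSubgroup_iff _ _).mp hσ)]
    rfl) Ls.fixingSubgroup_isOpen
  have hmem : ∀ σ, σ ∈ ψ.ker ↔ D σ = 0 := fun σ => MonoidHom.mem_ker.trans ofAdd_eq_one
  have hzero : ∀ q : ℕ, q.Prime → ∀ A : ValuationSubring QBar, A.LiesOverPrime q →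
      ∀ σ ∈ A.inertiaSubgroupIn ℚ, ψ σ = 1 := by
    intro q hq A hA σ hσ
    show Multiplicative.ofAdd (D σ) = 1
    rw [ofAdd_eq_one]
    by_cases hqE : q ∈ E
    · obtain ⟨g, hg⟩ := exists_smul_eq hA (hPe q hqE) hq
      have hconj : D σ = D (g * σ * g⁻¹) := by
        have h1 := hDadd g⁻¹ g
        rw [inv_mul_cancel, hD1] at h1
        rw [hDadd, hDadd]
        linear_combination h1
      rw [hconj]
      have hσ' : g * σ * g⁻¹ ∈ (Pe q).inertiaSubgroupIn ℚ := hg ▸ mem_inertia_smul_iff.mpr hσ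
      have hq2 : q ≠ 2 := fun h => hE2 (h ▸ hqE)
      have hτ0 : D (τe q) = 0 := by
        simp only [hD]
        rw [Finset.sum_eq_single q (fun e he hne' => by
            rw [qc, if_pos (inertia_fix_sqrt (hPe q hqE) hq hq2 (starRoot_sq e)
              (not_dvd_qStar (hE e he) hq (Ne.symm hne')) (hτe q hqE)), mul_zero])
          (fun h => absurd hqE h), qc, if_neg (starRoot_moved (hPe q hqE) hq hq2 (hτe q hqE)
            (hne q hqE)), mul_one, sub_self]
      obtain ⟨j, hj⟩ := exists_pow_eq_of_open (hPe q hqE) hq hq2 ψ.ker hopen (fun τ _ => by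
        rw [hmem, show τ ^ 4 = τ * τ * (τ * τ) by simp only [pow_succ, pow_zero, one_mul, mul_assoc],
          hDadd, two_smul_eq_zero']) (hτe q hqE) (hne q hqE) hσ'
      rw [hmem] at hj
      have hpow : ∀ n : ℕ, D (τe q ^ n) = 0 := fun n => by
        induction n with
        | zero => rw [pow_zero, hD1]
        | succ n ih => rw [pow_succ, hDadd, ih, hτ0, add_zero]
      have h2 := hDadd (τe q ^ j) ((τe q ^ j)⁻¹ * (g * σ * g⁻¹))
      rwa [mul_inv_cancel_left, hpow, hj, zero_add] at h2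
    · simp only [hD]
      rw [hur q hq hqE A hA σ hσ, zero_sub, neg_eq_zero]
      refine Finset.sum_eq_zero fun e he => ?_
      rw [qc, if_pos, mul_zero]
      rcases eq_or_ne q 2 with rfl | hq2
      · exact inertia_fix_sqrt_two hA (starRoot_sq e) (qStar_emod_four (hodd e he)) hσ
      · exact inertia_fix_sqrt hA hq hq2 (starRoot_sq e)
          (not_dvd_qStar (hE e he) hq fun h => hqE (h ▸ he)) hσ
  have h1 := eq_one_of_trivial_on_inertia ψ Ls (fun σ hσ => by
    show Multiplicative.ofAdd (D σ) = 1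
    rw [hDlev σ hσ]; rfl) hzero
  intro σ
  exact sub_eq_zero.mp (ofAdd_eq_one.mp (DFunLike.congr_fun h1 σ))

end Decompose

end Fermat.Agent.TwoAdic.Selmer
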