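import Fermat.Agent.TwoAdic.Selmer.Group
import Mathlib.LinearAlgebra.LinearIndependent.Defs

/-!
# Twisted triples: existence, products and shifts by coboundaries
-/

set_option autoImplicit false
set_option linter.style.haveILetI false

noncomputable section

namespace Fermat.Agent.TwoAdic.Selmer

open Fermat.Agent.Deform Fermat.Agent.Arith Fermat.Agent.CFT.Tangent

variable {Fr : Frame}

theorem Frame.det_ρ (Fr : Frame) (σ : GQ) : (Fr.ρ σ).det = 1 :=
  det_one_of_mul _ _ (map_mul_inv Fr.ρ σ)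

theorem Frame.ρ_inv (Fr : Frame) (σ : GQ) : Fr.ρ σ⁻¹ = inv2 (Fr.ρ σ) :=
  (left_inv_eq_right_inv (map_inv_mul Fr.ρ σ) (mul_inv2 _ (Fr.det_ρ σ)))

theorem Frame.perm_mul (Fr : Frame) (σ τ : GQ) (i : Fin 3) :
    perm (Fr.ρ (σ * τ)) i = perm (Fr.ρ σ) (perm (Fr.ρ τ) i) := by
  rw [map_mul, Selmer.perm_mul (Fr.det_ρ σ) (Fr.det_ρ τ)]

theorem Frame.perm_ρ_injective (Fr : Frame) (σ : GQ) : Function.Injective (perm (Fr.ρ σ)) :=
  Function.LeftInverse.injective (g := perm (inv2 (Fr.ρ σ))) (perm_inv2_perm (Fr.det_ρ σ))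

theorem Frame.exists_perm_eq (Fr : Frame) (i j : Fin 3) : ∃ σ, perm (Fr.ρ σ) i = j := by
  obtain ⟨g, hg⟩ := Fr.rot_mem
  obtain ⟨m, hm, he⟩ := Selmer.exists_perm_eq i j
  have h2 : Fr.ρ (g * g) = rotM2 := by rw [map_mul, hg]; decide
  rcases hm with rfl | rfl | rfl
  · exact ⟨1, by rw [map_one]; exact he⟩
  · exact ⟨g, by rw [hg]; exact he⟩
  · exact ⟨g * g, by rw [h2]; exact he⟩

theorem liftM_eq (M : M2F) : liftM (ZMod 2) M = M := by
  ext i j
  simp [liftM]

theorem sgn_add (a b : ZMod 2) : sgn (a + b) = sgn a * sgn b := by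
  have h : (1 : ZMod 2) + 1 = 0 := by decide
  rcases (show ∀ x : ZMod 2, x = 0 ∨ x = 1 by decide) a with rfl | rfl <;>
    rcases (show ∀ x : ZMod 2, x = 0 ∨ x = 1 by decide) b with rfl | rfl <;>
    simp [sgn, h]

theorem sgn_zero : sgn 0 = 1 := if_pos rfl

theorem sgn_mul_self (a : ZMod 2) : sgn a * sgn a = 1 := by
  unfold sgn
  split <;> norm_num

theorem map_sgn (σ : GQ) (a : ZMod 2) : σ (sgn a) = sgn a := by
  unfold sgn
  split <;> simp

theorem sgn_ne_zero (a : ZMod 2) : sgn a ≠ 0 := by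
  unfold sgn
  split <;> simp

theorem map_sgn' {R : Type} [Ring R] (ι : QBar →+* R) (a : ZMod 2) :
    ι (sgn a) = if a = 0 then 1 else -1 := by
  unfold sgn
  split <;> simp

/-- The coordinates of a cocycle compose. -/
theorem IsVCocycle.vCoord_mul {c : GQ → M2F} (hc : IsVCocycle Fr c) (σ τ : GQ) (i : Fin 3) :
    vCoord (perm (Fr.ρ (σ * τ)) i) (c (σ * τ)) =
      vCoord (perm (Fr.ρ σ) (perm (Fr.ρ τ) i)) (c σ) + vCoord (perm (Fr.ρ τ) i) (c τ) := by
  rw [Fr.perm_mul, hc.cocycle, Fr.ρ_inv, vCoord_add, add_comm]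
  congr 1
  have h := vCoord_conj (A := ZMod 2) (Fr.det_ρ σ) (hc.inV τ) (perm (Fr.ρ τ) i)
  rwa [liftM_eq, liftM_eq] at h

theorem isVCocycle_zero (Fr : Frame) : IsVCocycle Fr 0 :=
  ⟨fun g g' => by simp, ⟨⊥, inferInstance, fun σ _ => rfl⟩, fun σ => inV_zero⟩

theorem IsVCocycle.add {c c' : GQ → M2F} (hc : IsVCocycle Fr c) (hc' : IsVCocycle Fr c') :
    IsVCocycle Fr (c + c') := by
  obtain ⟨L, hL, h⟩ := hc.finiteLevel
  obtain ⟨L', hL', h'⟩ := hc'.finiteLevel
  exact ⟨hc.cocycle.add hc'.cocycle, ⟨L ⊔ L', inferInstance, fun σ hσ => by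
    rw [Pi.add_apply, h σ fun x hx => hσ x (le_sup_left (α := IntermediateField ℚ QBar) hx),
      h' σ fun x hx => hσ x (le_sup_right (α := IntermediateField ℚ QBar) hx), add_zero]⟩,
    fun σ => (hc.inV σ).add (hc'.inV σ)⟩

theorem isTwisted_one (Fr : Frame) : IsTwisted Fr 0 (fun _ => 1) :=
  ⟨fun _ => one_ne_zero, fun σ i => by simp [vCoord_zero, sgn_zero]⟩

theorem IsTwisted.mul {c c' : GQ → M2F} {r r' : Fin 3 → QBar} (h : IsTwisted Fr c r)
    (h' : IsTwisted Fr c' r') : IsTwisted Fr (c + c') (r * r') :=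
  ⟨fun i => mul_ne_zero (h.ne_zero i) (h'.ne_zero i), fun σ i => by
    rw [Pi.mul_apply, map_mul, h.twist, h'.twist, Pi.add_apply, vCoord_add, sgn_add, Pi.mul_apply]
    ring⟩

theorem IsTwisted.congr {c c' : GQ → M2F} {r : Fin 3 → QBar} (h : IsTwisted Fr c r)
    (e : c = c') : IsTwisted Fr c' r := e ▸ h

/-- Signs absorbing a coboundary. -/
def shiftTriple (X : M2F) (r : Fin 3 → QBar) : Fin 3 → QBar :=
  fun i => sgn (vCoord i X) * r i

theorem shiftTriple_sq (X : M2F) (r : Fin 3 → QBar) (i : Fin 3) :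
    shiftTriple X r i ^ 2 = r i ^ 2 := by
  rw [shiftTriple, mul_pow, sq (sgn _), sgn_mul_self, one_mul]

theorem vCoord_cobd {X : M2F} (hX : InV X) (σ : GQ) (i : Fin 3) :
    vCoord (perm (Fr.ρ σ) i) (cobdLin Fr.ρ X σ) =
      vCoord i X + vCoord (perm (Fr.ρ σ) i) X := by
  have h := vCoord_conj (A := ZMod 2) (Fr.det_ρ σ) hX i
  rw [liftM_eq, liftM_eq] at h
  rw [cobdLin_apply, CharTwo.sub_eq_add, vCoord_add, Fr.ρ_inv, h]

theorem IsTwisted.shift {c : GQ → M2F} {r : Fin 3 → QBar} (h : IsTwisted Fr c r) {X : M2F}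
    (hX : InV X) : IsTwisted Fr (c + cobdLin Fr.ρ X) (shiftTriple X r) := by
  refine ⟨fun i => mul_ne_zero (sgn_ne_zero _) (h.ne_zero i), fun σ i => ?_⟩
  rw [shiftTriple, map_mul, map_sgn, h.twist, Pi.add_apply, vCoord_add, vCoord_cobd hX,
    shiftTriple, sgn_add, sgn_add]
  linear_combination (-(sgn (vCoord i X) * sgn (vCoord (perm (Fr.ρ σ) i) (c σ)) *
    r (perm (Fr.ρ σ) i))) * sgn_mul_self (vCoord (perm (Fr.ρ σ) i) X)

theorem IsTwisted.isLocTwisted {F Ω : Type} [Field F] [Field Ω] [Algebra F Ω] {pl : Place F Ω}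
    {c c' : GQ → M2F} {r : Fin 3 → QBar} (h : IsTwisted Fr c r)
    (e : ∀ τ, c (pl.res τ) = c' (pl.res τ)) : IsLocTwisted Fr pl c' r := fun τ i => by
  rw [h.twist, e]

/-- A twisted triple has finite level. -/
theorem IsTwisted.apply_zero {c : GQ → M2F} {r : Fin 3 → QBar} (h : IsTwisted Fr c r) {σ : GQ}
    (hρ : Fr.ρ σ = 1) (hc : c σ = 0) (i : Fin 3) : σ (r i) = r i := by
  rw [h.twist, hρ, hc, perm_one, vCoord_zero, sgn_zero, one_mul]

open Classical in
/-- Every cocycle with values in `V` has a twisted triple. -/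
theorem exists_twisted {c : GQ → M2F} (hc : IsVCocycle Fr c) : ∃ r, IsTwisted Fr c r := by
  obtain ⟨L₁, hL₁, hρ₁⟩ := Fr.ρ_finiteLevel
  obtain ⟨L₂, hL₂, hc₂⟩ := hc.finiteLevel
  let L : IntermediateField ℚ QBar := IntermediateField.normalClosure ℚ (L₁ ⊔ L₂ : IntermediateField ℚ QBar) QBar
  haveI : FiniteDimensional ℚ (L₁ ⊔ L₂ : IntermediateField ℚ QBar) :=
    IntermediateField.finiteDimensional_sup _ _
  haveI : Normal ℚ L := normalClosure.normal ℚ _ QBar
  haveI : FiniteDimensional ℚ L := normalClosure.is_finiteDimensional ℚ _ QBar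
  haveI : IsGalois ℚ L := ⟨⟩
  set res : GQ →* (L ≃ₐ[ℚ] L) := AlgEquiv.restrictNormalHom L
  have hres : ∀ (σ : GQ) (x : L), ((res σ x : L) : QBar) = σ (x : QBar) :=
    fun σ x => AlgEquiv.restrictNormal_commutes σ L x
  have hker : ∀ σ : GQ, res σ = 1 → Fr.ρ σ = 1 ∧ c σ = 0 := fun σ hσ => by
    have hfix : ∀ x ∈ (L₁ ⊔ L₂ : IntermediateField ℚ QBar), σ x = x := fun x hx => by
      have := hres σ ⟨x, IntermediateField.le_normalClosure _ hx⟩
      rw [hσ] at this
      exact this.symm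
    exact ⟨hρ₁ σ fun x hx => hfix x (le_sup_left (α := IntermediateField ℚ QBar) hx),
      hc₂ σ fun x hx => hfix x (le_sup_right (α := IntermediateField ℚ QBar) hx)⟩
  have hsurj : Function.Surjective res := AlgEquiv.restrictNormalHom_surjective (K₁ := L) QBar
  choose lift hlift using hsurj
  -- the permutation and the sign only depend on the restriction to `L`
  let π : (L ≃ₐ[ℚ] L) → Fin 3 := fun g => perm (Fr.ρ (lift g)) 0
  let κ : (L ≃ₐ[ℚ] L) → ZMod 2 := fun g => vCoord (π g) (c (lift g))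
  have hdep : ∀ σ : GQ, π (res σ) = perm (Fr.ρ σ) 0 ∧
      κ (res σ) = vCoord (perm (Fr.ρ σ) 0) (c σ) := by
    intro σ
    obtain ⟨h1, h2⟩ := hker ((lift (res σ))⁻¹ * σ) (by rw [map_mul, map_inv, hlift, inv_mul_cancel])
    have e1 : Fr.ρ (lift (res σ)) = Fr.ρ σ := by
      conv_rhs => rw [← mul_inv_cancel_left (lift (res σ)) σ, map_mul, h1, mul_one]
    have e2 : c σ = c (lift (res σ)) := hc.cocycle.congr h2
    simp only [π, κ, e1, e2, and_self]
  -- the resolvents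
  let R : L → Fin 3 → L := fun z i =>
    ∑ g : L ≃ₐ[ℚ] L, if π g = i then (if κ g = 0 then g z else -g z) else 0
  have hR : ∀ (τ : GQ) (z : L) (i : Fin 3), ((res τ (R z i) : L) : QBar) =
      sgn (vCoord (perm (Fr.ρ τ) i) (c τ)) * ((R z (perm (Fr.ρ τ) i) : L) : QBar) := by
    intro τ z i
    have hstep : ∀ g, (π (res τ * g) = perm (Fr.ρ τ) i ↔ π g = i) ∧
        (π g = i → κ (res τ * g) = vCoord (perm (Fr.ρ τ) i) (c τ) + κ g) := by
      intro g
      have e : res τ * g = res (τ * lift g) := by rw [map_mul, hlift]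
      rw [e]
      obtain ⟨h1, h2⟩ := hdep (τ * lift g)
      rw [h1, h2, Fr.perm_mul]
      refine ⟨⟨fun h => Fr.perm_ρ_injective τ h, fun h => by rw [← h]⟩, fun h => ?_⟩
      rw [← Fr.perm_mul, hc.vCoord_mul]
      show _ + κ g = _
      rw [show perm (Fr.ρ (lift g)) 0 = i from h]
    simp only [R]
    conv_rhs => rw [← Equiv.sum_comp (Equiv.mulLeft (res τ))]
    rw [map_sum, AddSubmonoidClass.coe_finsetSum, AddSubmonoidClass.coe_finsetSum, Finset.mul_sum]
    refine Finset.sum_congr rfl fun g _ => ?_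
    obtain ⟨h1, h2⟩ := hstep g
    simp only [Equiv.coe_mulLeft, h1]
    by_cases hg : π g = i
    · rw [if_pos hg, if_pos hg]
      simp only [h2 hg]
      generalize vCoord (perm (Fr.ρ τ) i) (c τ) = a
      generalize κ g = b
      rcases (show ∀ x : ZMod 2, x = 0 ∨ x = 1 by decide) a with rfl | rfl <;>
        rcases (show ∀ x : ZMod 2, x = 0 ∨ x = 1 by decide) b with rfl | rfl <;>
        simp [sgn, show (1 : ZMod 2) + 1 = 0 by decide, AlgEquiv.mul_apply]
    · rw [if_neg hg, if_neg hg]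
      simp
  obtain ⟨z, hz⟩ : ∃ z : L, R z 0 ≠ 0 := by
    by_contra! hcon
    let a : (L ≃ₐ[ℚ] L) → L := fun g => if π g = 0 then (if κ g = 0 then 1 else -1) else 0
    have hli := Fintype.linearIndependent_iff.mp
      ((linearIndependent_monoidHom L L).comp (fun g : L ≃ₐ[ℚ] L => (g : L →* L))
        fun g g' h => AlgEquiv.ext fun x => DFunLike.congr_fun h x) a (funext fun x => by
          rw [Finset.sum_apply, Pi.zero_apply, ← hcon x]
          refine Finset.sum_congr rfl fun g _ => ?_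
          simp only [a, Function.comp_apply, Pi.smul_apply, smul_eq_mul]
          split_ifs <;> simp)
    have h1 := hdep 1
    rw [map_one, map_one, perm_one, hc.cocycle.one, vCoord_zero] at h1
    have := hli 1
    simp [a, h1.1, h1.2] at this
  refine ⟨fun i => ((R z i : L) : QBar), fun i => ?_, fun τ i => ?_⟩
  · obtain ⟨σ, hσ⟩ := Fr.exists_perm_eq 0 i
    have h := hR σ z 0
    rw [hσ] at h
    intro h0
    rw [h0, mul_zero, ZeroMemClass.coe_eq_zero, EmbeddingLike.map_eq_zero_iff] at h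
    exact hz h
  · rw [← hR, hres]

end Fermat.Agent.TwoAdic.Selmer
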