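import Fermat.Agent.TwoAdic.Selmer.Line
import Fermat.Agent.TwoAdic.Selmer.Twist
import Fermat.Agent.Arith.RootsOfUnity

/-!
# The pairing at a prime with transposition Frobenius

`u ≡ 1 (mod 4)` is unramified in the frame and Frobenius acts as `refM`. For `c` with residues in
the line and `c (φ) 1 0 = 0`, and `c'` without residues, the pairing is the residue of `c` times
`c' (φ) 1 0`.
-/

set_option autoImplicit false

noncomputable section

namespace Fermat.Agent.TwoAdic.Selmer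

open Fermat.Agent.Deform Fermat.Agent.Arith Fermat.Agent.CFT.Tangent
open Fermat.Agent.TwoAdic.CFT (Isotropic)

/-- Inertia over `q` fixes an `n`-th root of an integer prime to `q`, for `q` prime to `n`. -/
theorem inertia_fixes_root {q : ℕ} {P : ValuationSubring QBar} {σ : GQ} (hP : P.LiesOverPrime q)
    (hq : q.Prime) (hσ : σ ∈ P.inertiaSubgroupIn ℚ) {n : ℕ} (hn : ¬ q ∣ n) {x : QBar} {d : ℤ}
    (hd : ¬ (q : ℤ) ∣ d) (hx : x ^ n = (d : QBar)) : σ x = x := by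
  have hn0 : n ≠ 0 := fun h => hn (h ▸ dvd_zero q)
  have hint : IsIntegral ℤ x :=
    IsIntegral.of_pow (Nat.pos_of_ne_zero hn0) (hx ▸ isIntegral_intCast _)
  have hxP : x ∈ P := mem_of_isIntegral P hint
  obtain ⟨hx0, hxi⟩ := (notMem_nonunits_iff hxP).mp fun hnu => hd
    ((intCast_mem_nonunits_iff hP hq d).mp (by
      rw [← hx, ← Nat.succ_pred_eq_of_ne_zero hn0, pow_succ]
      exact nonunits_mul_left (pow_mem hxP _) hnu))
  have hdiff : σ x - x ∈ P.nonunits := (mem_inertia_iff hP hq).mp hσ x hint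
  have h := root_eq_one_of_sub_one_mem_nonunits hP hq (ζ := σ x * x⁻¹)
    (by rw [mul_pow, inv_pow, ← map_pow, hx, map_intCast, mul_inv_cancel₀]
        rw [← hx]; exact pow_ne_zero n hx0) hn
    (by rw [show σ x * x⁻¹ - 1 = (σ x - x) * x⁻¹ by rw [sub_mul, mul_inv_cancel₀ hx0]]
        exact nonunits_mul_right hdiff hxi)
  rwa [mul_inv_eq_one₀ hx0] at h

/-- A normal finite level containing a given level and finitely many elements. -/
theorem exists_normal_level (L₀ : IntermediateField ℚ QBar) [FiniteDimensional ℚ L₀]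
    (S : Finset QBar) :
    ∃ L : IntermediateField ℚ QBar, FiniteDimensional ℚ L ∧ Normal ℚ L ∧ L₀ ≤ L ∧
      ∀ x ∈ S, x ∈ L := by
  let M : IntermediateField ℚ QBar := L₀ ⊔ IntermediateField.adjoin ℚ (S : Set QBar)
  haveI : FiniteDimensional ℚ (IntermediateField.adjoin ℚ (S : Set QBar)) :=
    IntermediateField.finiteDimensional_adjoin fun x _ =>
      (Algebra.IsIntegral.isIntegral x : IsIntegral ℚ x)
  haveI : FiniteDimensional ℚ M := IntermediateField.finiteDimensional_sup _ _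
  haveI : Normal ℚ QBar := IsAlgClosure.normal ℚ QBar
  exact ⟨IntermediateField.normalClosure ℚ M QBar, normalClosure.is_finiteDimensional ℚ M QBar,
    normalClosure.normal ℚ M QBar, le_sup_left.trans M.le_normalClosure, fun x hx =>
      M.le_normalClosure (le_sup_right (α := IntermediateField ℚ QBar)
        (IntermediateField.subset_adjoin ℚ (S : Set QBar) hx))⟩

variable {Fr : Frame} {u : ℕ} [Fact u.Prime] {Ω : Type} [Field Ω] [Algebra ℚ_[u] Ω]

/-- A place over `u ≡ 1 (mod 4)` whose Frobenius `φ` acts as `refM`: up to every finite level its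
Galois group is generated by `φ` and the inertia group of `P`. -/
structure IsUPlace (Fr : Frame) (pl : Place ℚ_[u] Ω) (P : ValuationSubring QBar) (φ : GQ) :
    Prop where
  one_mod_four : u % 4 = 1
  notMem : u ∉ Fr.T
  liesOver : P.LiesOverPrime u
  ρ_φ : Fr.ρ φ = refM
  gen : ∀ (L : IntermediateField ℚ QBar), FiniteDimensional ℚ L → Normal ℚ L → ∀ τ,
    ∃ i : ℕ, ∃ η ∈ P.inertiaSubgroupIn ℚ, ∀ x ∈ L, pl.res τ x = (φ ^ i * η) x
  dense : ∀ (L : IntermediateField ℚ QBar), FiniteDimensional ℚ L → Normal ℚ L → ∀ σ,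
    (σ = φ ∨ σ ∈ P.inertiaSubgroupIn ℚ) → ∃ τ, ∀ x ∈ L, pl.res τ x = σ x

variable {pl : Place ℚ_[u] Ω} {P : ValuationSubring QBar} {φ : GQ}

omit [Fact u.Prime] in
theorem refM_mul_self : refM * refM = 1 := by decide

namespace IsUPlace

variable (h : IsUPlace Fr pl P φ)
include h

theorem odd : u ≠ 2 := fun e => by simpa [e] using h.one_mod_four

theorem inertia_ρ {η : GQ} (hη : η ∈ P.inertiaSubgroupIn ℚ) : Fr.ρ η = 1 :=
  Fr.unramified u Fact.out h.odd h.notMem P h.liesOver η hη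

theorem not_dvd_rootInt : ¬ (u : ℤ) ∣ rootInt Fr := by
  intro hd
  have hp : Prime (u : ℤ) := Nat.prime_iff_prime_int.mp Fact.out
  rcases hp.dvd_or_dvd hd with h2 | hT
  · rw [dvd_neg] at h2
    exact h.odd ((Nat.prime_dvd_prime_iff_eq Fact.out Nat.prime_two).mp (by exact_mod_cast h2))
  · obtain ⟨q, hq, hqd⟩ := hp.exists_mem_finset_dvd hT
    obtain rfl : u = q :=
      (Nat.prime_dvd_prime_iff_eq Fact.out (Fr.prime_of_mem q hq)).mp (by exact_mod_cast hqd)
    exact h.notMem hq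

theorem ρ_res (τ : Ω ≃ₐ[ℚ_[u]] Ω) : Fr.ρ (pl.res τ) = 1 ∨ Fr.ρ (pl.res τ) = refM := by
  obtain ⟨L₀, hL₀, hρ⟩ := Fr.ρ_finiteLevel
  obtain ⟨L, hfd, hn, hle, -⟩ := exists_normal_level L₀ ∅
  obtain ⟨i, η, hη, hag⟩ := h.gen L hfd hn τ
  rw [map_eq_of_agree (r := Fr.ρ) (L := L₀) hρ (fun x hx => hag x (hle hx)), map_mul, map_pow,
    h.ρ_φ, h.inertia_ρ hη, mul_one]
  clear hag
  induction i with
  | zero => exact Or.inl (pow_zero _)
  | succ i ih =>
    rcases ih with e | e <;> rw [pow_succ, e]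
    · exact Or.inr (one_mul _)
    · exact Or.inl refM_mul_self

theorem exists_res_refM : ∃ τ, Fr.ρ (pl.res τ) = refM := by
  obtain ⟨L₀, hL₀, hρ⟩ := Fr.ρ_finiteLevel
  obtain ⟨L, hfd, hn, hle, -⟩ := exists_normal_level L₀ ∅
  obtain ⟨τ, hag⟩ := h.dense L hfd hn φ (Or.inl rfl)
  exact ⟨τ, by rw [map_eq_of_agree (r := Fr.ρ) (L := L₀) hρ (fun x hx => hag x (hle hx)), h.ρ_φ]⟩

/-- A twist relation of the local Galois group holds on `φ` and on inertia. -/
theorem twist_of_loc {c : GQ → M2F} (hc : IsVCocycle Fr c) {r : Fin 3 → QBar}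
    (hr : IsLocTwisted Fr pl c r) {σ : GQ} (hσ : σ = φ ∨ σ ∈ P.inertiaSubgroupIn ℚ) (i : Fin 3) :
    σ (r i) = sgn (vCoord (perm (Fr.ρ σ) i) (c σ)) * r (perm (Fr.ρ σ) i) := by
  obtain ⟨L₀, hL₀, hρ⟩ := Fr.ρ_finiteLevel
  obtain ⟨L₁, hL₁, hc₁⟩ := hc.finiteLevel
  haveI : FiniteDimensional ℚ (L₀ ⊔ L₁ : IntermediateField ℚ QBar) :=
    IntermediateField.finiteDimensional_sup _ _
  obtain ⟨L, hfd, hn, hle, hmem⟩ := exists_normal_level (L₀ ⊔ L₁) {r i}
  obtain ⟨τ, hag⟩ := h.dense L hfd hn σ hσ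
  have e₀ : Fr.ρ (pl.res τ) = Fr.ρ σ := map_eq_of_agree (r := Fr.ρ) (L := L₀) hρ
    fun x hx => hag x (hle (le_sup_left (α := IntermediateField ℚ QBar) hx))
  have e₁ : c (pl.res τ) = c σ := IsAdCocycle.eq_of_agree hc.cocycle (L := L₁) hc₁
    fun x hx => hag x (hle (le_sup_right (α := IntermediateField ℚ QBar) hx))
  have := hr τ i
  rwa [e₀, e₁, hag (r i) (hmem _ (Finset.mem_singleton_self _))] at this

/-- A sign rule of the local Galois group holds on `φ` and on inertia. -/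
theorem sign_of_loc {c : GQ → M2F} (hc : IsVCocycle Fr c) {t : QBar}
    (ht : ∀ τ, pl.res τ t = sgn (c (pl.res τ) 0 0) * t) {σ : GQ}
    (hσ : σ = φ ∨ σ ∈ P.inertiaSubgroupIn ℚ) : σ t = sgn (c σ 0 0) * t := by
  obtain ⟨L₁, hL₁, hc₁⟩ := hc.finiteLevel
  obtain ⟨L, hfd, hn, hle, hmem⟩ := exists_normal_level L₁ {t}
  obtain ⟨τ, hag⟩ := h.dense L hfd hn σ hσ
  have e₁ : c (pl.res τ) = c σ :=
    IsAdCocycle.eq_of_agree hc.cocycle (L := L₁) hc₁ fun x hx => hag x (hle hx)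
  have := ht τ
  rwa [e₁, hag t (hmem _ (Finset.mem_singleton_self _))] at this

theorem fixed_of_loc {x : QBar} (hx : ∀ τ, pl.res τ x = x) {σ : GQ}
    (hσ : σ = φ ∨ σ ∈ P.inertiaSubgroupIn ℚ) : σ x = x := by
  obtain ⟨L, hfd, hn, -, hmem⟩ := exists_normal_level ⊥ {x}
  obtain ⟨τ, hag⟩ := h.dense L hfd hn σ hσ
  rw [← hag x (hmem _ (Finset.mem_singleton_self _))]
  exact hx τ

/-- The `(1, 0)` entry vanishes on the local group once it does on `φ` and on inertia. -/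
theorem entry_eq_zero {c : GQ → M2F} (hc : IsVCocycle Fr c) (hφ : c φ 1 0 = 0)
    (hI : ∀ η ∈ P.inertiaSubgroupIn ℚ, c η 1 0 = 0) (τ : Ω ≃ₐ[ℚ_[u]] Ω) :
    c (pl.res τ) 1 0 = 0 := by
  obtain ⟨L₁, hL₁, hc₁⟩ := hc.finiteLevel
  obtain ⟨L, hfd, hn, hle, -⟩ := exists_normal_level L₁ ∅
  obtain ⟨i, η, hη, hag⟩ := h.gen L hfd hn τ
  rw [IsAdCocycle.eq_of_agree hc.cocycle (L := L₁) hc₁ (fun x hx => hag x (hle hx))]
  have hline : ∀ j : ℕ, perm (Fr.ρ (φ ^ j)) 0 = 0 ∧ vCoord 0 (c (φ ^ j)) = 0 := by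
    intro j
    induction j with
    | zero => rw [pow_zero, map_one, hc.cocycle.one]; exact ⟨perm_one 0, vCoord_zero 0⟩
    | succ j ih =>
      have hp : perm (Fr.ρ φ) 0 = 0 := by rw [h.ρ_φ]; exact perm_refM.1
      have h2 : perm (Fr.ρ (φ ^ (j + 1))) 0 = 0 := by rw [pow_succ, Fr.perm_mul, hp, ih.1]
      refine ⟨h2, ?_⟩
      have e := hc.vCoord_mul (φ ^ j) φ 0
      rw [← pow_succ, h2, hp, ih.1, ih.2, zero_add] at e
      exact e.trans hφ
  have hp : perm (Fr.ρ η) 0 = 0 := by rw [h.inertia_ρ hη]; exact perm_one 0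
  have e := hc.vCoord_mul (φ ^ i) η 0
  rw [Fr.perm_mul, hp, (hline i).1, (hline i).2, zero_add] at e
  exact e.trans (hI η hη)

/-- A square root of `-1` is fixed by the local Galois group. -/
theorem fixed_sqrt_neg_one {j : QBar} (hj : j ^ 2 = -1) (τ : Ω ≃ₐ[ℚ_[u]] Ω) :
    pl.res τ j = j := by
  have hsq : IsSquare ((-1 : ℤ) : ℚ_[u]) :=
    CFT.isSquare_padic_of_zmod h.odd (fun hd => (Fact.out : u.Prime).not_dvd_one
      (by exact_mod_cast (dvd_neg.mp hd))) (by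
        have := h.one_mod_four
        rw [Int.cast_neg, Int.cast_one, ZMod.exists_sq_eq_neg_one_iff]
        omega)
  obtain ⟨k, hk⟩ := hsq
  refine pl.ι.injective ?_
  rw [pl.comm]
  rcases sq_eq_sq_iff_eq_or_eq_neg.mp (show pl.ι j ^ 2 = (algebraMap ℚ_[u] Ω k) ^ 2 by
    rw [← map_pow, hj, map_neg, map_one, ← map_pow, sq, ← hk, Int.cast_neg, Int.cast_one,
      map_neg, map_one]) with e | e <;> rw [e]
  · exact τ.commutes k
  · rw [map_neg, τ.commutes]

/-- `-rootInt` is not a square modulo `u`, as `φ` moves its root. -/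
theorem legBit_root : CFT.legBit u (-rootInt Fr) = 1 := by
  have hnd : ¬ (u : ℤ) ∣ -rootInt Fr := by rw [dvd_neg]; exact h.not_dvd_rootInt
  refine CFT.zmod_two_eq_one fun h0 => ?_
  obtain ⟨k, hk⟩ := CFT.isSquare_padic_of_zmod h.odd hnd ((CFT.legBit_eq_zero_iff hnd).mp h0)
  obtain ⟨j, hj⟩ := IsAlgClosed.exists_pow_nat_eq (-1 : QBar) two_pos
  have hj0 : j ≠ 0 := fun e => by simp [e] at hj
  -- `root / j` is a square root of `-rootInt`, hence locally fixed
  have hfix : ∀ τ, pl.res τ (Fr.root / j) = Fr.root / j := fun τ => by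
    refine pl.ι.injective ?_
    rw [pl.comm]
    rcases sq_eq_sq_iff_eq_or_eq_neg.mp (show pl.ι (Fr.root / j) ^ 2 =
        (algebraMap ℚ_[u] Ω k) ^ 2 by
      rw [← map_pow, div_pow, root_sq_rootInt, hj, div_neg, div_one, ← map_pow, sq, ← hk]
      simp) with e | e <;> rw [e]
    · exact τ.commutes k
    · rw [map_neg, τ.commutes]
  have e := h.fixed_of_loc hfix (Or.inl rfl)
  rw [map_div₀, h.fixed_of_loc (h.fixed_sqrt_neg_one hj) (Or.inl rfl),
    root_of_eq_refM Fr h.ρ_φ, neg_div] at e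
  have h2 : (2 : QBar) * (Fr.root / j) = 0 := by linear_combination -e
  simp [root_line_ne_zero, hj0] at h2

variable [IsGalois ℚ_[u] Ω]

/-- The anisotropy of a line class is the parity of the valuation of an integral parameter. -/
theorem aniso_eq_parity {c : GQ → M2F} (hV : ∀ τ, InV (c (pl.res τ)))
    (h0 : ∀ τ, c (pl.res τ) 1 0 = 0) {r : Fin 3 → QBar} (hr0 : ∀ i, r i ≠ 0)
    (hr : IsLocTwisted Fr pl c r) {t : QBar} (ht0 : t ≠ 0)
    (ht : ∀ τ, pl.res τ t = sgn (c (pl.res τ) 0 0) * t) {m : ℤ} (hm : m ≠ 0) {k : ℚ_[u]}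
    (hk : k ≠ 0) (hb : algebraMap ℚ_[u] Ω ((m : ℚ_[u]) * k ^ 2) = pl.ι t ^ 2) :
    aniso Fr pl r = (padicValInt u m : ZMod 2) := by
  have hu2 := h.odd
  have h2m : (-2 * m : ℤ) ≠ 0 := mul_ne_zero (by norm_num) hm
  have hnd : ¬ (u : ℤ) ∣ -rootInt Fr := by rw [dvd_neg]; exact h.not_dvd_rootInt
  rw [aniso_line h.ρ_res h.exists_res_refM hV h0 hr0 hr ht0 ht
    (mul_ne_zero (Int.cast_ne_zero.mpr hm) (pow_ne_zero _ hk)) hb, ← mul_assoc,
    normBit_sq_mul hk]
  have hiso : Isotropic ℚ_[u] (-2 * (m : ℚ_[u])) (-(rootInt Fr : ℚ_[u])) (-1) ↔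
      (padicValInt u m : ZMod 2) = 0 := by
    rw [show (-2 : ℚ_[u]) * (m : ℚ_[u]) = ((-2 * m : ℤ) : ℚ_[u]) by push_cast; ring,
      show -(rootInt Fr : ℚ_[u]) = ((-rootInt Fr : ℤ) : ℚ_[u]) by push_cast; ring,
      CFT.isotropic_odd_iff hu2 h2m (neg_ne_zero.mpr (rootInt_ne_zero Fr)), CFT.symOdd,
      padicValInt.eq_zero_of_not_dvd hnd, CFT.unitPart_of_not_dvd hnd, h.legBit_root,
      padicValInt.mul (by norm_num) hm, padicValInt.eq_zero_of_not_dvd (fun hd => hu2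
        ((Nat.prime_dvd_prime_iff_eq Fact.out Nat.prime_two).mp
          (by exact_mod_cast (dvd_neg.mp hd))))]
    simp
  unfold normBit
  by_cases hp : (padicValInt u m : ZMod 2) = 0
  · rw [if_pos (hiso.mpr hp), hp]
  · rw [if_neg (mt hiso.mp hp), CFT.zmod_two_eq_one hp]

theorem aniso_zero {r₀ : Fin 3 → QBar} (hne : ∀ i, r₀ i ≠ 0) (hr : IsLocTwisted Fr pl 0 r₀) :
    aniso Fr pl r₀ = 0 := by
  obtain ⟨t, ht0, ht⟩ := exists_line_param (c := 0) h.ρ_res (fun _ => inV_zero) (fun _ => rfl)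
    hne hr
  obtain ⟨k, hk⟩ := exists_base_eq (F := ℚ_[u]) (z := pl.ι t) fun τ => by
    rw [← pl.comm, ht]; simp [sgn]
  have hk0 : k ≠ 0 := fun e => ht0 (pl.ι.injective (by rw [← hk, e, map_zero, map_zero]))
  rw [h.aniso_eq_parity (c := 0) (fun _ => inV_zero) (fun _ => rfl) hne hr ht0 ht one_ne_zero hk0
    (by rw [Int.cast_one, one_mul, map_pow, hk])]
  simp

/-- The anisotropy of a line class is its residue. -/
theorem aniso_line_residue {c : GQ → M2F} (hc : IsVCocycle Fr c) (hφ : c φ 1 0 = 0)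
    (hI : ∀ η ∈ P.inertiaSubgroupIn ℚ, c η 1 0 = 0) {r : Fin 3 → QBar} (hne : ∀ i, r i ≠ 0)
    (hr : IsLocTwisted Fr pl c r) {σu : GQ} (hσu : σu ∈ P.inertiaSubgroupIn ℚ) {w : QBar}
    (hw : w ^ 2 = (u : QBar)) (hσw : σu w ≠ w) :
    aniso Fr pl r = c σu 0 0 := by
  have h0 := h.entry_eq_zero hc hφ hI
  obtain ⟨t, ht0, ht⟩ := exists_line_param h.ρ_res (fun τ => hc.inV _) h0 hne hr
  obtain ⟨b, hb0, hb⟩ := exists_param_sq ht0 ht
  obtain ⟨m, k, hm, hk, rfl⟩ := exists_eq_intCast_mul_sq hb0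
  rw [h.aniso_eq_parity (fun τ => hc.inV _) h0 hne hr ht0 ht hm hk hb]
  obtain ⟨x, hx⟩ := IsAlgClosed.exists_pow_nat_eq (m : QBar) two_pos
  have hx0 : x ≠ 0 := fun e => hm (by simpa [e] using hx.symm)
  have hq : σu (t / x) = t / x := by
    refine h.fixed_of_loc (fun τ => pl.ι.injective ?_) (Or.inr hσu)
    rw [pl.comm]
    rcases sq_eq_sq_iff_eq_or_eq_neg.mp (show pl.ι (t / x) ^ 2 = (algebraMap ℚ_[u] Ω k) ^ 2 by
      rw [map_div₀, div_pow, ← hb, ← map_pow pl.ι, hx, map_intCast, map_mul, map_intCast,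
        map_pow, mul_div_cancel_left₀]
      rw [← map_intCast (algebraMap ℚ_[u] Ω), map_ne_zero]
      exact Int.cast_ne_zero.mpr hm) with e | e <;> rw [e]
    · exact τ.commutes k
    · rw [map_neg, τ.commutes]
  -- the sign of `σu` on `t` is the sign on the square root `x` of `m`
  have hsx : σu x = sgn (c σu 0 0) * x := by
    rw [map_div₀, h.sign_of_loc hc ht (Or.inr hσu), div_eq_div_iff
      (by rw [map_ne_zero]; exact hx0) hx0] at hq
    exact mul_left_cancel₀ ht0 (by linear_combination -hq)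
  have hnw : σu w = -w := (sq_eq_sq_iff_eq_or_eq_neg.mp
    (by rw [← map_pow, hw, map_natCast])).resolve_left hσw
  have hw0 : w ≠ 0 := fun e => (Fact.out : u.Prime).ne_zero (by simpa [e] using hw.symm)
  set v := padicValInt u m
  have hy : σu (x / w ^ v) = x / w ^ v := by
    refine inertia_fixes_root h.liesOver Fact.out hσu (n := 2) (d := CFT.unitPart u m) ?_
      (CFT.not_dvd_unitPart hm) ?_
    · exact fun hd => h.odd ((Nat.prime_dvd_prime_iff_eq Fact.out Nat.prime_two).mp hd)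
    · rw [div_pow, hx, ← pow_mul, mul_comm, pow_mul, hw,
        div_eq_iff (pow_ne_zero _ (Nat.cast_ne_zero.mpr (Fact.out : u.Prime).ne_zero))]
      conv_lhs => rw [← CFT.unitPart_spec (p := u) m]
      push_cast
      ring
  rw [map_div₀, map_pow, hnw, neg_pow w, div_mul_eq_div_div, div_left_inj' (pow_ne_zero _ hw0),
    div_eq_iff (pow_ne_zero _ (by norm_num : (-1 : QBar) ≠ 0)), hsx, mul_comm x] at hy
  have hv : ∀ n : ℕ, sgn (n : ZMod 2) = (-1) ^ n := fun n => by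
    induction n with
    | zero => simp [sgn]
    | succ n ih => rw [Nat.cast_succ, sgn_add, ih, pow_succ]; simp [sgn]
  exact sgn_inj' ((hv v).trans (mul_right_cancel₀ hx0 hy).symm)

/-- A line class plus a class without residues not of line type is isotropic. -/
theorem iso_of_unr {c c' : GQ → M2F} (hc : IsVCocycle Fr c) (hc' : IsVCocycle Fr c')
    (hI : ∀ η ∈ P.inertiaSubgroupIn ℚ, c η 1 0 = 0) (hφ : c φ 1 0 = 0)
    (hI' : ∀ η ∈ P.inertiaSubgroupIn ℚ, c' η = 0) (hφ' : c' φ 1 0 = 1)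
    {t : QBar} (ht0 : t ≠ 0) (ht : ∀ τ, pl.res τ t = sgn (c (pl.res τ) 0 0) * t)
    {r : Fin 3 → QBar} (hne : ∀ i, r i ≠ 0) (hr : IsLocTwisted Fr pl (c + c') r) :
    Iso Fr pl r := by
  have hs := hc.add hc'
  obtain ⟨s, hs2⟩ := IsAlgClosed.exists_pow_nat_eq Fr.root two_pos
  have hs0 : s ≠ 0 := fun e => root_line_ne_zero Fr (by simpa [e] using hs2.symm)
  set j := φ s / s with hjdef
  have hj2 : j ^ 2 = -1 := by
    rw [hjdef, div_pow, ← map_pow, hs2, root_of_eq_refM Fr h.ρ_φ, neg_div,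
      div_self (root_line_ne_zero Fr)]
  have hφs : φ s = j * s := (div_mul_cancel₀ _ hs0).symm
  have hφj : φ j = j := h.fixed_of_loc (h.fixed_sqrt_neg_one hj2) (Or.inl rfl)
  have hφt : φ t = sgn (c φ 0 0) * t := h.sign_of_loc hc ht (Or.inl rfl)
  obtain ⟨-, p1, p2⟩ := perm_refM
  have hr1 : φ (r 1) = sgn ((c + c') φ 0 0) * r 2 := by
    have e := h.twist_of_loc hs hr (Or.inl rfl) 1
    rwa [h.ρ_φ, p1] at e
  have hr2 : φ (r 2) = sgn ((c + c') φ 0 1) * r 1 := by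
    have e := h.twist_of_loc hs hr (Or.inl rfl) 2
    rwa [h.ρ_φ, p2] at e
  set W1 : QBar := s * t / r 1 with hW1
  have hφW : φ (φ W1) = W1 := by
    have hss : φ (φ s) = -s := by
      rw [hφs, map_mul, hφj, hφs, ← mul_assoc, ← sq, hj2, neg_one_mul]
    have htt : φ (φ t) = t := by
      rw [hφt, map_mul, map_sgn, hφt, ← mul_assoc, sgn_mul_self, one_mul]
    have hrr : φ (φ (r 1)) = -r 1 := by
      have hX : (c + c') φ 0 0 + (c + c') φ 0 1 = 1 := by
        have e : c φ 1 0 + c' φ 1 0 = 1 := by rw [hφ, hφ', zero_add]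
        rw [(hs.inV φ).2, Pi.add_apply, Matrix.add_apply, Matrix.add_apply, e]
        generalize c φ 0 1 + c' φ 0 1 = a
        revert a
        decide
      rw [hr1, map_mul, map_sgn, hr2, ← mul_assoc, ← sgn_add, hX]
      simp [sgn]
    rw [hW1, map_div₀, map_div₀, map_mul, map_mul, hss, htt, hrr, neg_mul, neg_div_neg_eq]
  have hηW : ∀ η ∈ P.inertiaSubgroupIn ℚ, η W1 = W1 ∧ η (φ W1) = φ W1 := by
    intro η hη
    have hρη := h.inertia_ρ hη
    have hηs : η s = s := inertia_fixes_root h.liesOver Fact.out hη (n := 4)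
      (d := rootInt Fr) (fun hd => h.odd ((Nat.prime_dvd_prime_iff_eq Fact.out Nat.prime_two).mp
        ((Fact.out : u.Prime).dvd_of_dvd_pow (show u ∣ 2 ^ 2 from hd))))
      h.not_dvd_rootInt (by rw [show 4 = 2 * 2 from rfl, pow_mul, hs2, root_sq_rootInt])
    have hηt : η t = sgn (c η 0 0) * t := h.sign_of_loc hc ht (Or.inr hη)
    have hηj : η j = j := h.fixed_of_loc (h.fixed_sqrt_neg_one hj2) (Or.inr hη)
    have e1 : η (r 1) = sgn (c η 0 0) * r 1 := by
      have e := h.twist_of_loc hs hr (Or.inr hη) 1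
      rw [hρη, perm_one, Pi.add_apply, hI' η hη, add_zero] at e
      rwa [show vCoord 1 (c η) = c η 0 1 from rfl, inV_line (hc.inV η) (hI η hη)] at e
    have e2 : η (r 2) = sgn (c η 0 0) * r 2 := by
      have e := h.twist_of_loc hs hr (Or.inr hη) 2
      rwa [hρη, perm_one, Pi.add_apply, hI' η hη, add_zero] at e
    have hne0 := sgn_ne_zero (c η 0 0)
    refine ⟨?_, ?_⟩
    · rw [hW1, map_div₀, map_mul, hηs, hηt, e1, mul_left_comm, mul_div_mul_left _ _ hne0]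
    · rw [hW1, map_div₀, map_mul, hφs, hφt, hr1]
      simp only [map_div₀, map_mul, map_sgn, hηs, hηt, hηj, e2]
      field_simp
  let W : Fin 3 → QBar := ![0, W1, φ W1]
  have hWφ : ∀ i, φ (W i) = W (perm (Fr.ρ φ) i) := fun i => by
    rw [h.ρ_φ]
    fin_cases i <;> simp [W, perm_refM, hφW]
  have hWI : ∀ η ∈ P.inertiaSubgroupIn ℚ, ∀ i, η (W i) = W (perm (Fr.ρ η) i) := fun η hη i => by
    rw [h.inertia_ρ hη, perm_one]
    fin_cases i <;> simp [W, (hηW η hη).1, (hηW η hη).2]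
  have hW : ∀ τ i, pl.res τ (W i) = W (perm (Fr.ρ (pl.res τ)) i) := by
    intro τ i
    obtain ⟨L₀, hL₀, hρ⟩ := Fr.ρ_finiteLevel
    obtain ⟨L, hfd, hn, hle, hmem⟩ := exists_normal_level L₀ {W i}
    obtain ⟨n, η, hη, hag⟩ := h.gen L hfd hn τ
    rw [hag _ (hmem _ (Finset.mem_singleton_self _)),
      map_eq_of_agree (r := Fr.ρ) (L := L₀) hρ (fun x hx => hag x (hle hx))]
    have hpow : ∀ n : ℕ, ∀ i, (φ ^ n) (W i) = W (perm (Fr.ρ (φ ^ n)) i) := by
      intro n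
      induction n with
      | zero => intro i; simp [perm_one]
      | succ n ih =>
        intro i
        rw [pow_succ, AlgEquiv.mul_apply, hWφ, ih, Fr.perm_mul]
    rw [AlgEquiv.mul_apply, hWI η hη, hpow, Fr.perm_mul]
  refine ⟨fun i => pl.ι (W i), fun e => ?_, fun τ i => by rw [← pl.comm, hW], ?_⟩
  · have e1 := congrFun e 1
    simp [W, hW1, hs0, ht0, hne] at e1
  · have hsum : r 1 ^ 2 * W1 ^ 2 + r 2 ^ 2 * φ W1 ^ 2 = 0 := by
      have e1 : r 1 ^ 2 * W1 ^ 2 = Fr.root * t ^ 2 := by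
        rw [hW1, div_pow, mul_div_cancel₀ _ (pow_ne_zero _ (hne 1)), mul_pow, hs2]
      have e2 : r 2 ^ 2 * φ W1 ^ 2 = -(Fr.root * t ^ 2) := by
        have hsq : φ (r 1) ^ 2 = r 2 ^ 2 := by
          rw [hr1, mul_pow, sq (sgn _), sgn_mul_self, one_mul]
        have htq : φ t ^ 2 = t ^ 2 := by
          rw [hφt, mul_pow, sq (sgn _), sgn_mul_self, one_mul]
        rw [hW1, map_div₀, div_pow, hsq, mul_div_cancel₀ _ (pow_ne_zero _ (hne 2)), map_mul,
          mul_pow, htq, ← map_pow, hs2, root_of_eq_refM Fr h.ρ_φ, neg_mul]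
      rw [e1, e2, add_neg_cancel]
    simp only [Fin.sum_univ_three, W, Matrix.cons_val_zero, Matrix.cons_val_one, Matrix.cons_val,
      map_zero, ne_eq, OfNat.ofNat_ne_zero, not_false_eq_true, zero_pow, mul_zero, zero_add]
    rw [← map_pow, ← map_pow, ← map_pow, ← map_pow, ← map_mul, ← map_mul, ← map_add, hsum,
      map_zero]

end IsUPlace

/-- The pairing at a place with transposition Frobenius: residue times the Frobenius entry. -/
theorem pairing_uPlace [IsGalois ℚ_[u] Ω] (h : IsUPlace Fr pl P φ) {σu : GQ}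
    (hσu : σu ∈ P.inertiaSubgroupIn ℚ) {w : QBar} (hw : w ^ 2 = (u : QBar)) (hσw : σu w ≠ w)
    {c c' : GQ → M2F} (hc : IsVCocycle Fr c) (hc' : IsVCocycle Fr c')
    (hI : ∀ η ∈ P.inertiaSubgroupIn ℚ, c η = 0 ∨ c η = refM) (hφ : c φ 1 0 = 0)
    (hI' : ∀ η ∈ P.inertiaSubgroupIn ℚ, c' η = 0)
    {r₀ r r' r'' : Fin 3 → QBar} (hne₀ : ∀ i, r₀ i ≠ 0) (hne : ∀ i, r i ≠ 0)
    (hne' : ∀ i, r' i ≠ 0) (hne'' : ∀ i, r'' i ≠ 0)
    (hr₀ : IsLocTwisted Fr pl 0 r₀) (hr : IsLocTwisted Fr pl c r)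
    (hr' : IsLocTwisted Fr pl c' r') (hr'' : IsLocTwisted Fr pl (c + c') r'') :
    pairing Fr pl r₀ r r' r'' = c σu 0 0 * c' φ 1 0 := by
  have hI₁ : ∀ η ∈ P.inertiaSubgroupIn ℚ, c η 1 0 = 0 := fun η hη => by
    rcases hI η hη with e | e <;> rw [e] <;> rfl
  have h0 := h.entry_eq_zero hc hφ hI₁
  have hI₁' : ∀ η ∈ P.inertiaSubgroupIn ℚ, c' η 1 0 = 0 := fun η hη => by rw [hI' η hη]; rfl
  rcases zmod_two_cases (c' φ 1 0) with e | e <;> rw [e]
  · rw [mul_zero]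
    exact pairing_line (normDichotomy_padic u) h.ρ_res h.exists_res_refM (fun τ => hc.inV _) h0
      (fun τ => hc'.inV _) (h.entry_eq_zero hc' e hI₁') hne₀ hne hne' hne'' hr₀ hr hr' hr''
  · obtain ⟨t, ht0, ht⟩ := exists_line_param h.ρ_res (fun τ => hc.inV _) h0 hne hr
    have hiso'' : Iso Fr pl r'' := h.iso_of_unr hc hc' hI₁ hφ hI' e ht0 ht hne'' hr''
    have hiso' : Iso Fr pl r' := h.iso_of_unr (c := 0) (isVCocycle_zero Fr) hc' (fun _ _ => rfl)
      rfl hI' e (t := 1) one_ne_zero (fun τ => by simp [sgn]) hne' (by rwa [zero_add])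
    rw [pairing, h.aniso_zero hne₀ hr₀, h.aniso_line_residue hc hφ hI₁ hne hr hσu hw hσw]
    simp [aniso, hiso', hiso'']

open scoped Pointwise in
/-- The place of `padicEmbedding u ∘ g` is a `U` place for a Frobenius acting as `refM`. -/
theorem isUPlace_padic (Fr : Frame) (pl : Place ℚ_[u] (PadicAlgCl u)) {g : GQ}
    {P : ValuationSubring QBar} (hP : g • P = padicPlace u)
    (hres : ∀ τ, pl.res τ = g⁻¹ * localGaloisToGlobal u τ * g) (h4 : u % 4 = 1)
    (hT : u ∉ Fr.T) {φ : GQ} (hF : P.IsFrobeniusAt φ u) (hρ : Fr.ρ φ = refM) :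
    IsUPlace Fr pl P φ := by
  have hmem : ∀ (L : IntermediateField ℚ QBar), Normal ℚ L → ∀ x ∈ L, g x ∈ L := by
    intro L hL x hx
    rw [← show ((AlgEquiv.restrictNormalHom L g ⟨x, hx⟩ : L) : QBar) = g x from
      AlgEquiv.restrictNormal_commutes g L ⟨x, hx⟩]
    exact SetLike.coe_mem _
  have hLP : P.LiesOverPrime u := liesOverPrime_smul_iff.mp
    (hP ▸ Fermat.Agent.CFT.Local.padicPlace_liesOverPrime u : (g • P).LiesOverPrime u)
  refine ⟨h4, hT, hLP, hρ, fun L hfd hn τ => ?_, fun L hfd hn σ hσ => ?_⟩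
  · have hF' : (padicPlace u).IsFrobeniusAt (g * φ * g⁻¹) u := hP ▸ isFrobeniusAt_conj hF
    obtain ⟨i, η, hη, hag⟩ := exists_frobenius_mul_inertia L hF'
      (localGaloisToGlobal_mem_decompositionSubgroup u τ)
    refine ⟨i, g⁻¹ * η * g, (mem_inertia_smul_iff (g := g)).mp ?_, fun x hx => ?_⟩
    · rw [hP, show g * (g⁻¹ * η * g) * g⁻¹ = η by group]
      exact hη
    · rw [hres, AlgEquiv.mul_apply, AlgEquiv.mul_apply, hag _ (hmem L hn x hx), conj_pow,
        show φ ^ i * (g⁻¹ * η * g) = g⁻¹ * (g * φ ^ i * g⁻¹ * η) * g by group]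
      rfl
  · have hdec : σ • P = P := by
      rcases hσ with rfl | hσ
      · exact (isFrobeniusAt_iff_forall_mem.mp hF).1
      · exact (mem_inertia_iff_forall_mem.mp hσ).1
    have hdec' : (g * σ * g⁻¹) • padicPlace u = padicPlace u := by
      rw [← hP, ← mul_smul, inv_mul_cancel_right, mul_smul, hdec]
    obtain ⟨s, hs⟩ := (Fermat.Agent.CFT.Local.mem_range_toGlobal_iff u L
      (AlgEquiv.restrictNormalHom L (g * σ * g⁻¹))).mpr fun x hx => by
        rw [show ((AlgEquiv.restrictNormalHom L (g * σ * g⁻¹) x : L) : QBar) =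
          (g * σ * g⁻¹) (x : QBar) from AlgEquiv.restrictNormal_commutes (g * σ * g⁻¹) L x]
        exact map_mem_of_mem_decomposition hdec' hx
    refine ⟨s.liftNormal (PadicAlgCl u), fun x hx => ?_⟩
    have e : localGaloisToGlobal u (s.liftNormal (PadicAlgCl u)) (g x) = (g * σ * g⁻¹) (g x) := by
      have e1 := congrArg Subtype.val (DFunLike.congr_fun hs ⟨g x, hmem L hn x hx⟩)
      exact ((AlgEquiv.restrictNormal_commutes _ L ⟨g x, hmem L hn x hx⟩).symm.trans e1).trans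
        (AlgEquiv.restrictNormal_commutes (g * σ * g⁻¹) L ⟨g x, hmem L hn x hx⟩)
    rw [hres, AlgEquiv.mul_apply, AlgEquiv.mul_apply, e, ← AlgEquiv.mul_apply,
      ← AlgEquiv.mul_apply, show g⁻¹ * (g * σ * g⁻¹) * g = σ by group]

end Fermat.Agent.TwoAdic.Selmer
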