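import Fermat.Agent.TwoAdic.Selmer.UnimodularForm

/-!
# Unramified triples are isotropic at odd places outside `T`
-/

set_option autoImplicit false
set_option linter.style.haveILetI false

noncomputable section

namespace Fermat.Agent.TwoAdic.Selmer

open Fermat.Agent.Deform Fermat.Agent.Arith Fermat.Agent.Mazur.Eisenstein
open Fermat.Agent.CFT
open Matrix hiding zpow_neg
open scoped Pointwise

variable {q : ℕ} [Fact q.Prime]

theorem mem_conjPlace_iff (g : GQ) (x : QBar) :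
    x ∈ g⁻¹ • padicPlace q ↔ ‖padicEmbedding q (g x)‖ ≤ 1 := by
  rw [ValuationSubring.mem_pointwise_smul_iff_inv_smul_mem, inv_inv, AlgEquiv.smul_def,
    Local.mem_padicPlace_iff_norm]

theorem conjPlace_liesOverPrime (g : GQ) : (g⁻¹ • padicPlace q).LiesOverPrime q :=
  liesOverPrime_smul_iff.mpr (Local.padicPlace_liesOverPrime q)

theorem norm_eq_one_of_isUnitAt (g : GQ) {x : QBar} (hx : x ≠ 0)
    (h : IsUnitAt (g⁻¹ • padicPlace q) x) : ‖padicEmbedding q (g x)‖ = 1 := by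
  obtain ⟨h1, h2⟩ := (isUnitAt_iff hx).mp h
  rw [mem_conjPlace_iff] at h1 h2
  rw [map_inv₀, map_inv₀, norm_inv] at h2
  have h0 : 0 < ‖padicEmbedding q (g x)‖ := by simpa using hx
  exact le_antisymm h1 (by rwa [inv_le_one₀ h0] at h2)

theorem norm_natCast_self : ‖(q : PadicAlgCl q)‖ = (q : ℝ)⁻¹ := by
  rw [← map_natCast (algebraMap ℚ_[q] (PadicAlgCl q)) q, norm_algebraMap', Padic.norm_p]

/-- An element fixed by inertia has the norm of a power of `q`. -/
theorem exists_norm_eq_zpow_of_fixed (g : GQ) {x : QBar} (hx : x ≠ 0)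
    (hfix : ∀ σ ∈ (g⁻¹ • padicPlace q).inertiaSubgroupIn ℚ, σ x = x) :
    ∃ k : ℤ, ‖padicEmbedding q (g x)‖ = (q : ℝ) ^ (-k) := by
  have hA := conjPlace_liesOverPrime (q := q) g
  have hq : q.Prime := Fact.out
  have hq0 : (q : QBar) ≠ 0 := by exact_mod_cast hq.ne_zero
  obtain ⟨k, hk⟩ := exists_int_ordAt hA hq hx hfix
  have hu0 : x * (q : QBar) ^ (-k) ≠ 0 := mul_ne_zero hx (zpow_ne_zero _ hq0)
  have hu : IsUnitAt (g⁻¹ • padicPlace q) (x * (q : QBar) ^ (-k)) := by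
    rw [← ordAt_eq_zero_iff hA hq hu0, ordAt_mul hA hq hx (zpow_ne_zero _ hq0),
      ordAt_prime_zpow hA hq, hk]
    push_cast
    ring
  have h1 := norm_eq_one_of_isUnitAt g hu0 hu
  rw [map_mul, map_mul, map_zpow₀, map_zpow₀, map_natCast, map_natCast, norm_mul, norm_zpow,
    norm_natCast_self, _root_.inv_zpow', neg_neg] at h1
  refine ⟨k, ?_⟩
  rw [zpow_neg]
  exact eq_inv_of_mul_eq_one_left h1

theorem norm_theta_le_one (Fr : Frame) (g : GQ) (i : Fin 3) :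
    ‖(padicAt q g).ι (Fr.θ i)‖ ≤ 1 := by
  rw [padicAt_ι, ← mem_conjPlace_iff]
  exact mem_of_isIntegral _ (Fr.θ_integral i)

theorem norm_theta_sub (Fr : Frame) (g : GQ) (hq2 : q ≠ 2) (hqT : q ∉ Fr.T) {i j : Fin 3}
    (hij : i ≠ j) : ‖(padicAt q g).ι (Fr.θ i) - (padicAt q g).ι (Fr.θ j)‖ = 1 := by
  rw [← map_sub, padicAt_ι]
  have hint : Fr.θ i - Fr.θ j ∈ g⁻¹ • padicPlace q :=
    sub_mem (mem_of_isIntegral _ (Fr.θ_integral i)) (mem_of_isIntegral _ (Fr.θ_integral j))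
  have hne : Fr.θ i - Fr.θ j ≠ 0 := sub_ne_zero.mpr fun h => hij (Fr.θ_injective h)
  exact norm_eq_one_of_isUnitAt g hne (isUnitAt_of_notMem_nonunits hint
    (Fr.θ_distinct q Fact.out hq2 hqT _ (conjPlace_liesOverPrime g) i j hij))

/-- A triple fixed by inertia is isotropic at an odd place outside `T`. -/
theorem iso_padicAt_of_fixed {Fr : Frame} {r : Fin 3 → QBar} (hr : SqEquivariant Fr r)
    (hr0 : ∀ i, r i ≠ 0) (hq2 : q ≠ 2) (hqT : q ∉ Fr.T) (g : GQ)
    (hfix : ∀ σ ∈ (g⁻¹ • padicPlace q).inertiaSubgroupIn ℚ, ∀ i, σ (r i) = r i) :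
    Iso Fr (padicAt q g) r := by
  set pl := padicAt q g with hpl
  have hqR : (1 : ℝ) < q := by exact_mod_cast (Fact.out : q.Prime).one_lt
  have hk : ∀ i, ∃ k : ℤ, ‖pl.ι (r i)‖ = (q : ℝ) ^ (-k) := fun i =>
    exists_norm_eq_zpow_of_fixed g (hr0 i) fun σ hσ => hfix σ hσ i
  choose k hk using hk
  have hkπ : ∀ τ i, k (perm (Fr.ρ (pl.res τ)) i) = k i := by
    intro τ i
    have h2 : ‖pl.ι (r (perm (Fr.ρ (pl.res τ)) i))‖ ^ 2 = ‖pl.ι (r i)‖ ^ 2 := by
      rw [← norm_pow, ← norm_pow,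
      show pl.ι (r (perm (Fr.ρ (pl.res τ)) i)) ^ 2 = τ (pl.ι (r i) ^ 2) from
        (equivariant_sq Fr pl hr τ i).symm]
      exact congrArg (fun a : NNReal => (a : ℝ)) (nnnorm_padicAlgCl_algEquiv q τ _)
    rw [pow_left_inj₀ (norm_nonneg _) (norm_nonneg _) two_ne_zero, hk, hk] at h2
    exact neg_injective (zpow_right_injective₀ (zero_lt_one.trans hqR) hqR.ne' h2)
  have hc0 : (q : PadicAlgCl q) ≠ 0 := by exact_mod_cast (Fact.out : q.Prime).ne_zero
  set w : Fin 3 → PadicAlgCl q := fun i => (pl.ι (r i) * ((q : PadicAlgCl q) ^ k i)⁻¹) ^ 2 with hw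
  have hw1 : ∀ i, ‖w i‖ = 1 := by
    intro i
    rw [hw, norm_pow, norm_mul, norm_inv, norm_zpow, norm_natCast_self, hk i, _root_.inv_zpow, inv_inv,
      zpow_neg, inv_mul_cancel₀ (zpow_ne_zero _ (zero_lt_one.trans hqR).ne'), one_pow]
  have hweq : Equivariant Fr pl w := by
    intro τ i
    have h1 : τ (pl.ι (r i)) ^ 2 = pl.ι (r (perm (Fr.ρ (pl.res τ)) i)) ^ 2 := by
      rw [← map_pow]; exact equivariant_sq Fr pl hr τ i
    simp only [hw, map_pow, map_mul, map_inv₀, map_zpow₀, map_natCast, hkπ, mul_pow, h1]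
  obtain ⟨N, hN⟩ := exists_isGram Fr pl hweq
  have hint : ∀ j l, ‖N j l‖ ≤ 1 := by
    intro j l
    rw [← norm_algebraMap' (PadicAlgCl q) (N j l), hN j l]
    refine IsUltrametricDist.norm_sum_le_of_forall_le_of_nonneg zero_le_one fun i _ => ?_
    rw [norm_mul, hw1, one_mul, norm_pow]
    exact pow_le_one₀ (norm_nonneg _) (norm_theta_le_one Fr g i)
  have hdet : ‖N.det‖ = 1 := by
    have hV : ‖(vandermonde fun i => pl.ι (Fr.θ i)).det‖ = 1 := by
      rw [det_vandermonde, norm_prod]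
      refine Finset.prod_eq_one fun i _ => ?_
      rw [norm_prod]
      exact Finset.prod_eq_one fun j hj =>
        norm_theta_sub Fr g hq2 hqT (Finset.mem_Ioi.mp hj).ne'
    rw [← norm_algebraMap' (PadicAlgCl q) N.det, hN.map_det, norm_mul, norm_pow, hV, norm_prod,
      Finset.prod_eq_one fun i _ => hw1 i, one_pow, one_mul]
  obtain ⟨z, hz0, hz, hzero⟩ := hN.iso_iff.mpr (matIso_of_unit_det hq2 hN.symm hint hdet)
  refine ⟨fun i => z i * ((q : PadicAlgCl q) ^ k i)⁻¹, fun h => hz0 (funext fun i => ?_),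
    fun τ i => ?_, ?_⟩
  · simpa [zpow_ne_zero _ hc0] using congrFun h i
  · simp only [map_mul, map_inv₀, map_zpow₀, map_natCast, hz τ i, hkπ]
  · rw [← hzero]
    exact Finset.sum_congr rfl fun i _ => by simp only [hw]; ring

theorem perm_one_eq : ∀ i, perm (1 : M2F) i = i := by decide

theorem IsTwisted.fixed_of_trivial {Fr : Frame} {c : GQ → M2F} {r : Fin 3 → QBar}
    (h : IsTwisted Fr c r) {σ : GQ} (hρ : Fr.ρ σ = 1) (hc : c σ = 0) (i : Fin 3) :
    σ (r i) = r i := by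
  rw [h.twist, hρ, perm_one_eq, hc]
  have : vCoord i (0 : M2F) = 0 := by fin_cases i <;> rfl
  simp [this, sgn]

/-- An unramified class gives isotropy at an odd place outside `T`. -/
theorem iso_padicAt_of_unramified {Fr : Frame} {c : GQ → M2F} {r : Fin 3 → QBar}
    (h : IsTwisted Fr c r) (hq2 : q ≠ 2) (hqT : q ∉ Fr.T) (g : GQ)
    (hc : ∀ σ ∈ (g⁻¹ • padicPlace q).inertiaSubgroupIn ℚ, c σ = 0) :
    Iso Fr (padicAt q g) r :=
  iso_padicAt_of_fixed h.sqEquivariant h.ne_zero hq2 hqT g fun σ hσ i =>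
    h.fixed_of_trivial (Fr.unramified q Fact.out hq2 hqT _ (conjPlace_liesOverPrime g) σ hσ)
      (hc σ hσ) i

theorem aniso_padicAt_of_unramified {Fr : Frame} {c : GQ → M2F} {r : Fin 3 → QBar}
    (h : IsTwisted Fr c r) (hq2 : q ≠ 2) (hqT : q ∉ Fr.T) (g : GQ)
    (hc : ∀ σ ∈ (g⁻¹ • padicPlace q).inertiaSubgroupIn ℚ, c σ = 0) :
    aniso Fr (padicAt q g) r = 0 := by
  simp [aniso, iso_padicAt_of_unramified h hq2 hqT g hc]

end Fermat.Agent.TwoAdic.Selmer
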