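import Fermat.Agent.TwoAdic.Selmer.Classes
import Fermat.Agent.TwoAdic.Selmer.UPlace
import Fermat.Agent.TwoAdic.Selmer.Product
import Fermat.Agent.TwoAdic.Selmer.Unramified

/-!
# Residues at the transposition primes

The sum over all places of the anisotropy pairing vanishes; against classes of `IsSV` it is the
sum over the transposition primes of residue times Frobenius entry, so duality kills the residues.
-/

set_option autoImplicit false
set_option linter.style.haveILetI false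

noncomputable section

namespace Fermat.Agent.TwoAdic.Selmer

open Fermat.Agent.Deform Fermat.Agent.Arith Fermat.Agent.CFT.Tangent
open scoped Pointwise

theorem Frame.rhoK_self (Fr : Frame) : Fr.rhoK (ZMod 2) = Fr.ρ :=
  MonoidHom.ext fun σ => by rw [Fr.rhoK_apply, liftM_eq]

variable {Fr : Frame}

theorem aniso_congr_sq {F Ω : Type} [Field F] [Field Ω] [Algebra F Ω] (pl : Place F Ω)
    {r r' : Fin 3 → QBar} (h : ∀ i, r i ^ 2 = r' i ^ 2) : aniso Fr pl r = aniso Fr pl r' := by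
  have e : ∀ i, pl.ι (r i) ^ 2 = pl.ι (r' i) ^ 2 := fun i => by rw [← map_pow, ← map_pow, h]
  have hiff : Iso Fr pl r ↔ Iso Fr pl r' := by simp [Iso, e]
  by_cases hi : Iso Fr pl r' <;> simp [aniso, hiff, hi]

theorem eq_zero_or_refM : ∀ X : M2F, InV X → X 1 0 = 0 → X = 0 ∨ X = refM := by
  intro X hX h
  obtain ⟨h1, h2⟩ := hX
  rw [h, add_zero] at h2
  rcases zmod_two_cases (X 0 0) with e | e
  · left
    ext i j
    fin_cases i <;> fin_cases j
    · exact e
    · exact h2.symm.trans e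
    · exact h
    · exact h1.symm.trans e
  · right
    ext i j
    fin_cases i <;> fin_cases j
    · exact e
    · exact h2.symm.trans e
    · exact h
    · exact h1.symm.trans e

section Place

variable {p : ℕ} [hp : Fact p.Prime] {g : GQ} {P : ValuationSubring QBar}

theorem padicAt_res_mem (hgP : g • P = padicPlace p)
    (τ : PadicAlgCl p ≃ₐ[ℚ_[p]] PadicAlgCl p) :
    (padicAt p g).res τ ∈ P.decompositionSubgroup ℚ := by
  show (padicAt p g).res τ • P = P
  rw [padicAt_res, mul_smul, mul_smul, hgP,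
    show localGaloisToGlobal p τ • padicPlace p = padicPlace p from
      localGaloisToGlobal_mem_decompositionSubgroup p τ, ← hgP, inv_smul_smul]

theorem exists_res_ρ_eq (hgP : g • P = padicPlace p) {σ : GQ}
    (hσ : σ ∈ P.decompositionSubgroup ℚ) : ∃ τ, Fr.ρ ((padicAt p g).res τ) = Fr.ρ σ := by
  obtain ⟨L₀, hL₀, hρ⟩ := Fr.ρ_finiteLevel
  obtain ⟨L, hLf, hLn, hle, -⟩ := exists_normal_level L₀ ∅
  have hmem : ∀ x ∈ L, g x ∈ L := fun x hx => by
    rw [← show ((AlgEquiv.restrictNormalHom L g ⟨x, hx⟩ : L) : QBar) = g x from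
      AlgEquiv.restrictNormal_commutes g L ⟨x, hx⟩]
    exact SetLike.coe_mem _
  have hdec : (g * σ * g⁻¹) • padicPlace p = padicPlace p := by
    rw [← hgP, ← mul_smul, inv_mul_cancel_right, mul_smul, show σ • P = P from hσ]
  obtain ⟨s, hs⟩ := (Fermat.Agent.CFT.Local.mem_range_toGlobal_iff p L
    (AlgEquiv.restrictNormalHom L (g * σ * g⁻¹))).mpr fun x hx => by
      rw [show ((AlgEquiv.restrictNormalHom L (g * σ * g⁻¹) x : L) : QBar) =
        (g * σ * g⁻¹) (x : QBar) from AlgEquiv.restrictNormal_commutes (g * σ * g⁻¹) L x]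
      exact map_mem_of_mem_decomposition hdec hx
  refine ⟨s.liftNormal (PadicAlgCl p), ?_⟩
  set θ := (padicAt p g).res (s.liftNormal (PadicAlgCl p))
  have hag : ∀ x ∈ L₀, (σ⁻¹ * θ) x = x := fun x hx => by
    have hx' := hle hx
    have e : localGaloisToGlobal p (s.liftNormal (PadicAlgCl p)) (g x) =
        (g * σ * g⁻¹) (g x) := by
      have e1 := congrArg Subtype.val (DFunLike.congr_fun hs ⟨g x, hmem x hx'⟩)
      exact ((AlgEquiv.restrictNormal_commutes _ L ⟨g x, hmem x hx'⟩).symm.trans e1).trans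
        (AlgEquiv.restrictNormal_commutes (g * σ * g⁻¹) L ⟨g x, hmem x hx'⟩)
    rw [AlgEquiv.mul_apply]
    simp only [θ, padicAt_res]
    rw [AlgEquiv.mul_apply, AlgEquiv.mul_apply, e, ← AlgEquiv.mul_apply, ← AlgEquiv.mul_apply,
      ← AlgEquiv.mul_apply, show σ⁻¹ * g⁻¹ * (g * σ * g⁻¹) * g = 1 by group]
    rfl
  rw [← mul_inv_cancel_left σ θ, map_mul, hρ _ hag, mul_one]

/-- The pairing vanishes at a place of line type. -/
theorem pairing_lineAt (hgP : g • P = padicPlace p)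
    (hD : ∀ σ ∈ P.decompositionSubgroup ℚ, Fr.ρ σ = 1 ∨ Fr.ρ σ = refM)
    (hsw : ∃ σ ∈ P.decompositionSubgroup ℚ, Fr.ρ σ = refM) {c c' : GQ → M2F}
    (hc : IsVCocycle Fr c) (hc' : IsVCocycle Fr c') (hl : LineAt Fr c P) (hl' : LineAt Fr c' P)
    {r r' : Fin 3 → QBar} (hr : IsTwisted Fr c r) (hr' : IsTwisted Fr c' r') :
    pairing Fr (padicAt p g) (fun _ => 1) r r' (r * r') = 0 := by
  obtain ⟨X, hX, h0⟩ := hl
  obtain ⟨X', hX', h0'⟩ := hl'
  have hV : ∀ {e : GQ → M2F} {Y : M2F}, IsVCocycle Fr e → InV Y → ∀ σ,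
      InV ((e + cobdLin Fr.ρ Y) σ) := fun he hY σ => (he.inV σ).add (by
    rw [cobdLin_apply, Fr.ρ_inv, CharTwo.sub_eq_add]
    have h := InV.conj (A := ZMod 2) (Fr.det_ρ σ) hY
    rw [liftM_eq, liftM_eq] at h
    exact h.add hY)
  have hs := hr.shift hX
  have hs' := hr'.shift hX'
  have hp' := hs.mul hs'
  obtain ⟨σ₀, hσ₀, hρ₀⟩ := hsw
  obtain ⟨τ₀, hτ₀⟩ := exists_res_ρ_eq (Fr := Fr) hgP hσ₀
  have h := pairing_line (Fr := Fr) (pl := padicAt p g) (normDichotomy_padic p)
    (fun τ => hD _ (padicAt_res_mem hgP τ)) ⟨τ₀, hτ₀.trans hρ₀⟩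
    (fun τ => hV hc hX _) (fun τ => h0 _ (padicAt_res_mem hgP τ))
    (fun τ => hV hc' hX' _) (fun τ => h0' _ (padicAt_res_mem hgP τ))
    (isTwisted_one Fr).ne_zero hs.ne_zero hs'.ne_zero hp'.ne_zero
    ((isTwisted_one Fr).isLocTwisted fun _ => rfl) (hs.isLocTwisted fun _ => rfl)
    (hs'.isLocTwisted fun _ => rfl) (hp'.isLocTwisted fun _ => rfl)
  rw [pairing] at h ⊢
  rwa [aniso_congr_sq _ (shiftTriple_sq X r), aniso_congr_sq _ (shiftTriple_sq X' r'),
    aniso_congr_sq (Fr := Fr) (r := shiftTriple X r * shiftTriple X' r') (r' := r * r') _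
      fun i => by rw [Pi.mul_apply, Pi.mul_apply, mul_pow, mul_pow, shiftTriple_sq, shiftTriple_sq]]
    at h

end Place

variable {ιU : Type} [Fintype ιU] {UP : UPrimes Fr ιU}

theorem UPrimes.ne_two (UP : UPrimes Fr ιU) (i : ιU) : UP.q i ≠ 2 := fun h => by
  have := UP.one_mod_four i
  omega

theorem IsSV.vanish_inertia {c : GQ → M2F} (hc : IsSV Fr c) (i : ιU) {σ : GQ}
    (hσ : σ ∈ (UP.P i).inertiaSubgroupIn ℚ) : c σ = 0 :=
  hc.unramified _ (UP.prime i) (UP.ne_two i) (UP.notMem i) _ (UP.liesOver i) σ hσ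

/-- Residues are orthogonal to the Frobenius entries of `IsSV` classes. -/
theorem IsNearSV.sum_residue {c c' : GQ → M2F} (hc : IsNearSV UP c) (hc' : IsSV Fr c')
    (σu : ιU → GQ) (hσu : ∀ i, σu i ∈ (UP.P i).inertiaSubgroupIn ℚ)
    (hne : ∀ i, σu i (sqrtOf (UP.q i)) ≠ sqrtOf (UP.q i)) :
    ∑ i, c (σu i) 0 0 * c' (UP.φ i) 1 0 = 0 := by
  classical
  obtain ⟨r, hr⟩ := exists_twisted hc.vCocycle
  obtain ⟨r', hr'⟩ := exists_twisted hc'.vCocycle
  have h1 := isTwisted_one Fr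
  have hrr := hr.mul hr'
  set S : Finset ℕ := insert 2 (Fr.T ∪ Finset.univ.image UP.q) with hS
  let F : ℕ → ZMod 2 := fun p => anisoN Fr p (fun _ => 1) + anisoN Fr p r + anisoN Fr p r' +
    anisoN Fr p (r * r')
  have hout : ∀ {e : GQ → M2F} {s : Fin 3 → QBar}, IsTwisted Fr e s →
      (∀ q : ℕ, q.Prime → q ≠ 2 → q ∉ Fr.T → (∀ i, UP.q i ≠ q) →
        ∀ P : ValuationSubring QBar, P.LiesOverPrime q → ∀ σ ∈ P.inertiaSubgroupIn ℚ, e σ = 0) →
      ∀ p, anisoN Fr p s ≠ 0 → p ∈ S := by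
    intro e s hs hur p hp
    by_contra hpS
    simp only [hS, Finset.mem_insert, Finset.mem_union, Finset.mem_image, Finset.mem_univ,
      true_and, not_or, not_exists] at hpS
    apply hp
    by_cases hpp : p.Prime
    · haveI : Fact p.Prime := ⟨hpp⟩
      rw [anisoN_eq hs.sqEquivariant p 1]
      exact aniso_padicAt_of_unramified hs hpS.1 hpS.2.1 1
        (hur p hpp hpS.1 hpS.2.1 hpS.2.2 _ (conjPlace_liesOverPrime 1))
    · exact anisoN_of_not_prime Fr hpp s
  have hur' : ∀ q : ℕ, q.Prime → q ≠ 2 → q ∉ Fr.T → (∀ i, UP.q i ≠ q) →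
      ∀ P : ValuationSubring QBar, P.LiesOverPrime q → ∀ σ ∈ P.inertiaSubgroupIn ℚ, c' σ = 0 :=
    fun q h₁ h₂ h₃ _ => hc'.unramified q h₁ h₂ h₃
  have hsum : ∑ p ∈ S, F p = 0 := by
    simp only [F, Finset.sum_add_distrib]
    rw [h1.sum_anisoN S (hout h1 fun _ _ _ _ _ _ _ _ _ => rfl),
      hr.sum_anisoN S (hout hr hc.unramified), hr'.sum_anisoN S (hout hr' hur'),
      hrr.sum_anisoN S (hout hrr fun q a b d e P hP σ hσ => by
        rw [Pi.add_apply, hc.unramified q a b d e P hP σ hσ, hur' q a b d e P hP σ hσ, add_zero]),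
      add_zero, add_zero, add_zero]
  have hF : ∀ (p : ℕ) [Fact p.Prime] (g : GQ),
      F p = pairing Fr (padicAt p g) (fun _ => 1) r r' (r * r') := fun p _ g => by
    simp only [F, pairing, anisoN_eq h1.sqEquivariant p g, anisoN_eq hr.sqEquivariant p g,
      anisoN_eq hr'.sqEquivariant p g, anisoN_eq hrr.sqEquivariant p g]
  have hline : ∀ p ∈ insert 2 Fr.T, F p = 0 := by
    intro p hp
    have hpp : p.Prime := by
      rcases Finset.mem_insert.mp hp with rfl | hp
      · exact Nat.prime_two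
      · exact Fr.prime_of_mem p hp
    haveI : Fact p.Prime := ⟨hpp⟩
    rcases Finset.mem_insert.mp hp with rfl | hp
    · obtain ⟨g, hg⟩ := exists_smul_eq Fr.P2_over (CFT.Local.padicPlace_liesOverPrime 2) hpp
      rw [hF 2 g]
      exact pairing_lineAt hg Fr.decomp2
        ⟨Fr.σ2, (mem_inertia_iff_forall_mem.mp Fr.σ2_mem).1, Fr.ρ_σ2⟩ hc.vCocycle hc'.vCocycle
        hc.line_two hc'.line_two hr hr'
    · obtain ⟨P, hP⟩ := Fr.exists_isAdapted hp
      obtain ⟨g, hg⟩ := exists_smul_eq hP.liesOver (CFT.Local.padicPlace_liesOverPrime p) hpp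
      obtain ⟨σ, hσ, hρ⟩ := hP.exists_inertia
      rw [hF p g]
      exact pairing_lineAt hg hP.decomp ⟨σ, (mem_inertia_iff_forall_mem.mp hσ).1, hρ⟩
        hc.vCocycle hc'.vCocycle (hc.line_T p hp P hP) (hc'.line_T p hp P hP) hr hr'
  have hU : ∀ i, F (UP.q i) = c (σu i) 0 0 * c' (UP.φ i) 1 0 := by
    intro i
    haveI : Fact (UP.q i).Prime := ⟨UP.prime i⟩
    obtain ⟨g, hg⟩ := exists_smul_eq (UP.liesOver i) (CFT.Local.padicPlace_liesOverPrime _)
      (UP.prime i)
    rw [hF _ g]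
    exact pairing_uPlace
      (isUPlace_padic Fr (padicAt (UP.q i) g) hg (padicAt_res _ g) (UP.one_mod_four i)
        (UP.notMem i) (UP.frob i) (UP.ρ_φ i))
      (hσu i) (sqrtOf_sq _) (hne i) hc.vCocycle hc'.vCocycle
      (fun η hη => eq_zero_or_refM _ (hc.vCocycle.inV η) (hc.u_inertia i η hη))
      (hc.u_frobenius i) (fun η hη => hc'.vanish_inertia i hη) h1.ne_zero hr.ne_zero hr'.ne_zero
      hrr.ne_zero (h1.isLocTwisted fun _ => rfl) (hr.isLocTwisted fun _ => rfl)
      (hr'.isLocTwisted fun _ => rfl) (hrr.isLocTwisted fun _ => rfl)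
  rw [← hsum, ← Finset.sum_subset (s₁ := Finset.univ.image UP.q) (s₂ := S)
      (fun p hp => Finset.mem_insert_of_mem (Finset.mem_union_right _ hp))
      fun p hp hp' => hline p ?_,
    Finset.sum_image fun i _ j _ h => UP.injective h]
  · exact Finset.sum_congr rfl fun i _ => (hU i).symm
  · simp only [hS, Finset.mem_insert, Finset.mem_union] at hp ⊢
    rcases hp with h | h | h
    · exact Or.inl h
    · exact Or.inr h
    · exact absurd h hp'

/-- The residues of a near class vanish. -/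
theorem IsNearSV.isSV {c : GQ → M2F} (hc : IsNearSV UP c) : IsSV Fr c := by
  classical
  refine ⟨hc.vCocycle, fun q hq hq2 hqT P hP σ hσ => ?_, hc.line_T, hc.line_two⟩
  by_cases hU : ∀ i, UP.q i ≠ q
  · exact hc.unramified q hq hq2 hqT hU P hP σ hσ
  push Not at hU
  obtain ⟨i, rfl⟩ := hU
  have hb : IsAdCocycle (Fr.rhoK (ZMod 2)) c := by rw [Fr.rhoK_self]; exact hc.vCocycle.cocycle
  refine unramified_of_one hb (UP.prime i) hq2 hqT (UP.liesOver i) hP (fun τ hτ => ?_) hσ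
  choose σu hσu hne using fun j => exists_inertia_moves (UP.liesOver j) (UP.prime j)
  have hres : c (σu i) = 0 := by
    obtain ⟨c', hc', h1, h0⟩ := UP.dual i
    have h := hc.sum_residue hc' σu hσu hne
    rw [Finset.sum_eq_single i (fun j _ hj => by rw [h0 j hj, mul_zero])
      (fun h => absurd (Finset.mem_univ i) h), h1, mul_one] at h
    rcases eq_zero_or_refM _ (hc.vCocycle.inV _) (hc.u_inertia i _ (hσu i)) with e | e
    · exact e
    · rw [e] at h
      exact absurd h (by decide)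
  haveI := jointKer_normal hb
  obtain ⟨j, hj⟩ := exists_pow_eq_of_open (UP.liesOver i) (UP.prime i) hq2 _
    (jointKer_isOpen hb hc.vCocycle.finiteLevel)
    (fun s hs => pow_four_mem_jointKer hb
      (Fr.ρ_mul_self_of (Or.inl (Fr.unramified _ (UP.prime i) hq2 hqT _ (UP.liesOver i) s hs))))
    (hσu i) (hne i) hτ
  rw [(eq_of_mem_jointKer hb hj).1]
  exact hb.pow_eq_zero hres j

/-- A near class is a coboundary. -/
theorem IsNearSV.eq_cobd {c : GQ → M2F} (hc : IsNearSV UP c) :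
    ∃ X, InV X ∧ c = cobdLin Fr.ρ X :=
  UP.detect c hc.isSV hc.u_frobenius

end Fermat.Agent.TwoAdic.Selmer
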