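import Fermat.Agent.TwoAdic.Selmer.SelectBasic

/-!
# Choice of the auxiliary primes of the mod 2 Selmer calculus

`exists_dPrimes`: primes with Frobenius of order three whose Legendre symbols at `T` form an
invertible matrix and at which given further primes are squares. `exists_extraPrimes`: one such
prime for each of these further primes `u`, at which exactly `u` is not a square. `exists_uPrimes`: primes with Frobenius a transposition dual to a basis of the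
classes of `IsSV`. `exists_five`: a prime `≡ 5 mod 8` with Frobenius of order three.
All Frobenius elements agree with fixed elements on an arbitrary finite level.
-/

set_option autoImplicit false
set_option linter.style.haveILetI false

noncomputable section

namespace Fermat.Agent.TwoAdic.Selmer.Select

open Fermat.Agent.Deform Fermat.Agent.Arith Fermat.Agent.Arith.Chebotarev
open Fermat.Agent.CFT.Tangent

variable (Fr : Frame)

/-- Primes with Frobenius of order three and independent Legendre symbols at `T`. -/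
theorem exists_dPrimes (Us : Finset ℕ) (hUp : ∀ u ∈ Us, u.Prime) (hU2 : 2 ∉ Us)
    (hUT : ∀ u ∈ Us, u ∉ Fr.T) :
    ∃ σD : Fin (Fr.T.card - 1) → GQ, (∀ j, Fr.ρ (σD j) = rotM) ∧
      (∀ j (n : ℕ) (μ : QBar), μ ^ 2 ^ n = 1 → σD j μ = μ) ∧
      ∀ (N : ℕ) (avoid : Finset ℕ) (M : IntermediateField ℚ QBar) [FiniteDimensional ℚ M],
        ∃ D : DPrimes Fr (Fin (Fr.T.card - 1)),
          ∀ j, 2 ^ N ∣ D.q j - 1 ∧ D.q j ∉ avoid ∧ (∀ x ∈ M, D.φ j x = σD j x) ∧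
            ∀ u ∈ Us, IsSquare (u : ZMod (D.q j)) ∧ IsSquare ((D.q j : ℕ) : ZMod u) := by
  classical
  set r := Fr.T.card - 1 with hr
  have hcard : 0 < Fr.T.card := by
    obtain ⟨l, hl, -⟩ := Fr.exists_three_five
    exact Finset.card_pos.mpr ⟨l, hl⟩
  let e := Fr.T.equivFin
  let ls : Fin r → Fr.T := fun j => e.symm ⟨j.val, by omega⟩
  let last : Fr.T := e.symm ⟨r, by omega⟩
  have hls : ∀ i j, (ls i : ℕ) = ls j → i = j := fun i j h => by
    have := e.symm.injective (Subtype.ext h : ls i = ls j)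
    exact Fin.ext (by simpa using this)
  have hlast : ∀ i, (ls i : ℕ) ≠ last := fun i h => by
    have := e.symm.injective (Subtype.ext h : ls i = last)
    exact i.isLt.ne (by simpa using this)
  choose τ hτμ hτneg hτfix hτroot _ _ _ using fun l : Fr.T => exists_move Fr l.2
  obtain ⟨c, hc, hρc⟩ := exists_rot_commutator Fr
  have hA : ∀ i, ∃ k : Fin 3, Fr.ρ (τ (ls i) * τ last) * rotM ^ (k : ℕ) = rotM := fun i =>
    rotation_shift _ (det_ρ Fr _) ((Fr.root_iff _).mp (by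
      rw [AlgEquiv.mul_apply, hτroot, map_neg, hτroot, neg_neg]))
  choose k hk using hA
  have hcs : ∀ (m : ℕ) (l : ℕ), (c ^ m) (sqrtOf l) = sqrtOf l := fun m l =>
    commutator_fix (sqrt_comm (sqrtOf_sq' l)) (pow_mem hc m)
  refine ⟨fun i => τ (ls i) * τ last * c ^ (k i : ℕ), fun i => ?_, fun i n μ hμ => ?_,
    fun N avoid M _ => ?_⟩
  · rw [map_mul, map_pow, hρc, hk]
  · rw [AlgEquiv.mul_apply, AlgEquiv.mul_apply, commutator_fix_two_pow (pow_mem hc _) n hμ,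
      hτμ _ n μ hμ, hτμ _ n μ hμ]
  obtain ⟨L, ζ, _, hML, hζ, hζL, hsL, hρL⟩ := exists_level Fr M (max N 3) (Fr.T ∪ Us)
  obtain ⟨q, P, φ, hinj, hq⟩ := exists_frobenius_agree
    (fun i => τ (ls i) * τ last * c ^ (k i : ℕ)) (avoid ∪ Us ∪ Fr.T ∪ {2}) L
  choose hqp hqav hP hφ hagree using hq
  simp only [Finset.mem_union, Finset.mem_singleton, not_or] at hqav
  have hdvd : ∀ i, 2 ^ max N 3 ∣ q i - 1 := fun i =>
    dvd_sub_one_of_fix (hqp i) (hqav i).2 (hP i) (hφ i) hζ (by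
      rw [hagree i ζ hζL, AlgEquiv.mul_apply, AlgEquiv.mul_apply,
        commutator_fix_two_pow (pow_mem hc _) _ hζ.pow_eq_one, hτμ _ _ _ hζ.pow_eq_one,
        hτμ _ _ _ hζ.pow_eq_one])
  have h8 : ∀ i, q i % 8 = 1 := fun i => by
    have h := (pow_dvd_pow 2 (le_max_right N 3)).trans (hdvd i)
    have := (hqp i).one_le
    omega
  have hρφ : ∀ i, Fr.ρ (φ i) = rotM := fun i => by
    rw [map_eq_of_agree hρL (hagree i), map_mul, map_pow, hρc, hk]
  refine ⟨⟨q, hqp, hinj, h8, fun i => (hqav i).1.2, P, hP, φ, hφ, hρφ, fun e he => ?_⟩,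
    fun i => ⟨(pow_dvd_pow 2 (le_max_left N 3)).trans (hdvd i), (hqav i).1.1.1,
      fun x hx => hagree i x (hML hx), fun u hu => ?_⟩⟩
  rotate_left
  · haveI := Fact.mk (hUp u hu)
    haveI := Fact.mk (hqp i)
    have h4 : q i % 4 = 1 := by have := h8 i; omega
    have hu2 : u ≠ 2 := fun h => hU2 (h ▸ hu)
    have h : IsSquare (u : ZMod (q i)) := by
      rw [← frobenius_sqrt (hqp i) (hqav i).2 (hUp u hu) (fun h => (hqav i).1.1.2 (h ▸ hu)) (hP i)
        (hφ i), hagree i _ (hsL _ (Finset.mem_union_right _ hu)), AlgEquiv.mul_apply,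
        AlgEquiv.mul_apply, hcs, hτfix last _ (hUp u hu) fun h => hUT u hu (h ▸ last.2),
        hτfix (ls i) _ (hUp u hu) fun h => hUT u hu (h ▸ (ls i).2)]
    exact ⟨h, (ZMod.exists_sq_eq_prime_iff_of_mod_four_eq_one h4 hu2).mp h⟩
  funext j
  have hlp := Fr.prime_of_mem _ (ls j).2
  have hl2 : (ls j : ℕ) ≠ 2 := fun h => Fr.two_notMem (h ▸ (ls j).2)
  haveI := Fact.mk hlp
  have hsq : ∀ i, IsSquare ((q i : ℕ) : ZMod (ls j)) ↔ i ≠ j := fun i => by
    haveI := Fact.mk (hqp i)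
    have h4 : q i % 4 = 1 := by have := h8 i; omega
    rw [← ZMod.exists_sq_eq_prime_iff_of_mod_four_eq_one h4 hl2,
      ← frobenius_sqrt (hqp i) (hqav i).2 hlp (fun h => (hqav i).1.2 (h ▸ (ls j).2)) (hP i) (hφ i),
      hagree i _ (hsL _ (Finset.mem_union_left _ (ls j).2)), AlgEquiv.mul_apply,
      AlgEquiv.mul_apply, hcs, hτfix last _ hlp (hlast j)]
    rcases eq_or_ne i j with rfl | hne
    · rw [hτneg]
      exact iff_of_false (sqrtOf_ne_neg hlp) (not_not.mpr rfl)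
    · rw [hτfix (ls i) _ hlp fun h => hne (hls j i h).symm]
      exact iff_of_true rfl hne
  have h := he _ (ls j).2
  rw [Finset.sum_eq_single_of_mem j (Finset.mem_univ _)] at h
  · rw [if_neg fun h => (hsq j).mp h rfl] at h
    exact h
  · intro i _ hne
    rw [if_pos ((hsq i).mpr hne)]

/-- For each of the primes `uq i` a prime with Frobenius of order three at which every prime of `T`
and every `uq j`, `j ≠ i`, is a square and `uq i` is not. -/
theorem exists_extraPrimes {ι : Type} [Fintype ι] (uq : ι → ℕ) (hup : ∀ i, (uq i).Prime)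
    (hu2 : ∀ i, uq i ≠ 2) (huinj : Function.Injective uq) (huT : ∀ i, uq i ∉ Fr.T) :
    ∃ σE : ι → GQ, (∀ i, Fr.ρ (σE i) = rotM) ∧
      (∀ i (n : ℕ) (μ : QBar), μ ^ 2 ^ n = 1 → σE i μ = μ) ∧
      ∀ (N : ℕ) (avoid : Finset ℕ) (M : IntermediateField ℚ QBar) [FiniteDimensional ℚ M],
        ∃ (q : ι → ℕ) (P : ι → ValuationSubring QBar) (φ : ι → GQ), Function.Injective q ∧
          ∀ i, (q i).Prime ∧ q i % 8 = 1 ∧ 2 ^ N ∣ q i - 1 ∧ q i ∉ avoid ∧ q i ∉ Fr.T ∧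
            (∀ j, q i ≠ uq j) ∧ (P i).LiesOverPrime (q i) ∧ (P i).IsFrobeniusAt (φ i) (q i) ∧
            Fr.ρ (φ i) = rotM ∧ (∀ x ∈ M, φ i x = σE i x) ∧
            (∀ l ∈ Fr.T, IsSquare (l : ZMod (q i)) ∧ IsSquare ((q i : ℕ) : ZMod l)) ∧
            ∀ j, (IsSquare (uq j : ZMod (q i)) ↔ j ≠ i) ∧
              (IsSquare ((q i : ℕ) : ZMod (uq j)) ↔ j ≠ i) := by
  classical
  choose τ hρτ hτμ hτneg hτfix using fun i => exists_move_off Fr (hup i) (hu2 i) (huT i)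
  obtain ⟨c, hc, hρc⟩ := exists_rot_commutator Fr
  have hval : ∀ i (y : QBar), (τ i * c) y = τ i (c y) := fun i y => rfl
  have hc1 : ∀ l : ℕ, c (sqrtOf l) = sqrtOf l := fun l =>
    commutator_fix (sqrt_comm (sqrtOf_sq' l)) hc
  refine ⟨fun i => τ i * c, fun i => by rw [map_mul, hρτ, hρc, one_mul], fun i n μ hμ => by
    rw [hval, commutator_fix_two_pow hc n hμ, hτμ i n μ hμ], fun N avoid M _ => ?_⟩
  obtain ⟨L, ζ, _, hML, hζ, hζL, hsL, hρL⟩ :=
    exists_level Fr M (max N 3) (Fr.T ∪ Finset.univ.image uq)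
  obtain ⟨q, P, φ, hinj, hq⟩ := exists_frobenius_agree (fun i => τ i * c)
    (avoid ∪ Finset.univ.image uq ∪ Fr.T ∪ {2}) L
  choose hqp hqav hP hφ hagree using hq
  simp only [Finset.mem_union, Finset.mem_singleton, not_or, Finset.mem_image, Finset.mem_univ,
    true_and] at hqav
  have hdvd : ∀ i, 2 ^ max N 3 ∣ q i - 1 := fun i =>
    dvd_sub_one_of_fix (hqp i) (hqav i).2 (hP i) (hφ i) hζ (by
      rw [hagree i ζ hζL, hval, commutator_fix_two_pow hc _ hζ.pow_eq_one,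
        hτμ i _ _ hζ.pow_eq_one])
  have h8 : ∀ i, q i % 8 = 1 := fun i => by
    have h := (pow_dvd_pow 2 (le_max_right N 3)).trans (hdvd i)
    have := (hqp i).one_le
    omega
  refine ⟨q, P, φ, hinj, fun i => ?_⟩
  haveI := Fact.mk (hqp i)
  have h4 : q i % 4 = 1 := by have := h8 i; omega
  have hne : ∀ j, q i ≠ uq j := fun j h => (hqav i).1.1.2 ⟨j, h.symm⟩
  have hsq : ∀ l, l.Prime → l ∈ Fr.T ∪ Finset.univ.image uq → q i ≠ l →
      (τ i (sqrtOf l) = sqrtOf l ↔ IsSquare (l : ZMod (q i))) := fun l hl hlS hql => by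
    rw [← frobenius_sqrt (hqp i) (hqav i).2 hl hql (hP i) (hφ i), hagree i _ (hsL _ hlS), hval, hc1]
  refine ⟨hqp i, h8 i, (pow_dvd_pow 2 (le_max_left N 3)).trans (hdvd i), (hqav i).1.1.1,
    (hqav i).1.2, hne, hP i, hφ i,
    by rw [map_eq_of_agree hρL (hagree i), map_mul, hρτ, hρc, one_mul],
    fun x hx => hagree i x (hML hx), fun l hl => ?_, fun j => ?_⟩
  · have hlp := Fr.prime_of_mem l hl
    haveI := Fact.mk hlp
    have h := (hsq l hlp (Finset.mem_union_left _ hl) fun h => (hqav i).1.2 (h ▸ hl)).mp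
      (hτfix i l hlp fun h => huT i (h ▸ hl))
    exact ⟨h, (ZMod.exists_sq_eq_prime_iff_of_mod_four_eq_one h4
      fun h => Fr.two_notMem (h ▸ hl)).mp h⟩
  · haveI := Fact.mk (hup j)
    have h : IsSquare (uq j : ZMod (q i)) ↔ j ≠ i := by
      rw [← hsq _ (hup j) (Finset.mem_union_right _ (Finset.mem_image_of_mem _ (Finset.mem_univ j)))
        (hne j)]
      rcases eq_or_ne j i with rfl | hji
      · rw [hτneg]
        exact iff_of_false (sqrtOf_ne_neg (hup j)) (not_not.mpr rfl)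
      · exact iff_of_true (hτfix i _ (hup j) fun h => hji (huinj h)) hji
    exact ⟨h, (ZMod.exists_sq_eq_prime_iff_of_mod_four_eq_one h4 (hu2 j)).symm.trans h⟩

/-- A prime `≡ 5 mod 8` with Frobenius of order three, agreeing with a fixed element. -/
theorem exists_five :
    ∃ σ0 : GQ, Fr.ρ σ0 = rotM ∧
      ∀ (avoid : Finset ℕ) (M : IntermediateField ℚ QBar) [FiniteDimensional ℚ M],
        ∃ (q : ℕ) (P : ValuationSubring QBar) (φ : GQ), q.Prime ∧ q % 8 = 5 ∧ q ∉ avoid ∧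
          P.LiesOverPrime q ∧ P.IsFrobeniusAt φ q ∧ Fr.ρ φ = rotM ∧ ∀ x ∈ M, φ x = σ0 x := by
  classical
  haveI : NeZero (2 ^ 3) := ⟨by norm_num⟩
  obtain ⟨ζ, hζ⟩ := HasEnoughRootsOfUnity.exists_primitiveRoot QBar (2 ^ 3)
  obtain ⟨σ, hσ⟩ := autToPow_surjective hζ (ZMod.unitOfCoprime 5 (by norm_num))
  have hσζ : σ ζ = ζ ^ 5 := by
    rw [← hζ.autToPow_spec ℚ σ, hσ, ZMod.coe_unitOfCoprime]
    rfl
  obtain ⟨t, ht, hρt⟩ := exists_transposition Fr
  obtain ⟨c, hc, hρc⟩ := exists_rot_commutator Fr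
  obtain ⟨j, k, hjk⟩ := image_shift _ (det_ρ Fr σ)
  have hρ : Fr.ρ (σ * t ^ (j : ℕ) * c ^ (k : ℕ)) = rotM := by
    rw [map_mul, map_mul, map_pow, map_pow, hρt, hρc, hjk]
  have htpow : ∀ (m n : ℕ) (μ : QBar), μ ^ 2 ^ n = 1 → (t ^ m) μ = μ := by
    intro m n μ hμ
    induction m with
    | zero => simp
    | succ m ih => rw [pow_succ, AlgEquiv.mul_apply, ht n μ hμ, ih]
  refine ⟨_, hρ, fun avoid M _ => ?_⟩
  obtain ⟨L₁, ζ', _, hML, -, -, -, hρL⟩ := exists_level Fr M 0 ∅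
  haveI : FiniteDimensional ℚ (IntermediateField.adjoin ℚ {ζ}) :=
    IntermediateField.adjoin.finiteDimensional (Algebra.IsIntegral.isIntegral ζ)
  obtain ⟨q, P, φ, -, hq⟩ := exists_frobenius_agree (fun _ : Unit => σ * t ^ (j : ℕ) * c ^ (k : ℕ))
    (avoid ∪ {2}) (L₁ ⊔ IntermediateField.adjoin ℚ {ζ})
  obtain ⟨hqp, hqav, hP, hφ, hagree⟩ := hq ()
  simp only [Finset.mem_union, Finset.mem_singleton, not_or] at hqav
  have hL : ∀ x ∈ L₁, x ∈ L₁ ⊔ IntermediateField.adjoin ℚ {ζ} := fun x hx =>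
    (le_sup_left : L₁ ≤ _) hx
  refine ⟨q (), P (), φ (), hqp, ?_, hqav.1, hP, hφ, ?_, fun x hx => hagree x (hL x (hML hx))⟩
  · have h := frobenius_root hP hqp hφ hζ.pow_eq_one fun h =>
      hqav.2 ((Nat.prime_dvd_prime_iff_eq hqp Nat.prime_two).mp (hqp.dvd_of_dvd_pow h))
    rw [hagree ζ ((le_sup_right : IntermediateField.adjoin ℚ {ζ} ≤ L₁ ⊔ _)
      (IntermediateField.mem_adjoin_simple_self ℚ ζ)), AlgEquiv.mul_apply, AlgEquiv.mul_apply,
      commutator_fix_two_pow (pow_mem hc _) _ hζ.pow_eq_one, htpow _ _ _ hζ.pow_eq_one, hσζ] at h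
    have h1 := natCast_eq_of_pow_eq hζ h.symm
    have h2 : q () % 8 = 5 % 8 := (ZMod.natCast_eq_natCast_iff _ _ _).mp h1
    exact h2
  · rw [map_eq_of_agree hρL fun x hx => hagree x (hL x hx), hρ]

/-! ### Classes with values in `V` -/

theorem inV_zero_of_10 : ∀ X : M2F, InV X → X 1 0 = 0 → (rotM * X * rotM ^ 2) 1 0 = 0 → X = 0 := by
  unfold InV; decide

theorem rot_fixed : ∀ X : M2F, InV X → rotM * X * rotM ^ 2 = X → X = 0 := by
  unfold InV; decide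

theorem rot_sq_fixed : ∀ X : M2F, InV X → rotM ^ 2 * X * rotM = X → X = 0 := by
  unfold InV; decide

theorem rot_cobd_surjective : ∀ Y : M2F, InV Y → ∃ X, InV X ∧ rotM * X * rotM ^ 2 - X = Y := by
  unfold InV; decide

theorem refM_cobd : ∀ X : M2F, InV X → (refM * X * refM - X) 1 0 = 0 := by
  unfold InV; decide

theorem inV_conj : ∀ (A X : M2F), A.det = 1 → InV X →
    InV (A * X * !![A 1 1, A 0 1; A 1 0, A 0 0]) := by
  unfold InV; decide

theorem inv_eq_swap : ∀ A B : M2F, A * B = 1 → B = !![A 1 1, A 0 1; A 1 0, A 0 0] := by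
  intro A B h
  have h2 : !![A 1 1, A 0 1; A 1 0, A 0 0] * A = 1 := by
    have h3 : ∀ A : M2F, A.det = 1 → !![A 1 1, A 0 1; A 1 0, A 0 0] * A = 1 := by decide
    exact h3 A (det_eq_one_of_mul h)
  calc B = !![A 1 1, A 0 1; A 1 0, A 0 0] * A * B := by rw [h2, one_mul]
    _ = _ := by rw [mul_assoc, h, mul_one]

theorem inV_ρ_conj (g : GQ) {X : M2F} (hX : InV X) : InV (Fr.ρ g * X * Fr.ρ g⁻¹) := by
  rw [inv_eq_swap _ _ (ρ_mul_inv Fr g)]
  exact inV_conj _ X (det_ρ Fr g) hX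

theorem inV_sub {X Y : M2F} (hX : InV X) (hY : InV Y) : InV (X - Y) := by
  simp only [InV, Matrix.sub_apply] at *
  obtain ⟨h1, h2⟩ := hX
  obtain ⟨h3, h4⟩ := hY
  exact ⟨by rw [h1, h3], by rw [h2, h4]; abel⟩

theorem inV_sum {ι : Type} [Fintype ι] (e : ι → ZMod 2) (X : ι → M2F) (hX : ∀ i, InV (X i)) :
    InV (∑ i, e i • X i) := by
  simp only [InV, Matrix.sum_apply, Matrix.smul_apply]
  refine ⟨Finset.sum_congr rfl fun i _ => by rw [(hX i).1], ?_⟩
  rw [← Finset.sum_add_distrib]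
  exact Finset.sum_congr rfl fun i _ => by rw [(hX i).2, smul_add]

theorem cobdLin_refM_10 {X : M2F} (hX : InV X) {g : GQ} (hg : Fr.ρ g = refM) :
    cobdLin Fr.ρ X g 1 0 = 0 := by
  rw [cobdLin_apply, hg, ρ_inv_refM Fr hg]
  exact refM_cobd X hX

/-- A class in `V` killed by the commutators in `ker ρ` is a coboundary from `V`. -/
theorem eq_cobd_of_vanish {c : GQ → M2F} (hc : IsAdCocycle Fr.ρ c) (hV : ∀ σ, InV (c σ))
    (h0 : ∀ γ ∈ commutator GQ ⊓ Fr.ρ.ker, c γ 1 0 = 0) :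
    ∃ X, InV X ∧ c = cobdLin Fr.ρ X := by
  obtain ⟨g0, hg0⟩ := Fr.rot_mem
  have hg0' := ρ_inv_rotM Fr hg0
  have hone : c 1 = 0 := by simpa using hc 1 1
  have hconj : ∀ γ, Fr.ρ γ = 1 → ∀ g, c (g * γ * g⁻¹) = Fr.ρ g * c γ * Fr.ρ g⁻¹ := by
    intro γ hγ g
    have h1 : c (g * γ * g⁻¹) = Fr.ρ g * c (γ * g⁻¹) * Fr.ρ g⁻¹ + c g := by rw [mul_assoc, hc]
    have hγi : Fr.ρ γ⁻¹ = 1 := by have h := ρ_mul_inv Fr γ; rwa [hγ, one_mul] at h
    have h2 : c (γ * g⁻¹) = c g⁻¹ + c γ := by rw [hc, hγ, hγi, one_mul, mul_one]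
    have h3 : Fr.ρ g * c g⁻¹ * Fr.ρ g⁻¹ + c g = 0 := by
      rw [← hc, mul_inv_cancel, hone]
    rw [h1, h2, mul_add, add_mul, add_right_comm, h3, zero_add]
  have hH : ∀ γ ∈ commutator GQ ⊓ Fr.ρ.ker, c γ = 0 := fun γ hγ => by
    refine inV_zero_of_10 _ (hV γ) (h0 γ hγ) ?_
    have h := h0 _ ((inferInstance : (commutator GQ ⊓ Fr.ρ.ker).Normal).conj_mem γ hγ g0)
    rwa [hconj γ hγ.2 g0, hg0, hg0'] at h
  have hker : ∀ γ, Fr.ρ γ = 1 → c γ = 0 := fun γ hγ => by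
    have hγi : Fr.ρ γ⁻¹ = 1 := by have h := ρ_mul_inv Fr γ; rwa [hγ, one_mul] at h
    have hmem : g0 * γ * g0⁻¹ * γ⁻¹ ∈ commutator GQ ⊓ Fr.ρ.ker := by
      refine ⟨?_, MonoidHom.mem_ker.mpr ?_⟩
      · rw [← commutatorElement_def]
        exact Subgroup.commutator_mem_commutator (Subgroup.mem_top _) (Subgroup.mem_top _)
      · rw [map_mul, map_mul, map_mul, hγi, hγ, mul_one, mul_one, ρ_mul_inv]
    have h1 : c (g0 * γ * g0⁻¹) = c γ := by
      have h2 := hc (g0 * γ * g0⁻¹ * γ⁻¹) γ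
      rw [inv_mul_cancel_right, MonoidHom.mem_ker.mp hmem.2, hH _ hmem, add_zero,
        MonoidHom.mem_ker.mp (Fr.ρ.ker.inv_mem hmem.2), one_mul, mul_one] at h2
      exact h2
    rw [hconj γ hγ g0, hg0, hg0'] at h1
    exact rot_fixed _ (hV γ) h1
  obtain ⟨X, hX, hXeq⟩ := rot_cobd_surjective _ (hV g0)
  refine ⟨X, hX, ?_⟩
  set d : GQ → M2F := c - cobdLin Fr.ρ X with hd
  suffices h : ∀ g, d g = 0 from funext fun g => sub_eq_zero.mp (h g)
  have hdc : IsAdCocycle Fr.ρ d := fun g g' => by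
    simp only [hd, Pi.sub_apply, hc g g', isAdCocycle_cobdLin (r := Fr.ρ) X g g', mul_sub, sub_mul]
    abel
  have hdV : ∀ g, InV (d g) := fun g => by
    rw [hd, Pi.sub_apply, cobdLin_apply]
    exact inV_sub (hV g) (inV_sub (inV_ρ_conj Fr g hX) hX)
  have hdk : ∀ γ, Fr.ρ γ = 1 → d γ = 0 := fun γ hγ => by
    have hγi : Fr.ρ γ⁻¹ = 1 := by have h := ρ_mul_inv Fr γ; rwa [hγ, one_mul] at h
    rw [hd, Pi.sub_apply, hker γ hγ, cobdLin_apply, hγ, hγi, one_mul, mul_one, sub_self, sub_self]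
  have hd0 : d g0 = 0 := by
    rw [hd, Pi.sub_apply, cobdLin_apply, hg0, hg0', hXeq, sub_self]
  have hdpow : ∀ e : ℕ, d (g0 ^ e) = 0 := by
    intro e
    induction e with
    | zero =>
      rw [pow_zero]
      exact hdk 1 (map_one _)
    | succ e ih => rw [pow_succ, hdc, hd0, ih, mul_zero, zero_mul, add_zero]
  intro g
  have hρh : ∃ e : ℕ, (e = 1 ∨ e = 2) ∧ Fr.ρ (g * g0 * g⁻¹) = rotM ^ e := by
    have key : ∀ A : M2F, A.det = 1 → A * rotM * !![A 1 1, A 0 1; A 1 0, A 0 0] = rotM ^ 1 ∨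
        A * rotM * !![A 1 1, A 0 1; A 1 0, A 0 0] = rotM ^ 2 := by decide
    rw [map_mul, map_mul, hg0, inv_eq_swap _ _ (ρ_mul_inv Fr g)]
    rcases key _ (det_ρ Fr g) with h | h
    exacts [⟨1, Or.inl rfl, h⟩, ⟨2, Or.inr rfl, h⟩]
  obtain ⟨e, he12, he⟩ := hρh
  have hrk : Fr.ρ ((g0 ^ e)⁻¹ * (g * g0 * g⁻¹)) = 1 := by
    rw [map_mul, he, ← hg0, ← map_pow, ← map_mul, inv_mul_cancel, map_one]
  have hdh : d (g * g0 * g⁻¹) = 0 := by
    have h := hdc (g0 ^ e) ((g0 ^ e)⁻¹ * (g * g0 * g⁻¹))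
    rwa [mul_inv_cancel_left, hdpow, hdk _ hrk, mul_zero, zero_mul, add_zero] at h
  have h := hdc (g * g0 * g⁻¹) g
  rw [inv_mul_cancel_right, hdc g g0, hd0, hdh, mul_zero, zero_mul, zero_add, add_zero] at h
  rcases he12 with rfl | rfl
  · have hi : Fr.ρ (g * g0 * g⁻¹)⁻¹ = rotM ^ 2 :=
      ρ_inv_rotM Fr (by rw [he, pow_one])
    rw [he, hi, pow_one] at h
    exact rot_fixed _ (hdV g) h.symm
  · have hi : Fr.ρ (g * g0 * g⁻¹)⁻¹ = rotM := by
      calc Fr.ρ (g * g0 * g⁻¹)⁻¹ = rotM * (rotM ^ 2 * Fr.ρ (g * g0 * g⁻¹)⁻¹) := by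
            rw [← mul_assoc, ← pow_succ', rotM_pow_three, one_mul]
        _ = rotM := by rw [← he, ρ_mul_inv, mul_one]
    rw [he, hi] at h
    exact rot_sq_fixed _ (hdV g) h.symm

/-- Transpositions fixing the two power roots of unity, dual to a basis of the classes of `IsSV`. -/
theorem exists_uElements {n : ℕ} (cs : Fin n → GQ → M2F) (hcs : ∀ i, IsSV Fr (cs i))
    (hind : ∀ (e : Fin n → ZMod 2) (X : M2F), InV X →
      ∑ i, e i • cs i = cobdLin Fr.ρ X → e = 0) :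
    ∃ σU : Fin n → GQ, (∀ j, Fr.ρ (σU j) = refM) ∧
      (∀ j (m : ℕ) (μ : QBar), μ ^ 2 ^ m = 1 → σU j μ = μ) ∧
      ∀ i j, cs i (σU j) 1 0 = if i = j then 1 else 0 := by
  classical
  obtain ⟨t, ht, hρt⟩ := exists_transposition Fr
  set H := commutator GQ ⊓ Fr.ρ.ker with hH
  let v : H → (Fin n → ZMod 2) := fun γ i => cs i γ.1 1 0
  have hHρ : ∀ γ : H, Fr.ρ γ.1 = 1 ∧ Fr.ρ γ.1⁻¹ = 1 := fun γ =>
    ⟨γ.2.2, Fr.ρ.ker.inv_mem γ.2.2⟩
  have hvadd : ∀ γ δ : H, v (γ * δ) = v γ + v δ := fun γ δ => funext fun i => by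
    show cs i (γ.1 * δ.1) 1 0 = cs i γ.1 1 0 + cs i δ.1 1 0
    rw [(hcs i).vCocycle.cocycle, (hHρ γ).1, (hHρ γ).2, one_mul, mul_one, Matrix.add_apply,
      add_comm]
  let f : Additive H →+ (Fin n → ZMod 2) :=
    AddMonoidHom.mk' (fun γ => v γ.toMul) fun γ δ => hvadd _ _
  have hsurj : ∀ w, ∃ γ : H, v γ = w := by
    suffices h : AddSubgroup.toZModSubmodule 2 f.range = ⊤ by
      intro w
      have hw : w ∈ AddSubgroup.toZModSubmodule 2 f.range := h ▸ Submodule.mem_top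
      obtain ⟨γ, hγ⟩ := hw
      exact ⟨γ.toMul, hγ⟩
    by_contra hne
    obtain ⟨g, hg0, hg⟩ := Submodule.exists_le_ker_of_lt_top _ (lt_top_iff_ne_top.mpr hne)
    set e : Fin n → ZMod 2 := fun i => g (Pi.single i 1) with he
    have hge : ∀ w, g w = ∑ i, e i * w i := fun w => by
      conv_lhs => rw [pi_eq_sum_univ' w]
      rw [map_sum]
      exact Finset.sum_congr rfl fun i _ => by rw [map_smul, smul_eq_mul, mul_comm]
    have hcoc : IsAdCocycle Fr.ρ (∑ i, e i • cs i) := fun a b => by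
      simp only [Finset.sum_apply, Pi.smul_apply, Finset.mul_sum, Finset.sum_mul,
        ← Finset.sum_add_distrib, mul_smul_comm, smul_mul_assoc, ← smul_add,
        ← (hcs _).vCocycle.cocycle a b]
    obtain ⟨X, hX, hXeq⟩ := eq_cobd_of_vanish Fr hcoc (fun σ => by
        rw [Finset.sum_apply]
        exact inV_sum e _ fun i => (hcs i).vCocycle.inV σ) fun γ hγ => by
      have h : g (v ⟨γ, hγ⟩) = 0 :=
        LinearMap.mem_ker.mp (hg ⟨Additive.ofMul ⟨γ, hγ⟩, rfl⟩)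
      rw [hge] at h
      rw [Finset.sum_apply, Matrix.sum_apply]
      exact h
    have h0 := hind e X hX hXeq
    exact hg0 (LinearMap.ext fun w => by simp [hge w, h0])
  choose γ hγ using fun j : Fin n =>
    hsurj (fun i => (if i = j then 1 else 0) + cs i t 1 0)
  have hσρ : ∀ j, Fr.ρ ((γ j).1 * t) = refM := fun j => by
    rw [map_mul, (hHρ _).1, one_mul, hρt]
  have hσμ : ∀ j (m : ℕ) (μ : QBar), μ ^ 2 ^ m = 1 → ((γ j).1 * t) μ = μ := fun j m μ hμ => by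
    rw [AlgEquiv.mul_apply, ht m μ hμ, commutator_fix_two_pow (γ j).2.1 m hμ]
  have hval : ∀ i j, cs i ((γ j).1 * t) 1 0 = if i = j then 1 else 0 := fun i j => by
    have h := congrFun (hγ j) i
    rw [(hcs i).vCocycle.cocycle, (hHρ _).1, (hHρ _).2, one_mul, mul_one, Matrix.add_apply]
    simp only [v] at h
    rw [h, add_left_comm, CharTwo.add_self_eq_zero, add_zero]
  exact ⟨fun j => (γ j).1 * t, hσρ, hσμ, hval⟩

/-- Primes with Frobenius agreeing with given dual transpositions. -/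
theorem uPrimes_of_elements {n : ℕ} (cs : Fin n → GQ → M2F) (hcs : ∀ i, IsSV Fr (cs i))
    (hspan : ∀ c, IsSV Fr c →
      ∃ (e : Fin n → ZMod 2) (X : M2F), InV X ∧ c = ∑ i, e i • cs i + cobdLin Fr.ρ X)
    (σU : Fin n → GQ) (hρU : ∀ j, Fr.ρ (σU j) = refM)
    (hμ : ∀ j (m : ℕ) (μ : QBar), μ ^ 2 ^ m = 1 → σU j μ = μ)
    (hval : ∀ i j, cs i (σU j) 1 0 = if i = j then 1 else 0)
    (N : ℕ) (avoid : Finset ℕ) (M : IntermediateField ℚ QBar) [FiniteDimensional ℚ M] :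
    ∃ U : UPrimes Fr (Fin n),
      ∀ j, 2 ^ N ∣ U.q j - 1 ∧ U.q j ∉ avoid ∧ ∀ x ∈ M, U.φ j x = σU j x := by
  classical
  choose Lc hLc hLc' using fun i => (hcs i).vCocycle.finiteLevel
  obtain ⟨L, ζ, _, hML, hζ, hζL, -, hρL⟩ := exists_level Fr (M ⊔ ⨆ i, Lc i) (max N 2) ∅
  obtain ⟨q, P, φ, hinj, hq⟩ :=
    exists_frobenius_agree σU (avoid ∪ Fr.T ∪ {2}) L
  choose hqp hqav hP hφ hagree using hq
  simp only [Finset.mem_union, Finset.mem_singleton, not_or] at hqav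
  have hdvd : ∀ i, 2 ^ max N 2 ∣ q i - 1 := fun i =>
    dvd_sub_one_of_fix (hqp i) (hqav i).2 (hP i) (hφ i) hζ (by
      rw [hagree i ζ hζL, hμ i _ _ hζ.pow_eq_one])
  have h4 : ∀ i, q i % 4 = 1 := fun i => by
    have h := (pow_dvd_pow 2 (le_max_right N 2)).trans (hdvd i)
    have := (hqp i).one_le
    omega
  have hρφ : ∀ i, Fr.ρ (φ i) = refM := fun i => by rw [map_eq_of_agree hρL (hagree i), hρU]
  have hcφ : ∀ i j, cs i (φ j) 1 0 = if i = j then 1 else 0 := fun i j => by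
    rw [(hcs i).vCocycle.cocycle.eq_of_agree (hLc' i) fun x hx => hagree j x
      (hML ((le_sup_right : (⨆ i, Lc i) ≤ M ⊔ _) (le_iSup Lc i hx))), hval]
  refine ⟨⟨q, hqp, hinj, h4, fun i => (hqav i).1.2, P, hP, φ, hφ, hρφ, fun i => ?_, ?_⟩,
    fun i => ⟨(pow_dvd_pow 2 (le_max_left N 2)).trans (hdvd i), (hqav i).1.1,
      fun x hx => hagree i x (hML ((le_sup_left : M ≤ _) hx))⟩⟩
  · refine ⟨cs i, hcs i, by rw [hcφ, if_pos rfl], fun j hj => ?_⟩
    rw [hcφ, if_neg (Ne.symm hj)]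
  · intro c hc hzero
    obtain ⟨e, X, hX, rfl⟩ := hspan c hc
    refine ⟨X, hX, ?_⟩
    have he : e = 0 := funext fun j => by
      have h := hzero j
      rw [Pi.add_apply, Matrix.add_apply, cobdLin_refM_10 Fr hX (hρφ j), add_zero,
        Finset.sum_apply, Matrix.sum_apply] at h
      simpa [hcφ] using h
    simp [he]

/-- Primes with Frobenius a transposition dual to a basis of the classes of `IsSV`. -/
theorem exists_uPrimes {n : ℕ} (cs : Fin n → GQ → M2F) (hcs : ∀ i, IsSV Fr (cs i))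
    (hspan : ∀ c, IsSV Fr c →
      ∃ (e : Fin n → ZMod 2) (X : M2F), InV X ∧ c = ∑ i, e i • cs i + cobdLin Fr.ρ X)
    (hind : ∀ (e : Fin n → ZMod 2) (X : M2F), InV X →
      ∑ i, e i • cs i = cobdLin Fr.ρ X → e = 0) :
    ∃ σU : Fin n → GQ, (∀ j, Fr.ρ (σU j) = refM) ∧
      (∀ j (m : ℕ) (μ : QBar), μ ^ 2 ^ m = 1 → σU j μ = μ) ∧
      (∀ i j, cs i (σU j) 1 0 = if i = j then 1 else 0) ∧
      ∀ (N : ℕ) (avoid : Finset ℕ) (M : IntermediateField ℚ QBar) [FiniteDimensional ℚ M],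
        ∃ U : UPrimes Fr (Fin n),
          ∀ j, 2 ^ N ∣ U.q j - 1 ∧ U.q j ∉ avoid ∧ ∀ x ∈ M, U.φ j x = σU j x := by
  obtain ⟨σU, h1, h2, h3⟩ := exists_uElements Fr cs hcs hind
  exact ⟨σU, h1, h2, h3, fun N avoid M _ => uPrimes_of_elements Fr cs hcs hspan σU h1 h2 h3 N avoid M⟩

end Fermat.Agent.TwoAdic.Selmer.Select
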