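import Fermat.Agent.TwoAdic.Selmer.Defs
import Fermat.Agent.CFT.TWPrimes.Main
import Mathlib.NumberTheory.LegendreSymbol.QuadraticReciprocity

/-!
# Elements with prescribed residual image for the choice of auxiliary primes

Elements of the Galois group fixing the `2`-power roots of unity with a prescribed image under the
residual representation and prescribed action on square roots of the primes in `T`; primes whose
Frobenius agrees with given elements on a finite level; the action of a Frobenius on `√l`.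
-/

set_option autoImplicit false
set_option linter.style.haveILetI false

noncomputable section

namespace Fermat.Agent.TwoAdic.Selmer.Select

open Fermat.Agent.Deform Fermat.Agent.Arith Fermat.Agent.Arith.Chebotarev

/-! ### Finite facts on two by two matrices over `F₂` -/

theorem rotM_pow_three : rotM ^ 3 = 1 := by decide

theorem refM_mul_refM : refM * refM = 1 := by decide

theorem mul_inv_refM {A B : M2F} (h : A * B = 1) (hA : A = refM) : B = refM := by
  rw [hA] at h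
  calc B = refM * refM * B := by rw [refM_mul_refM, one_mul]
    _ = refM := by rw [mul_assoc, h, mul_one]

theorem transposition_conj : ∀ A : M2F, A.det = 1 → A.trace = 0 → A ≠ 1 →
    ∃ k : Fin 3, rotM ^ (k : ℕ) * A * rotM ^ (3 - (k : ℕ)) = refM := by
  decide

theorem rotation_shift : ∀ A : M2F, A.det = 1 → (A = 1 ∨ A.trace = 1) →
    ∃ k : Fin 3, A * rotM ^ (k : ℕ) = rotM := by
  decide

theorem image_shift : ∀ A : M2F, A.det = 1 →
    ∃ j : Fin 2, ∃ k : Fin 3, A * refM ^ (j : ℕ) * rotM ^ (k : ℕ) = rotM := by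
  decide

theorem det_eq_one_of_mul : ∀ {A B : M2F}, A * B = 1 → A.det = 1 := by
  intro A B h
  have h1 : A.det * B.det = 1 := by rw [← Matrix.det_mul, h, Matrix.det_one]
  have h2 : ∀ a b : ZMod 2, a * b = 1 → a = 1 := by decide
  exact h2 _ _ h1

variable (Fr : Frame)

theorem ρ_mul_inv (g : GQ) : Fr.ρ g * Fr.ρ g⁻¹ = 1 := by rw [← map_mul, mul_inv_cancel, map_one]

theorem det_ρ (g : GQ) : (Fr.ρ g).det = 1 := det_eq_one_of_mul (ρ_mul_inv Fr g)

theorem ρ_inv_refM {g : GQ} (h : Fr.ρ g = refM) : Fr.ρ g⁻¹ = refM :=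
  mul_inv_refM (ρ_mul_inv Fr g) h

theorem ρ_inv_rotM {g : GQ} (h : Fr.ρ g = rotM) : Fr.ρ g⁻¹ = rotM ^ 2 := by
  calc Fr.ρ g⁻¹ = rotM ^ 2 * (rotM * Fr.ρ g⁻¹) := by
        rw [← mul_assoc, ← pow_succ, rotM_pow_three, one_mul]
    _ = rotM ^ 2 := by rw [← h, ρ_mul_inv, mul_one]

/-! ### Commutators -/

/-- A commutator fixes an element whose conjugates are permuted commutatively. -/
theorem commutator_fix {x : QBar} (hx : ∀ σ τ : GQ, σ (τ x) = τ (σ x)) {c : GQ}
    (hc : c ∈ commutator GQ) : c x = x := by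
  have hle : commutator GQ ≤ MulAction.stabilizer GQ x := by
    rw [commutator_def, Subgroup.commutator_le]
    intro σ _ τ _
    rw [MulAction.mem_stabilizer_iff, AlgEquiv.smul_def, commutatorElement_def,
      AlgEquiv.mul_apply, AlgEquiv.mul_apply, AlgEquiv.mul_apply, hx σ⁻¹ τ⁻¹,
      ← AlgEquiv.mul_apply τ τ⁻¹, mul_inv_cancel, AlgEquiv.one_apply,
      ← AlgEquiv.mul_apply σ σ⁻¹, mul_inv_cancel, AlgEquiv.one_apply]
  exact hle hc

/-- The Galois group permutes the roots of unity commutatively. -/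
theorem root_comm {m : ℕ} (hm : 0 < m) {μ : QBar} (hμ : μ ^ m = 1) (σ τ : GQ) :
    σ (τ μ) = τ (σ μ) := by
  haveI : NeZero m := ⟨hm.ne'⟩
  obtain ⟨ζ, hζ⟩ := HasEnoughRootsOfUnity.exists_primitiveRoot QBar m
  obtain ⟨i, -, rfl⟩ := hζ.eq_pow_of_pow_eq_one hμ
  simp only [map_pow]
  congr 1
  obtain ⟨a, ha⟩ : ∃ a : ℕ, σ ζ = ζ ^ a := ⟨_, (hζ.autToPow_spec ℚ σ).symm⟩
  obtain ⟨b, hb⟩ : ∃ b : ℕ, τ ζ = ζ ^ b := ⟨_, (hζ.autToPow_spec ℚ τ).symm⟩
  rw [ha, hb, map_pow, map_pow, ha, hb, ← pow_mul, ← pow_mul, mul_comm]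

/-- An automorphism sends a square root of an integer to itself or its negative. -/
theorem map_sqrt {y : QBar} {a : ℤ} (hy : y ^ 2 = (a : QBar)) (σ : GQ) : σ y = y ∨ σ y = -y :=
  sq_eq_sq_iff_eq_or_eq_neg.mp (by rw [← map_pow, hy, map_intCast])

theorem sqrt_comm {y : QBar} {a : ℤ} (hy : y ^ 2 = (a : QBar)) (σ τ : GQ) :
    σ (τ y) = τ (σ y) := by
  rcases map_sqrt hy σ with h | h <;> rcases map_sqrt hy τ with h' | h' <;>
    simp [h, h', map_neg]

/-- A commutator with image the rotation. -/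
theorem exists_rot_commutator : ∃ c ∈ commutator GQ, Fr.ρ c = rotM := by
  obtain ⟨g, hg⟩ := Fr.rot_mem
  refine ⟨Fr.σ2 * g * Fr.σ2⁻¹ * g⁻¹, ?_, ?_⟩
  · rw [← commutatorElement_def]
    exact Subgroup.commutator_mem_commutator (Subgroup.mem_top _) (Subgroup.mem_top _)
  · rw [map_mul, map_mul, map_mul, ρ_inv_refM Fr Fr.ρ_σ2, ρ_inv_rotM Fr hg, hg, Fr.ρ_σ2]
    decide

/-- A commutator fixes the roots of unity of two power order. -/
theorem commutator_fix_two_pow {c : GQ} (hc : c ∈ commutator GQ) (n : ℕ) {μ : QBar}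
    (hμ : μ ^ 2 ^ n = 1) : c μ = μ :=
  commutator_fix (root_comm (by positivity) hμ) hc

/-! ### Inertia at the primes of `T` -/

/-- Inertia at `l` fixes a square root of an integer prime to `2 l`. -/
theorem inertia_fix_sqrt {l : ℕ} (hl : l.Prime) (hl2 : l ≠ 2) {A : ValuationSubring QBar}
    (hA : A.LiesOverPrime l) {σ : GQ} (hσ : σ ∈ A.inertiaSubgroupIn ℚ) {y : QBar} {a : ℤ}
    (hy : y ^ 2 = (a : QBar)) (ha : ¬ (l : ℤ) ∣ a) : σ y = y := by
  refine (map_sqrt hy σ).resolve_right fun h => ?_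
  have hint : IsIntegral ℤ y :=
    IsIntegral.of_pow two_pos (hy ▸ by simpa using isIntegral_algebraMap (R := ℤ) (A := QBar) (x := a))
  have hm := (mem_inertia_iff hA hl).mp hσ y hint
  have hm2 : ((4 * a : ℤ) : QBar) ∈ A.nonunits := by
    have h2 := nonunits_mul_left (mem_of_mem_nonunits hm) hm
    rw [h] at h2
    push_cast
    rw [← hy]
    convert h2 using 1
    ring
  rcases Int.Prime.dvd_mul' hl ((intCast_mem_nonunits_iff hA hl _).mp hm2) with h4 | h4
  · have h4' : l ∣ 2 ^ 2 := by exact_mod_cast h4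
    exact hl2 ((Nat.prime_dvd_prime_iff_eq hl Nat.prime_two).mp (hl.dvd_of_dvd_pow h4'))
  · exact ha h4

/-- A square root of a prime. -/
def sqrtOf (l : ℕ) : QBar := (IsAlgClosed.exists_pow_nat_eq (l : QBar) two_pos).choose

theorem sqrtOf_sq (l : ℕ) : sqrtOf l ^ 2 = (l : QBar) :=
  (IsAlgClosed.exists_pow_nat_eq (l : QBar) two_pos).choose_spec

theorem sqrtOf_sq' (l : ℕ) : sqrtOf l ^ 2 = ((l : ℤ) : QBar) := by
  rw [sqrtOf_sq, Int.cast_natCast]

theorem sqrtOf_ne_zero {l : ℕ} (hl : l.Prime) : sqrtOf l ≠ 0 := fun h =>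
  hl.ne_zero (by exact_mod_cast show (l : QBar) = 0 by rw [← sqrtOf_sq l, h, zero_pow two_ne_zero])

theorem sqrtOf_ne_neg {l : ℕ} (hl : l.Prime) : -sqrtOf l ≠ sqrtOf l := fun h =>
  sqrtOf_ne_zero hl (neg_eq_self.mp h)

/-- An element moving `√l` alone among the square roots of the primes of `T`. -/
theorem exists_move {l : ℕ} (hl : l ∈ Fr.T) :
    ∃ τ : GQ, (∀ (n : ℕ) (μ : QBar), μ ^ 2 ^ n = 1 → τ μ = μ) ∧
      τ (sqrtOf l) = -sqrtOf l ∧ (∀ l', l'.Prime → l' ≠ l → τ (sqrtOf l') = sqrtOf l') ∧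
      τ Fr.root = -Fr.root ∧
      ∃ A : ValuationSubring QBar, A.LiesOverPrime l ∧ τ ∈ A.inertiaSubgroupIn ℚ := by
  have hlp := Fr.prime_of_mem l hl
  have hl2 : l ≠ 2 := fun h => Fr.two_notMem (h ▸ hl)
  obtain ⟨A, hA⟩ := exists_liesOverPrime hlp
  obtain ⟨τ, hτ, hne⟩ := Mazur.Eisenstein.exists_inertia_ne hA hlp Nat.prime_two (sqrtOf_sq l)
  have hneg : τ (sqrtOf l) = -sqrtOf l := (map_sqrt (sqrtOf_sq' l) τ).resolve_left hne
  refine ⟨τ, fun n μ hμ => inertia_root hA hlp hτ hμ fun h =>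
      hl2 ((Nat.prime_dvd_prime_iff_eq hlp Nat.prime_two).mp (hlp.dvd_of_dvd_pow h)),
    hneg, fun l' hl' hne' => inertia_fix_sqrt hlp hl2 hA hτ (sqrtOf_sq' l') fun h =>
      hne' ((Nat.prime_dvd_prime_iff_eq hlp hl').mp (Int.natCast_dvd_natCast.mp h)).symm, ?_,
      A, hA, hτ⟩
  have hs0 := sqrtOf_ne_zero hlp
  set z := Fr.root / sqrtOf l with hz
  have hz2 : z ^ 2 = ((-2 * ∏ q ∈ Fr.T.erase l, (q : ℤ) : ℤ) : QBar) := by
    have hl0 : (l : QBar) ≠ 0 := Nat.cast_ne_zero.mpr hlp.ne_zero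
    rw [hz, div_pow, Fr.root_sq, sqrtOf_sq, div_eq_iff hl0,
      ← Finset.prod_erase_mul _ _ hl, ← mul_assoc]
    push_cast
    ring
  have hfix : τ z = z := by
    refine inertia_fix_sqrt hlp hl2 hA hτ hz2 fun h => ?_
    rcases Int.Prime.dvd_mul' hlp h with h | h
    · have h' : (l : ℤ) ∣ 2 := by simpa using h
      exact hl2 ((Nat.prime_dvd_prime_iff_eq hlp Nat.prime_two).mp (by exact_mod_cast h'))
    · obtain ⟨q, hq, hdvd⟩ := (Prime.dvd_finsetProd_iff (Nat.prime_iff_prime_int.mp hlp) _).mp h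
      exact (Finset.mem_erase.mp hq).1 ((Nat.prime_dvd_prime_iff_eq hlp
        (Fr.prime_of_mem q (Finset.mem_erase.mp hq).2)).mp (Int.natCast_dvd_natCast.mp hdvd)).symm
  have hroot : Fr.root = z * sqrtOf l := by rw [hz, div_mul_cancel₀ _ hs0]
  rw [hroot, map_mul, hfix, hneg, mul_neg]

theorem root_ne_zero : Fr.root ≠ 0 := fun h => by
  have h1 := Fr.root_sq
  rw [h, zero_pow two_ne_zero, eq_comm, mul_eq_zero] at h1
  rcases h1 with h1 | h1
  · norm_num at h1
  · obtain ⟨q, hq, hq0⟩ := Finset.prod_eq_zero_iff.mp h1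
    exact (Fr.prime_of_mem q hq).ne_zero (by exact_mod_cast hq0)

/-- An element fixing the two power roots of unity with image `refM`. -/
theorem exists_transposition :
    ∃ t : GQ, (∀ (n : ℕ) (μ : QBar), μ ^ 2 ^ n = 1 → t μ = μ) ∧ Fr.ρ t = refM := by
  obtain ⟨l, hl, -⟩ := Fr.exists_three_five
  obtain ⟨τ, hτ, -, -, hroot, -⟩ := exists_move Fr hl
  have hne : ¬ (Fr.ρ τ = 1 ∨ (Fr.ρ τ).trace = 1) := fun h => by
    have h' := (Fr.root_iff τ).mpr h
    rw [hroot] at h'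
    exact root_ne_zero Fr (neg_eq_self.mp h')
  rw [not_or] at hne
  have h01 : ∀ a : ZMod 2, a = 0 ∨ a = 1 := by decide
  obtain ⟨k, hk⟩ := transposition_conj _ (det_ρ Fr τ) ((h01 _).resolve_right hne.2) hne.1
  obtain ⟨c, hc, hρc⟩ := exists_rot_commutator Fr
  refine ⟨c ^ (k : ℕ) * τ * c ^ (3 - (k : ℕ)), fun n μ hμ => ?_, ?_⟩
  · rw [AlgEquiv.mul_apply, AlgEquiv.mul_apply, commutator_fix_two_pow (pow_mem hc _) n hμ,
      hτ n μ hμ, commutator_fix_two_pow (pow_mem hc _) n hμ]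
  · rw [map_mul, map_mul, map_pow, map_pow, hρc, hk]

/-- An element with trivial image moving `√u` alone, for an odd prime `u` outside `T`. -/
theorem exists_move_off {u : ℕ} (hu : u.Prime) (hu2 : u ≠ 2) (huT : u ∉ Fr.T) :
    ∃ τ : GQ, Fr.ρ τ = 1 ∧ (∀ (n : ℕ) (μ : QBar), μ ^ 2 ^ n = 1 → τ μ = μ) ∧
      τ (sqrtOf u) = -sqrtOf u ∧ ∀ l, l.Prime → l ≠ u → τ (sqrtOf l) = sqrtOf l := by
  obtain ⟨A, hA⟩ := exists_liesOverPrime hu
  obtain ⟨τ, hτ, hne⟩ := Mazur.Eisenstein.exists_inertia_ne hA hu Nat.prime_two (sqrtOf_sq u)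
  exact ⟨τ, Fr.unramified u hu hu2 huT A hA τ hτ, fun n μ hμ => inertia_root hA hu hτ hμ fun h =>
      hu2 ((Nat.prime_dvd_prime_iff_eq hu Nat.prime_two).mp (hu.dvd_of_dvd_pow h)),
    (map_sqrt (sqrtOf_sq' u) τ).resolve_left hne, fun l hl hne' =>
      inertia_fix_sqrt hu hu2 hA hτ (sqrtOf_sq' l) fun h =>
        hne' ((Nat.prime_dvd_prime_iff_eq hu hl).mp (Int.natCast_dvd_natCast.mp h)).symm⟩

/-! ### Choice of primes -/

/-- Distinct primes with Frobenius agreeing with given elements on a finite level. -/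
theorem exists_frobenius_agree {ι : Type} [Fintype ι] (σ : ι → GQ) (avoid : Finset ℕ)
    (M : IntermediateField ℚ QBar) [FiniteDimensional ℚ M] :
    ∃ (q : ι → ℕ) (P : ι → ValuationSubring QBar) (φ : ι → GQ), Function.Injective q ∧
      ∀ i, (q i).Prime ∧ q i ∉ avoid ∧ (P i).LiesOverPrime (q i) ∧
        (P i).IsFrobeniusAt (φ i) (q i) ∧ ∀ x ∈ M, φ i x = σ i x := by
  let L' : IntermediateField ℚ QBar := IntermediateField.normalClosure ℚ M QBar
  haveI : Normal ℚ L' := normalClosure.normal ℚ M QBar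
  haveI : IsGalois ℚ L' := ⟨⟩
  haveI : FiniteDimensional ℚ L' := normalClosure.is_finiteDimensional ℚ M QBar
  have hcand : ∀ (i : ι) (S : Finset ℕ), ∃ q, q ∉ S ∧ (q.Prime ∧ q ∉ avoid ∧
      ∃ A : ValuationSubring QBar, ∃ φ : GQ, A.LiesOverPrime q ∧ A.IsFrobeniusAt φ q ∧
        ∀ x ∈ M, φ x = σ i x) := fun i S => by
    obtain ⟨q, hq, hqS, A, hA, φ, hφ, he⟩ := exists_frobenius_restrict_eq L' (σ i) (S ∪ avoid)
    simp only [Finset.mem_union, not_or] at hqS
    refine ⟨q, hqS.1, hq, hqS.2, A, φ, hA, hφ, fun x hx => ?_⟩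
    have h1 := AlgEquiv.restrictNormal_commutes φ L' ⟨x, M.le_normalClosure hx⟩
    have h2 := AlgEquiv.restrictNormal_commutes (σ i) L' ⟨x, M.le_normalClosure hx⟩
    change φ.restrictNormal L' = (σ i).restrictNormal L' at he
    rw [he, h2] at h1
    exact h1.symm
  obtain ⟨q, hq, hinj⟩ := CFT.TWPrimes.exists_injOn_choice hcand Finset.univ ∅
  choose h1 h2 P φ h3 h4 h5 using fun i => (hq i (Finset.mem_univ i)).1
  exact ⟨q, P, φ, fun i j e => hinj (Finset.mem_univ i) (Finset.mem_univ j) e,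
    fun i => ⟨h1 i, h2 i, h3 i, h4 i, h5 i⟩⟩

/-- A level containing given finite data: a root of unity and square roots of given primes. -/
theorem exists_level (M : IntermediateField ℚ QBar) [FiniteDimensional ℚ M] (k : ℕ)
    (S : Finset ℕ) :
    ∃ (L : IntermediateField ℚ QBar) (ζ : QBar), FiniteDimensional ℚ L ∧ M ≤ L ∧
      IsPrimitiveRoot ζ (2 ^ k) ∧ ζ ∈ L ∧ (∀ l ∈ S, sqrtOf l ∈ L) ∧
      ∀ σ : GQ, (∀ x ∈ L, σ x = x) → Fr.ρ σ = 1 := by
  classical
  obtain ⟨ζ, hζ⟩ := HasEnoughRootsOfUnity.exists_primitiveRoot QBar (2 ^ k)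
  obtain ⟨L₀, hL₀, h₀⟩ := Fr.ρ_finiteLevel
  let s : Finset QBar := insert ζ (S.image sqrtOf)
  haveI : Finite (s : Set QBar) := s.finite_toSet.to_subtype
  haveI : FiniteDimensional ℚ (IntermediateField.adjoin ℚ (s : Set QBar)) :=
    IntermediateField.finiteDimensional_adjoin fun x _ => Algebra.IsIntegral.isIntegral x
  have hs : ∀ x ∈ s, x ∈ M ⊔ L₀ ⊔ IntermediateField.adjoin ℚ (s : Set QBar) := fun x hx =>
    (le_sup_right : IntermediateField.adjoin ℚ (s : Set QBar) ≤ M ⊔ L₀ ⊔ _)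
      (IntermediateField.subset_adjoin _ _ hx)
  exact ⟨_, ζ, inferInstance, le_sup_left.trans le_sup_left, hζ, hs ζ (Finset.mem_insert_self _ _),
    fun l hl => hs _ (Finset.mem_insert_of_mem (Finset.mem_image_of_mem _ hl)),
    fun σ hσ => h₀ σ fun x hx => hσ x ((le_sup_right.trans le_sup_left : L₀ ≤ _) hx)⟩

/-- A Frobenius fixing a primitive root of unity of two power order. -/
theorem dvd_sub_one_of_fix {q k : ℕ} (hq : q.Prime) (hq2 : q ≠ 2) {P : ValuationSubring QBar}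
    (hP : P.LiesOverPrime q) {φ : GQ} (hφ : P.IsFrobeniusAt φ q) {ζ : QBar}
    (hζ : IsPrimitiveRoot ζ (2 ^ k)) (hfix : φ ζ = ζ) : 2 ^ k ∣ q - 1 := by
  haveI : NeZero (2 ^ k) := ⟨by positivity⟩
  have h := frobenius_root hP hq hφ hζ.pow_eq_one fun h =>
    hq2 ((Nat.prime_dvd_prime_iff_eq hq Nat.prime_two).mp (hq.dvd_of_dvd_pow h))
  have h1 := natCast_eq_of_pow_eq hζ (a := 1) (b := q) (by rw [pow_one, ← h, hfix])
  exact (Nat.modEq_iff_dvd' hq.one_le).mp ((ZMod.natCast_eq_natCast_iff _ _ _).mp h1)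

/-- A Frobenius at `q` fixes `√l` exactly when `l` is a square modulo `q`. -/
theorem frobenius_sqrt {q l : ℕ} (hq : q.Prime) (hq2 : q ≠ 2) (hl : l.Prime) (hql : q ≠ l)
    {P : ValuationSubring QBar} (hP : P.LiesOverPrime q) {φ : GQ} (hφ : P.IsFrobeniusAt φ q) :
    φ (sqrtOf l) = sqrtOf l ↔ IsSquare (l : ZMod q) := by
  haveI := Fact.mk hq
  set y := sqrtOf l with hy
  have hy2 : y ^ 2 = (l : QBar) := sqrtOf_sq l
  have hint : IsIntegral ℤ y := IsIntegral.of_pow two_pos (by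
    rw [hy2, ← map_natCast (algebraMap ℤ QBar)]; exact isIntegral_algebraMap)
  have hf := (isFrobeniusAt_iff hP hq).mp hφ y hint
  have hpow : y ^ q = y * ((l ^ (q / 2) : ℕ) : QBar) := by
    have hodd : q = 2 * (q / 2) + 1 := by
      rcases hq.eq_two_or_odd with h | h <;> omega
    conv_lhs => rw [hodd]
    rw [pow_succ, pow_mul, hy2, Nat.cast_pow, mul_comm]
  have hl0 : (l : ZMod q) ≠ 0 := fun h => hql
    ((Nat.prime_dvd_prime_iff_eq hq hl).mp ((ZMod.natCast_eq_zero_iff _ _).mp h))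
  have hyA : y ∈ P := mem_of_isIntegral P hint
  have key : ∀ e : ℤ, ((l ^ (q / 2) : ℕ) : ZMod q) = (e : ZMod q) → (e = 1 ∨ e = -1) →
      φ y = e * y := by
    intro e he hee
    have h2 : ((((l ^ (q / 2) : ℕ) : ℤ) - e : ℤ) : QBar) ∈ P.nonunits := by
      rw [intCast_mem_nonunits_iff hP hq, ← ZMod.intCast_zmod_eq_zero_iff_dvd, Int.cast_sub,
        Int.cast_natCast, he, sub_self]
    have h3 : φ y - e * y ∈ P.nonunits := by
      have h4 := nonunits_add hf (nonunits_mul_left hyA h2)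
      convert h4 using 1
      rw [hpow]
      push_cast
      ring
    by_contra hne'
    have hh : φ y = -(e * y) := by
      rcases map_sqrt (sqrtOf_sq' l) φ with hh | hh <;> rcases hee with rfl | rfl
      · exact absurd (by rw [hh]; push_cast; ring) hne'
      · rw [hh]; push_cast; ring
      · rw [hh]; push_cast; ring
      · exact absurd (by rw [hh]; push_cast; ring) hne'
    have h5 := nonunits_mul_left (mem_of_mem_nonunits h3) h3
    rw [hh] at h5
    have h6 : ((4 * l : ℕ) : QBar) ∈ P.nonunits := by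
      convert h5 using 1
      push_cast
      rw [← hy2]
      rcases hee with rfl | rfl <;> (push_cast; ring)
    rcases hq.dvd_mul.mp ((natCast_mem_nonunits_iff hP hq _).mp h6) with h7 | h7
    · exact hq2 ((Nat.prime_dvd_prime_iff_eq hq Nat.prime_two).mp
        (hq.dvd_of_dvd_pow (show q ∣ 2 ^ 2 from h7)))
    · exact hql ((Nat.prime_dvd_prime_iff_eq hq hl).mp h7)
  constructor
  · intro hfix
    by_contra hns
    have hm1 : (l : ZMod q) ^ (q / 2) = -1 :=
      (ZMod.pow_div_two_eq_neg_one_or_one q hl0).resolve_left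
        (fun h => hns ((ZMod.euler_criterion q hl0).mpr h))
    have h := key (-1) (by push_cast; exact hm1) (Or.inr rfl)
    rw [hfix] at h
    exact sqrtOf_ne_neg hl (by rw [← hy]; push_cast at h; linear_combination -h)
  · intro hsq
    simpa using key 1 (by push_cast; exact (ZMod.euler_criterion q hl0).mp hsq) (Or.inl rfl)

end Fermat.Agent.TwoAdic.Selmer.Select
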