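import Fermat.Agent.TwoAdic.Selmer.Twist

/-!
# Two-power quotients of tame inertia

Inertia at an odd prime `q` acts through a cyclic group on any level where it has two-power
exponent, generated by an element moving a square root of `q`; Frobenius raises it to the `q`-th
power. Decomposition groups are generated by Frobenius and inertia on finite levels.
-/

set_option autoImplicit false
set_option linter.style.haveILetI false

noncomputable section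

namespace Fermat.Agent.TwoAdic.Selmer

open Fermat.Agent.Deform Fermat.Agent.Arith Fermat.Agent.CFT.Tangent
open scoped Pointwise

/-- A square root. -/
def sqrtOf (x : QBar) : QBar := (IsAlgClosed.exists_pow_nat_eq x two_pos).choose

theorem sqrtOf_sq (x : QBar) : sqrtOf x ^ 2 = x :=
  (IsAlgClosed.exists_pow_nat_eq x two_pos).choose_spec

variable {P : ValuationSubring QBar} {q : ℕ}

theorem exists_inertia_moves (hP : P.LiesOverPrime q) (hq : q.Prime) :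
    ∃ σ ∈ P.inertiaSubgroupIn ℚ, σ (sqrtOf q) ≠ sqrtOf q :=
  Mazur.Eisenstein.exists_inertia_ne hP hq Nat.prime_two (sqrtOf_sq _)

/-- The level cut out by an open subgroup. -/
theorem exists_level_of_open (K : Subgroup GQ) [K.Normal] (hK : IsOpen (K : Set GQ)) :
    ∃ L : IntermediateField ℚ QBar, FiniteDimensional ℚ L ∧ IsGalois ℚ L ∧
      ∀ σ : GQ, (∀ x ∈ L, σ x = x) ↔ σ ∈ K := by
  have hKclosed : IsClosed (K : Set GQ) := Subgroup.isClosed_of_isOpen K hK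
  set L : IntermediateField ℚ QBar := IntermediateField.fixedField K
  have hfix : L.fixingSubgroup = K := InfiniteGalois.fixingSubgroup_fixedField ⟨K, hKclosed⟩
  refine ⟨L, ?_, (InfiniteGalois.normal_iff_isGalois L).mp (hfix ▸ inferInstance), fun σ => ?_⟩
  · exact (InfiniteGalois.isOpen_iff_finite L).mp (hfix ▸ hK)
  · rw [← IntermediateField.mem_fixingSubgroup_iff, hfix]

theorem exists_pow_eq_of_open (hP : P.LiesOverPrime q) (hq : q.Prime) (hq2 : q ≠ 2)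
    (K : Subgroup GQ) [K.Normal] (hK : IsOpen (K : Set GQ))
    (hpow : ∀ σ ∈ P.inertiaSubgroupIn ℚ, σ ^ 4 ∈ K) {σ₀ : GQ}
    (hσ₀ : σ₀ ∈ P.inertiaSubgroupIn ℚ) (hne : σ₀ (sqrtOf q) ≠ sqrtOf q) {σ : GQ}
    (hσ : σ ∈ P.inertiaSubgroupIn ℚ) : ∃ j : ℕ, (σ₀ ^ j)⁻¹ * σ ∈ K := by
  obtain ⟨L, hLf, hLg, hL⟩ := exists_level_of_open K hK
  obtain ⟨j, hj⟩ := Mazur.Eisenstein.exists_pow_eq hP hq Nat.prime_two (Ne.symm hq2)
    (sqrtOf_sq _) hσ₀ hne L (fun τ hτ => ⟨2, fun x hx => (hL _).mpr (hpow τ hτ) x hx⟩) hσ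
  refine ⟨j, (hL _).mp fun x hx => ?_⟩
  rw [AlgEquiv.mul_apply, hj x hx, ← AlgEquiv.mul_apply, inv_mul_cancel, AlgEquiv.one_apply]

theorem frobenius_conj_of_open (hP : P.LiesOverPrime q) (hq : q.Prime) (hq2 : q ≠ 2)
    (K : Subgroup GQ) [K.Normal] (hK : IsOpen (K : Set GQ))
    (hpow : ∀ σ ∈ P.inertiaSubgroupIn ℚ, σ ^ 4 ∈ K) {φ : GQ} (hφ : P.IsFrobeniusAt φ q)
    {σ : GQ} (hσ : σ ∈ P.inertiaSubgroupIn ℚ) : (σ ^ q)⁻¹ * (φ * σ * φ⁻¹) ∈ K := by
  obtain ⟨L, hLf, hLg, hL⟩ := exists_level_of_open K hK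
  refine (hL _).mp fun x hx => ?_
  rw [AlgEquiv.mul_apply, Mazur.Eisenstein.frobenius_conj hP hq Nat.prime_two (Ne.symm hq2) L
    (fun τ hτ => ⟨2, fun y hy => (hL _).mpr (hpow τ hτ) y hy⟩) hφ hσ x hx, ← AlgEquiv.mul_apply,
    inv_mul_cancel, AlgEquiv.one_apply]

/-- On an open normal subgroup's level the decomposition group is generated by Frobenius and
inertia. -/
theorem exists_frobenius_mul_inertia_at (hP : P.LiesOverPrime q) (hq : q.Prime)
    (K : Subgroup GQ) [K.Normal] (hK : IsOpen (K : Set GQ)) {φ : GQ}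
    (hφ : P.IsFrobeniusAt φ q) {σ : GQ} (hσ : σ ∈ P.decompositionSubgroup ℚ) :
    ∃ i : ℕ, ∃ τ ∈ P.inertiaSubgroupIn ℚ, (φ ^ i * τ)⁻¹ * σ ∈ K := by
  haveI : Fact q.Prime := ⟨hq⟩
  obtain ⟨g, hg⟩ := exists_smul_eq hP (CFT.Local.padicPlace_liesOverPrime q) hq
  obtain ⟨L, hLf, hLg, hL⟩ := exists_level_of_open K hK
  have hd : g * σ * g⁻¹ ∈ (padicPlace q).decompositionSubgroup ℚ := by
    show (g * σ * g⁻¹) • padicPlace q = padicPlace q
    rw [← hg, mul_smul, mul_smul, inv_smul_smul, show σ • P = P from hσ]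
  obtain ⟨i, τ, hτ, he⟩ := CFT.Tangent.exists_frobenius_mul_inertia L
    (hg ▸ isFrobeniusAt_conj (g := g) hφ) hd
  refine ⟨i, g⁻¹ * τ * g, ?_, ?_⟩
  · have := (mem_inertia_smul_iff (g := g⁻¹)).mpr hτ
    rwa [← hg, inv_smul_smul, inv_inv] at this
  · have h1 : (((g * φ * g⁻¹) ^ i * τ)⁻¹ * (g * σ * g⁻¹)) ∈ K := (hL _).mp fun x hx => by
      rw [AlgEquiv.mul_apply, he x hx, ← AlgEquiv.mul_apply, inv_mul_cancel, AlgEquiv.one_apply]
    have e : (φ ^ i * (g⁻¹ * τ * g))⁻¹ * σ =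
        g⁻¹ * (((g * φ * g⁻¹) ^ i * τ)⁻¹ * (g * σ * g⁻¹)) * g⁻¹⁻¹ := by
      rw [conj_pow]; group
    rw [e]
    exact Subgroup.Normal.conj_mem inferInstance _ h1 g⁻¹

section Kernel

variable {k : Type} [Field k] [Algebra (ZMod 2) k] (Fr : Frame)

/-- The residual representation over an extension of `F₂`. -/
def Frame.rhoK (k : Type) [Field k] [Algebra (ZMod 2) k] : GQ →* M2 k :=
  mapM (algebraMap (ZMod 2) k) Fr.ρ

theorem Frame.rhoK_apply (σ : GQ) : Fr.rhoK k σ = liftM k (Fr.ρ σ) := rfl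

theorem Frame.rhoK_of_eq_one {σ : GQ} (h : Fr.ρ σ = 1) : Fr.rhoK k σ = 1 := by
  rw [Fr.rhoK_apply, h, map_one]

variable {Fr} {b : GQ → M2 k}

/-- The joint kernel of the representation and a cocycle. -/
def jointKer (Fr : Frame) (hb : IsAdCocycle (Fr.rhoK k) b) : Subgroup GQ where
  carrier := {σ | Fr.ρ σ = 1 ∧ b σ = 0}
  one_mem' := ⟨map_one _, hb.one⟩
  mul_mem' := fun {σ τ} hσ hτ => ⟨by rw [map_mul, hσ.1, hτ.1, one_mul], by
    rw [hb, hσ.2, hτ.2, mul_zero, zero_mul, add_zero]⟩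
  inv_mem' := fun {σ} hσ => by
    have h1 : Fr.ρ σ⁻¹ = 1 := by have h := CFT.Tangent.map_inv_mul Fr.ρ σ; rwa [hσ.1, mul_one] at h
    refine ⟨h1, ?_⟩
    have h := hb σ⁻¹ σ
    rw [inv_mul_cancel, hb.one, hσ.2, mul_zero, zero_mul, zero_add] at h
    exact h.symm

theorem jointKer_normal (hb : IsAdCocycle (Fr.rhoK k) b) : (jointKer Fr hb).Normal := by
  refine ⟨fun σ hσ g => ?_⟩
  have h1 : Fr.ρ (g * σ * g⁻¹) = 1 := by rw [map_mul, map_mul, hσ.1, mul_one, CFT.Tangent.map_mul_inv]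
  have h1' : Fr.ρ (g * σ * g⁻¹)⁻¹ = 1 := by
    have h := CFT.Tangent.map_inv_mul Fr.ρ (g * σ * g⁻¹); rwa [h1, mul_one] at h
  refine ⟨h1, ?_⟩
  rw [hb.conj, hσ.2, Fr.rhoK_of_eq_one h1, Fr.rhoK_of_eq_one h1', mul_zero, zero_mul, zero_add,
    one_mul, mul_one, sub_self]

theorem jointKer_isOpen (hb : IsAdCocycle (Fr.rhoK k) b) (hfin : IsFiniteLevel b) :
    IsOpen (jointKer Fr hb : Set GQ) := by
  obtain ⟨L, hL, h⟩ := hfin
  obtain ⟨L', hL', h'⟩ := Fr.ρ_finiteLevel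
  haveI : FiniteDimensional ℚ (L ⊔ L' : IntermediateField ℚ QBar) :=
    IntermediateField.finiteDimensional_sup _ _
  refine Subgroup.isOpen_mono (fun σ hσ => ?_) (L ⊔ L' : IntermediateField ℚ QBar).fixingSubgroup_isOpen
  rw [IntermediateField.mem_fixingSubgroup_iff] at hσ
  exact ⟨h' σ fun x hx => hσ x (le_sup_right (α := IntermediateField ℚ QBar) hx),
    h σ fun x hx => hσ x (le_sup_left (α := IntermediateField ℚ QBar) hx)⟩

theorem eq_of_mem_jointKer (hb : IsAdCocycle (Fr.rhoK k) b) {σ σ' : GQ}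
    (h : σ'⁻¹ * σ ∈ jointKer Fr hb) : b σ = b σ' ∧ Fr.ρ σ = Fr.ρ σ' := by
  refine ⟨hb.congr h.2, ?_⟩
  conv_lhs => rw [← mul_inv_cancel_left σ' σ, map_mul, h.1, mul_one]

theorem pow_four_mem_jointKer (hb : IsAdCocycle (Fr.rhoK k) b) {σ : GQ}
    (h : Fr.ρ (σ * σ) = 1) : σ ^ 4 ∈ jointKer Fr hb := by
  rw [show σ ^ 4 = σ * σ * (σ * σ) by simp only [pow_succ, pow_zero, one_mul, mul_assoc]]
  refine ⟨by rw [map_mul, h, one_mul], ?_⟩
  have h' : Fr.ρ (σ * σ)⁻¹ = 1 := by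
    have e := CFT.Tangent.map_inv_mul Fr.ρ (σ * σ); rwa [h, mul_one] at e
  rw [hb, Fr.rhoK_of_eq_one h, Fr.rhoK_of_eq_one h', one_mul, mul_one]
  ext i j
  exact two_smul_eq_zero' _

end Kernel

end Fermat.Agent.TwoAdic.Selmer
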