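import Fermat.Agent.TwoAdic.Selmer.Gram

/-!
# A symmetric integral ternary form with unit determinant over `ℚ_q`, `q` odd, is isotropic

Chevalley–Warning and Hensel's lemma in one variable.
-/

set_option autoImplicit false

noncomputable section

namespace Fermat.Agent.TwoAdic.Selmer

open Matrix

variable {q : ℕ} [Fact q.Prime]

theorem toZMod_eq_zero_iff_norm {x : ℤ_[q]} : PadicInt.toZMod x = 0 ↔ ‖x‖ < 1 := by
  rw [← RingHom.mem_ker, PadicInt.ker_toZMod, IsLocalRing.mem_maximalIdeal, PadicInt.mem_nonunits]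

theorem norm_eq_one_of_toZMod_ne_zero {x : ℤ_[q]} (h : PadicInt.toZMod x ≠ 0) : ‖x‖ = 1 :=
  le_antisymm (PadicInt.norm_le_one x) (not_lt.mp fun h' => h (toZMod_eq_zero_iff_norm.mpr h'))

theorem exists_ne_zero_dotProduct_mulVec_eq_zero (N : Matrix (Fin 3) (Fin 3) (ZMod q)) :
    ∃ x : Fin 3 → ZMod q, x ≠ 0 ∧ x ⬝ᵥ N *ᵥ x = 0 := by
  classical
  set f : MvPolynomial (Fin 3) (ZMod q) :=
    ∑ j : Fin 3, ∑ k : Fin 3, MvPolynomial.C (N j k) * MvPolynomial.X j * MvPolynomial.X k with hf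
  have hdeg : f.totalDegree < Fintype.card (Fin 3) := by
    refine lt_of_le_of_lt ?_ (by simp : (2 : ℕ) < Fintype.card (Fin 3))
    refine (MvPolynomial.totalDegree_finsetSum _ _).trans (Finset.sup_le fun j _ => ?_)
    refine (MvPolynomial.totalDegree_finsetSum _ _).trans (Finset.sup_le fun k _ => ?_)
    refine (MvPolynomial.totalDegree_mul _ _).trans ?_
    refine add_le_add (((MvPolynomial.totalDegree_mul _ _).trans (add_le_add
      (MvPolynomial.totalDegree_C _).le (MvPolynomial.totalDegree_X _).le)).trans (zero_add 1).le)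
      (MvPolynomial.totalDegree_X _).le
  have heval : ∀ x : Fin 3 → ZMod q, MvPolynomial.eval x f = x ⬝ᵥ N *ᵥ x := by
    intro x
    simp [hf, dotProduct, mulVec, Fin.sum_univ_three]
    ring
  have h := char_dvd_card_solutions q hdeg
  have hcard : 1 < Fintype.card {x : Fin 3 → ZMod q // MvPolynomial.eval x f = 0} := by
    have hpos : 0 < Fintype.card {x : Fin 3 → ZMod q // MvPolynomial.eval x f = 0} :=
      Fintype.card_pos_iff.mpr ⟨⟨0, by rw [heval]; simp⟩⟩
    exact lt_of_lt_of_le (Fact.out : q.Prime).one_lt (Nat.le_of_dvd hpos h)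
  obtain ⟨⟨x, hx⟩, hne⟩ := Fintype.exists_ne_of_one_lt_card hcard ⟨0, by rw [heval]; simp⟩
  exact ⟨x, fun h0 => hne (Subtype.ext h0), (heval x).symm.trans hx⟩

/-- A symmetric matrix with integral entries and unit determinant gives an isotropic form. -/
theorem matIso_of_unit_det (hq2 : q ≠ 2) {N : Matrix (Fin 3) (Fin 3) ℚ_[q]} (hsym : N.IsSymm)
    (hint : ∀ j k, ‖N j k‖ ≤ 1) (hdet : ‖N.det‖ = 1) : MatIso N := by
  set N0 : Matrix (Fin 3) (Fin 3) ℤ_[q] := Matrix.of fun j k => ⟨N j k, hint j k⟩ with hN0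
  have hN : N0.map PadicInt.Coe.ringHom = N := by ext j k; rfl
  have hsym0 : N0.IsSymm := by
    ext j k
    exact Subtype.ext (hsym.apply j k)
  set Nb := N0.map PadicInt.toZMod with hNb
  have hdetb : Nb.det ≠ 0 := by
    rw [hNb, ← RingHom.mapMatrix_apply, ← RingHom.map_det, Ne, toZMod_eq_zero_iff_norm,
      PadicInt.norm_def]
    have e : ((N0.det : ℤ_[q]) : ℚ_[q]) = N.det := by
      conv_rhs => rw [← hN, ← RingHom.mapMatrix_apply, ← RingHom.map_det]
      rfl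
    rw [e, hdet]
    exact lt_irrefl 1
  obtain ⟨x, hx0, hx⟩ := exists_ne_zero_dotProduct_mulVec_eq_zero Nb
  obtain ⟨l, hl⟩ : ∃ l, (Nb *ᵥ x) l ≠ 0 := Function.ne_iff.mp fun h => hx0
    (mulVec_injective_iff_isUnit.mpr ((isUnit_iff_isUnit_det Nb).mpr (Ne.isUnit hdetb))
      (h.trans (mulVec_zero Nb).symm))
  set x0 : Fin 3 → ℤ_[q] := fun j => ((x j).val : ℤ_[q]) with hx0def
  have hmod : PadicInt.toZMod ∘ x0 = x := funext fun j => by simp [hx0def]
  have hQ : PadicInt.toZMod (x0 ⬝ᵥ N0 *ᵥ x0) = 0 := by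
    rw [RingHom.map_dotProduct, show PadicInt.toZMod ∘ (N0 *ᵥ x0) = Nb *ᵥ (PadicInt.toZMod ∘ x0)
      from funext fun j => RingHom.map_mulVec _ N0 x0 j, hmod]
    exact hx
  have hD : PadicInt.toZMod (2 * (N0 *ᵥ x0) l) ≠ 0 := by
    rw [map_mul, RingHom.map_mulVec, hmod, map_ofNat]
    refine mul_ne_zero ?_ hl
    rw [Ne, show (2 : ZMod q) = ((2 : ℕ) : ZMod q) by norm_num, ZMod.natCast_eq_zero_iff]
    exact fun h => hq2 ((Nat.prime_dvd_prime_iff_eq Fact.out Nat.prime_two).mp h)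
  set P : Polynomial ℤ_[q] := Polynomial.C (x0 ⬝ᵥ N0 *ᵥ x0) +
    Polynomial.C (2 * (N0 *ᵥ x0) l) * Polynomial.X + Polynomial.C (N0 l l) * Polynomial.X ^ 2
    with hP
  have hd : P.derivative.aeval (0 : ℤ_[q]) = 2 * (N0 *ᵥ x0) l := by
    simp [hP, Polynomial.derivative_add]
  obtain ⟨z, hz, hz1, -⟩ := hensels_lemma (F := P) (a := (0 : ℤ_[q])) (by
    rw [hd, norm_eq_one_of_toZMod_ne_zero hD, one_pow,
      show P.aeval (0 : ℤ_[q]) = x0 ⬝ᵥ N0 *ᵥ x0 by simp [hP]]
    exact toZMod_eq_zero_iff_norm.mp hQ)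
  rw [hd, norm_eq_one_of_toZMod_ne_zero hD, sub_zero] at hz1
  set y : Fin 3 → ℤ_[q] := x0 + Pi.single l z with hy
  have hy0 : y ≠ 0 := by
    intro h
    refine hx0 (funext fun j => ?_)
    rw [← hmod]
    have hj := congrArg PadicInt.toZMod (congrFun h j)
    have hsingle : PadicInt.toZMod (Pi.single (M := fun _ => ℤ_[q]) l z j) = 0 := by
      by_cases hjl : j = l
      · subst hjl; rw [Pi.single_eq_same]; exact toZMod_eq_zero_iff_norm.mpr hz1
      · rw [Pi.single_eq_of_ne hjl, map_zero]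
    rw [hy, Pi.add_apply, map_add, hsingle, add_zero, Pi.zero_apply, map_zero] at hj
    exact hj
  have hcross : x0 ⬝ᵥ N0 *ᵥ Pi.single l z = z * (N0 *ᵥ x0) l := by
    rw [dotProduct_mulVec, ← mulVec_transpose, hsym0.eq, dotProduct_single, mul_comm]
  have hyQ : y ⬝ᵥ N0 *ᵥ y = 0 := by
    have hz' : x0 ⬝ᵥ N0 *ᵥ x0 + 2 * (N0 *ᵥ x0) l * z + N0 l l * z ^ 2 = 0 := by
      simpa [hP] using hz
    rw [hy, mulVec_add, dotProduct_add, add_dotProduct, add_dotProduct, hcross,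
      single_dotProduct, single_dotProduct, show (N0 *ᵥ Pi.single l z) l = N0 l l * z from by
        simp [mulVec, dotProduct_single]]
    linear_combination hz'
  refine ⟨fun j => (y j : ℚ_[q]), fun h => hy0 (funext fun j => Subtype.ext (congrFun h j)), ?_⟩
  have := congrArg (PadicInt.Coe.ringHom (p := q)) hyQ
  rw [RingHom.map_dotProduct, map_zero] at this
  have hmv : N0.map (PadicInt.Coe.ringHom (p := q)) *ᵥ (fun j => (y j : ℚ_[q])) =
      (PadicInt.Coe.ringHom (p := q)) ∘ (N0 *ᵥ y) :=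
    funext fun j => (RingHom.map_mulVec (PadicInt.Coe.ringHom (p := q)) N0 y j).symm
  rw [← hN, hmv]
  exact this

end Fermat.Agent.TwoAdic.Selmer
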